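import Mathlib
import Fermat.Prelude.Def_ModularForm_HeckeOperator

/-!
# Hermite normal form `M = g · (a b; 0 d)` for integral `2 × 2` matrices of positive determinant

Package (B3) of the S22 period-lattice plan.
-/

set_option autoImplicit false

namespace Fermat.Agent.S22

open Matrix
open scoped MatrixGroups

/-- Hermite form: an integral matrix of positive determinant is `g * (a b; 0 d)` with
`g ∈ SL(2, ℤ)` and `a, d > 0`. -/
theorem exists_hermite (M : Matrix (Fin 2) (Fin 2) ℤ) (hM : 0 < M.det) :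
    ∃ (g : SL(2, ℤ)) (a b d : ℤ), 0 < a ∧ 0 < d ∧ a * d = M.det ∧
      M = (g : Matrix (Fin 2) (Fin 2) ℤ) * !![a, b; 0, d] := by
  set x := M 0 0 with hx
  set z := M 1 0 with hz
  have hdet : M.det = x * M 1 1 - M 0 1 * z := by rw [Matrix.det_fin_two]
  have hxz : ¬ (x = 0 ∧ z = 0) := by
    rintro ⟨h1, h2⟩
    rw [hdet, h1, h2] at hM
    simp at hM
  have hgpos : 0 < Int.gcd x z := by
    rw [Int.gcd_pos_iff]
    tauto
  obtain ⟨a₀, x', z', ha₀, hgcd, hx'', hz''⟩ := Int.exists_gcd_one' hgpos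
  set a : ℤ := (a₀ : ℤ) with ha
  have hapos : 0 < a := by rw [ha]; exact_mod_cast ha₀
  have hx' : x = a * x' := by rw [hx'', mul_comm]
  have hz' : z = a * z' := by rw [hz'', mul_comm]
  have hcop : IsCoprime x' z' := Int.isCoprime_iff_gcd_eq_one.mpr hgcd
  obtain ⟨g, hg0, hg1⟩ := hcop.exists_SL2_col 0
  have hgdet : g 0 0 * g 1 1 - g 0 1 * g 1 0 = 1 := by
    have := g.det_coe
    rwa [Matrix.det_fin_two] at this
  set b : ℤ := g 1 1 * M 0 1 - g 0 1 * M 1 1 with hb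
  set d : ℤ := -g 1 0 * M 0 1 + g 0 0 * M 1 1 with hd
  have had : a * d = M.det := by
    rw [hdet, hd, hx', hz', hg0, hg1]
    ring
  have hdpos : 0 < d := by
    have : 0 < a * d := by rw [had]; exact hM
    exact pos_of_mul_pos_right this hapos.le
  refine ⟨g, a, b, d, hapos, hdpos, had, ?_⟩
  ext i j
  fin_cases i <;> fin_cases j
  · simp only [Fin.zero_eta, Fin.isValue, Matrix.mul_apply, Fin.sum_univ_two, Matrix.of_apply,
      Matrix.cons_val', Matrix.cons_val_zero, Matrix.cons_val_fin_one, Matrix.cons_val_one]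
    rw [← hx, hx', hg0]
    ring
  · simp only [Fin.zero_eta, Fin.mk_one, Fin.isValue, Matrix.mul_apply, Fin.sum_univ_two,
      Matrix.of_apply, Matrix.cons_val', Matrix.cons_val_zero, Matrix.cons_val_fin_one,
      Matrix.cons_val_one]
    rw [hb, hd]
    linear_combination (-(M 0 1)) * hgdet
  · simp only [Fin.mk_one, Fin.zero_eta, Fin.isValue, Matrix.mul_apply, Fin.sum_univ_two,
      Matrix.of_apply, Matrix.cons_val', Matrix.cons_val_zero, Matrix.cons_val_fin_one,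
      Matrix.cons_val_one]
    rw [← hz, hz', hg1]
    ring
  · simp only [Fin.mk_one, Fin.isValue, Matrix.mul_apply, Fin.sum_univ_two, Matrix.of_apply,
      Matrix.cons_val', Matrix.cons_val_zero, Matrix.cons_val_fin_one, Matrix.cons_val_one]
    rw [hb, hd]
    linear_combination (-(M 1 1)) * hgdet

/-- Hermite form in `GL(2, ℝ)`: if `δ` is (the image of) an integral matrix of positive
determinant and `g ∈ SL(2, ℤ)`, then `δ g = g' U` with `g' ∈ SL(2, ℤ)` and `U` upper triangular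
with positive integral diagonal. -/
theorem exists_hermite_GL (δ : GL (Fin 2) ℝ) (M : Matrix (Fin 2) (Fin 2) ℤ)
    (hδ : (δ : Matrix (Fin 2) (Fin 2) ℝ) = M.map (Int.cast : ℤ → ℝ)) (hM : 0 < M.det)
    (g : SL(2, ℤ)) :
    ∃ (g' : SL(2, ℤ)) (a b d : ℤ) (had : (a : ℝ) * (d : ℝ) ≠ 0), 0 < a ∧ 0 < d ∧ a * d = M.det ∧
      δ * (Matrix.SpecialLinearGroup.mapGL ℝ g : GL (Fin 2) ℝ) =
        (Matrix.SpecialLinearGroup.mapGL ℝ g' : GL (Fin 2) ℝ) *
          ModularForm.upperTriangularGL a b d had := by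
  have hdet : 0 < (M * (g : Matrix (Fin 2) (Fin 2) ℤ)).det := by
    rw [Matrix.det_mul, g.det_coe, mul_one]
    exact hM
  obtain ⟨g', a, b, d, ha, hd, had, hMg⟩ := exists_hermite _ hdet
  have had' : (a : ℝ) * (d : ℝ) ≠ 0 :=
    (mul_pos (Int.cast_pos.mpr ha) (Int.cast_pos.mpr hd)).ne'
  refine ⟨g', a, b, d, had', ha, hd, ?_, ?_⟩
  · rw [had, Matrix.det_mul, g.det_coe, mul_one]
  · apply Matrix.GeneralLinearGroup.ext
    intro i j
    have h1 : ((δ * (Matrix.SpecialLinearGroup.mapGL ℝ g : GL (Fin 2) ℝ) : GL (Fin 2) ℝ) :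
        Matrix (Fin 2) (Fin 2) ℝ) = (M * (g : Matrix (Fin 2) (Fin 2) ℤ)).map (Int.cast : ℤ → ℝ) := by
      rw [Matrix.GeneralLinearGroup.coe_mul, hδ, Matrix.map_mul_intCast]
      rfl
    have h2 : (((Matrix.SpecialLinearGroup.mapGL ℝ g' : GL (Fin 2) ℝ) *
        ModularForm.upperTriangularGL a b d had' : GL (Fin 2) ℝ) : Matrix (Fin 2) (Fin 2) ℝ) =
        ((g' : Matrix (Fin 2) (Fin 2) ℤ) * !![a, b; 0, d]).map (Int.cast : ℤ → ℝ) := by
      rw [Matrix.GeneralLinearGroup.coe_mul, Matrix.map_mul_intCast,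
        ModularForm.val_upperTriangularGL]
      congr 1
      ext i j
      fin_cases i <;> fin_cases j <;> simp
    rw [h1, h2, hMg]

/-- Hermite form for the Hecke matrices `(1 j; 0 p)`. -/
theorem exists_hermite_heckeMatrix {p : ℕ} (hp : p ≠ 0) (j : ℕ) (g : SL(2, ℤ)) :
    ∃ (g' : SL(2, ℤ)) (a b d : ℤ) (had : (a : ℝ) * (d : ℝ) ≠ 0), 0 < a ∧ 0 < d ∧ a * d = p ∧
      ModularForm.heckeMatrix p j * (Matrix.SpecialLinearGroup.mapGL ℝ g : GL (Fin 2) ℝ) =
        (Matrix.SpecialLinearGroup.mapGL ℝ g' : GL (Fin 2) ℝ) *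
          ModularForm.upperTriangularGL a b d had := by
  have hM : (!![(1 : ℤ), (j : ℤ); 0, (p : ℤ)]).det = p := by
    rw [Matrix.det_fin_two_of]
    ring
  obtain ⟨g', a, b, d, had, ha, hd, hadp, h⟩ :=
    exists_hermite_GL (ModularForm.heckeMatrix p j) !![(1 : ℤ), (j : ℤ); 0, (p : ℤ)]
      (by
        rw [ModularForm.val_heckeMatrix hp]
        ext i j
        fin_cases i <;> fin_cases j <;> simp)
      (by rw [hM]; exact_mod_cast Nat.pos_of_ne_zero hp) g
  exact ⟨g', a, b, d, had, ha, hd, by rw [hadp, hM], h⟩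

/-- Hermite form for the Hecke matrices `(p 0; 0 1)`. -/
theorem exists_hermite_heckeDiagMatrix {p : ℕ} (hp : p ≠ 0) (g : SL(2, ℤ)) :
    ∃ (g' : SL(2, ℤ)) (a b d : ℤ) (had : (a : ℝ) * (d : ℝ) ≠ 0), 0 < a ∧ 0 < d ∧ a * d = p ∧
      ModularForm.heckeDiagMatrix p * (Matrix.SpecialLinearGroup.mapGL ℝ g : GL (Fin 2) ℝ) =
        (Matrix.SpecialLinearGroup.mapGL ℝ g' : GL (Fin 2) ℝ) *
          ModularForm.upperTriangularGL a b d had := by
  have hM : (!![(p : ℤ), (0 : ℤ); 0, (1 : ℤ)]).det = p := by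
    rw [Matrix.det_fin_two_of]
    ring
  obtain ⟨g', a, b, d, had, ha, hd, hadp, h⟩ :=
    exists_hermite_GL (ModularForm.heckeDiagMatrix p) !![(p : ℤ), (0 : ℤ); 0, (1 : ℤ)]
      (by
        rw [ModularForm.val_heckeDiagMatrix hp]
        ext i j
        fin_cases i <;> fin_cases j <;> simp)
      (by rw [hM]; exact_mod_cast Nat.pos_of_ne_zero hp) g
  exact ⟨g', a, b, d, had, ha, hd, by rw [hadp, hM], h⟩

end Fermat.Agent.S22
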