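import Mathlib

/-!
# Vertical ray integrals `∫_z^{i∞} G(w) dw` of holomorphic functions with exponential decay

Package (A) of the S22 period-lattice plan.
-/

set_option autoImplicit false

namespace Fermat.Agent.S22

open Complex MeasureTheory Set Filter Topology

/-- The vertical ray integral `∫_z^{i∞} G(w) dw`, along `Re w = Re z`. -/
noncomputable def vertInt (G : ℂ → ℂ) (z : ℂ) : ℂ :=
  I * ∫ t in Ioi z.im, G (z.re + t * I)

/-- Holomorphic on the upper half plane, with exponential decay as `Im → ∞`, locally uniformly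
in the real part. -/
structure VertDecay (G : ℂ → ℂ) : Prop where
  diff : DifferentiableOn ℂ G {z | 0 < z.im}
  decay : ∀ R : ℝ, ∃ C c A : ℝ, 0 < c ∧
    ∀ w : ℂ, |w.re| ≤ R → A ≤ w.im → ‖G w‖ ≤ C * Real.exp (-c * w.im)

namespace VertDecay

variable {G : ℂ → ℂ}

theorem continuousOn (hG : VertDecay G) : ContinuousOn G {z | 0 < z.im} := hG.diff.continuousOn

/-- continuity along a vertical line -/
theorem continuousOn_line (hG : VertDecay G) (x : ℝ) :
    ContinuousOn (fun t : ℝ => G (x + t * I)) (Ioi 0) := by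
  refine hG.continuousOn.comp (by fun_prop) ?_
  intro t ht
  simpa using ht

theorem integrableOn_line (hG : VertDecay G) (x : ℝ) {y : ℝ} (hy : 0 < y) :
    IntegrableOn (fun t : ℝ => G (x + t * I)) (Ioi y) := by
  obtain ⟨C, c, A, hc, hbd⟩ := hG.decay |x|
  set B := max A y with hB
  have h1 : IntegrableOn (fun t : ℝ => G (x + t * I)) (Ioc y B) := by
    apply IntegrableOn.mono_set (t := Icc y B) _ Ioc_subset_Icc_self
    apply ContinuousOn.integrableOn_Icc
    exact (hG.continuousOn_line x).mono (fun t ht => lt_of_lt_of_le hy ht.1)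
  have h2 : IntegrableOn (fun t : ℝ => G (x + t * I)) (Ioi B) := by
    have hexp : IntegrableOn (fun t : ℝ => C * Real.exp (-c * t)) (Ioi B) :=
      (exp_neg_integrableOn_Ioi B hc).const_mul C
    refine Integrable.mono' hexp ?_ ?_
    · refine ((hG.continuousOn_line x).mono ?_).aestronglyMeasurable measurableSet_Ioi
      intro t ht
      exact lt_of_lt_of_le hy ((le_max_right A y).trans (le_of_lt ht))
    · rw [ae_restrict_iff' measurableSet_Ioi]
      refine Eventually.of_forall (fun t ht => ?_)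
      have := hbd (x + t * I) (by simp) (by simpa using (le_max_left A y).trans (le_of_lt ht))
      simpa using this
  have hunion : Ioi y = Ioc y B ∪ Ioi B := (Ioc_union_Ioi_eq_Ioi (le_max_right A y)).symm
  rw [hunion]
  exact h1.union h2

/-- The top edge of the rectangle tends to zero. -/
theorem tendsto_top_edge (hG : VertDecay G) (x₁ x₂ : ℝ) :
    Tendsto (fun T : ℝ => ∫ x in x₁..x₂, G (x + T * I)) atTop (𝓝 0) := by
  obtain ⟨C, c, A, hc, hbd⟩ := hG.decay (max |x₁| |x₂|)
  have hbound : ∀ᶠ T : ℝ in atTop, ‖∫ x in x₁..x₂, G (x + T * I)‖ ≤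
      C * Real.exp (-c * T) * |x₂ - x₁| := by
    filter_upwards [eventually_ge_atTop A] with T hT
    apply intervalIntegral.norm_integral_le_of_norm_le_const
    intro x hx
    have hx' : |x| ≤ max |x₁| |x₂| := by
      rcases le_total x₁ x₂ with h | h
      · rw [uIoc_of_le h] at hx
        exact abs_le_max_abs_abs hx.1.le hx.2
      · rw [uIoc_of_ge h] at hx
        rw [max_comm]
        exact abs_le_max_abs_abs hx.1.le hx.2
    have := hbd (x + T * I) (by simpa using hx') (by simpa using hT)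
    simpa using this
  have hlim : Tendsto (fun T : ℝ => C * Real.exp (-c * T) * |x₂ - x₁|) atTop (𝓝 0) := by
    have h1 : Tendsto (fun T : ℝ => Real.exp (-c * T)) atTop (𝓝 0) := by
      have : Tendsto (fun T : ℝ => -c * T) atTop atBot := by
        simpa using (tendsto_id.const_mul_atTop_of_neg (neg_lt_zero.mpr hc))
      exact Real.tendsto_exp_atBot.comp this
    simpa using (h1.const_mul C).mul_const |x₂ - x₁|
  exact squeeze_zero_norm' hbound hlim

/-- Horizontal move of the vertical ray integral. -/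
theorem horizontal (hG : VertDecay G) (x₁ x₂ : ℝ) {y : ℝ} (hy : 0 < y) :
    (I * ∫ t in Ioi y, G (x₂ + t * I)) - (I * ∫ t in Ioi y, G (x₁ + t * I)) =
      - ∫ x in x₁..x₂, G (x + y * I) := by
  have h1 := intervalIntegral_tendsto_integral_Ioi y (hG.integrableOn_line x₁ hy) tendsto_id
  have h2 := intervalIntegral_tendsto_integral_Ioi y (hG.integrableOn_line x₂ hy) tendsto_id
  have htop := hG.tendsto_top_edge x₁ x₂
  have hlim : Tendsto (fun T : ℝ => (∫ x in x₁..x₂, G (x + y * I)) -
      (∫ x in x₁..x₂, G (x + T * I)) + I • (∫ t in y..T, G (x₂ + t * I)) -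
      I • (∫ t in y..T, G (x₁ + t * I))) atTop
      (𝓝 ((∫ x in x₁..x₂, G (x + y * I)) - 0 + I • (∫ t in Ioi y, G (x₂ + t * I)) -
        I • (∫ t in Ioi y, G (x₁ + t * I)))) :=
    ((tendsto_const_nhds.sub htop).add (h2.const_smul I)).sub (h1.const_smul I)
  have hzero : ∀ᶠ T : ℝ in atTop, (∫ x in x₁..x₂, G (x + y * I)) -
      (∫ x in x₁..x₂, G (x + T * I)) + I • (∫ t in y..T, G (x₂ + t * I)) -
      I • (∫ t in y..T, G (x₁ + t * I)) = 0 := by
    filter_upwards [eventually_ge_atTop y] with T hT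
    have := integral_boundary_rect_eq_zero_of_differentiableOn G (x₁ + y * I) (x₂ + T * I) ?_
    · simpa using this
    · apply hG.diff.mono
      intro w hw
      rw [mem_reProdIm] at hw
      have h2 := hw.2
      simp only [add_im, ofReal_im, mul_im, ofReal_re, I_im, mul_one, I_re, mul_zero, add_zero,
        zero_add] at h2
      rw [uIcc_of_le hT] at h2
      exact lt_of_lt_of_le hy h2.1
  have := tendsto_nhds_unique (hlim.congr' hzero) tendsto_const_nhds
  simp only [sub_zero, smul_eq_mul] at this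
  linear_combination this

/-- Path independence: the vertical ray integral from `w` differs from the one from `z` by the
wedge integral. -/
theorem vertInt_sub_vertInt (hG : VertDecay G) {z w : ℂ} (hz : 0 < z.im) (hw : 0 < w.im) :
    vertInt G w = vertInt G z - wedgeIntegral z w G := by
  have hh := hG.horizontal z.re w.re hz
  have hv := intervalIntegral.integral_Ioi_sub_Ioi' (hG.integrableOn_line w.re hz)
    (hG.integrableOn_line w.re hw)
  unfold vertInt wedgeIntegral
  rw [smul_eq_mul, ← hv]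
  linear_combination hh

/-- The vertical ray integral is a primitive of `-G` on the upper half plane. -/
theorem hasDerivAt_vertInt (hG : VertDecay G) {z : ℂ} (hz : 0 < z.im) :
    HasDerivAt (vertInt G) (-G z) z := by
  have hball : Metric.ball z z.im ⊆ {w : ℂ | 0 < w.im} := by
    intro w hw
    have h1 : |w.im - z.im| < z.im := by
      have := abs_im_le_norm (w - z)
      rw [sub_im] at this
      exact lt_of_le_of_lt this (by simpa [dist_eq_norm] using hw)
    have := abs_lt.mp h1
    show 0 < w.im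
    linarith [this.1]
  have hcons : IsConservativeOn G (Metric.ball z z.im) := (hG.diff.mono hball).isConservativeOn
  have hcont : ContinuousOn G (Metric.ball z z.im) := hG.continuousOn.mono hball
  have hd := hcons.hasDerivAt_wedgeIntegral hcont (Metric.mem_ball_self hz)
  have hd' : HasDerivAt (fun w => vertInt G z - wedgeIntegral z w G) (-G z) z := by
    have := (hasDerivAt_const z (vertInt G z)).sub hd
    rw [zero_sub] at this
    exact this
  refine hd'.congr_of_eventuallyEq ?_
  filter_upwards [Metric.ball_mem_nhds z hz] with w hw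
  exact hG.vertInt_sub_vertInt hz (hball hw)

/-- Normalised decay constants: `0 ≤ C`, `0 < c`, `1 ≤ A`. -/
theorem decay' (hG : VertDecay G) (R : ℝ) : ∃ C c A : ℝ, 0 ≤ C ∧ 0 < c ∧ 1 ≤ A ∧
    ∀ w : ℂ, |w.re| ≤ R → A ≤ w.im → ‖G w‖ ≤ C * Real.exp (-c * w.im) := by
  obtain ⟨C, c, A, hc, h⟩ := hG.decay R
  refine ⟨|C|, c, max A 1, abs_nonneg C, hc, le_max_right _ _, fun w hw hA => ?_⟩
  refine (h w hw ((le_max_left _ _).trans hA)).trans ?_
  exact mul_le_mul_of_nonneg_right (le_abs_self C) (Real.exp_pos _).le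

theorem congr {G' : ℂ → ℂ} (hG : VertDecay G) (h : ∀ w : ℂ, 0 < w.im → G' w = G w) :
    VertDecay G' where
  diff := hG.diff.congr (fun w hw => h w hw)
  decay R := by
    obtain ⟨C, c, A, _, hc, hA, hb⟩ := hG.decay' R
    refine ⟨C, c, A, hc, fun w hw hwA => ?_⟩
    rw [h w (lt_of_lt_of_le one_pos (hA.trans hwA))]
    exact hb w hw hwA

theorem zero : VertDecay (0 : ℂ → ℂ) where
  diff := differentiableOn_const 0
  decay _ := ⟨0, 1, 0, one_pos, fun w _ _ => by simp⟩

theorem smul (hG : VertDecay G) (a : ℂ) : VertDecay (a • G) where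
  diff := hG.diff.const_smul a
  decay R := by
    obtain ⟨C, c, A, _, hc, _, hb⟩ := hG.decay' R
    refine ⟨‖a‖ * C, c, A, hc, fun w hw hwA => ?_⟩
    rw [Pi.smul_apply, norm_smul, mul_assoc]
    exact mul_le_mul_of_nonneg_left (hb w hw hwA) (norm_nonneg a)

theorem neg (hG : VertDecay G) : VertDecay (-G) := by
  simpa using hG.smul (-1)

theorem add {G₁ G₂ : ℂ → ℂ} (h₁ : VertDecay G₁) (h₂ : VertDecay G₂) : VertDecay (G₁ + G₂) where
  diff := h₁.diff.add h₂.diff
  decay R := by
    obtain ⟨C₁, c₁, A₁, hC₁, hc₁, hA₁, hb₁⟩ := h₁.decay' R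
    obtain ⟨C₂, c₂, A₂, hC₂, hc₂, hA₂, hb₂⟩ := h₂.decay' R
    refine ⟨C₁ + C₂, min c₁ c₂, max A₁ A₂, lt_min hc₁ hc₂, fun w hw hwA => ?_⟩
    have hw0 : 0 ≤ w.im := zero_le_one.trans (hA₁.trans ((le_max_left _ _).trans hwA))
    have e₁ : Real.exp (-c₁ * w.im) ≤ Real.exp (-(min c₁ c₂) * w.im) := by
      apply Real.exp_le_exp.mpr
      have := mul_le_mul_of_nonneg_right (min_le_left c₁ c₂) hw0
      linarith
    have e₂ : Real.exp (-c₂ * w.im) ≤ Real.exp (-(min c₁ c₂) * w.im) := by
      apply Real.exp_le_exp.mpr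
      have := mul_le_mul_of_nonneg_right (min_le_right c₁ c₂) hw0
      linarith
    calc ‖(G₁ + G₂) w‖ ≤ ‖G₁ w‖ + ‖G₂ w‖ := norm_add_le _ _
      _ ≤ C₁ * Real.exp (-c₁ * w.im) + C₂ * Real.exp (-c₂ * w.im) :=
        add_le_add (hb₁ w hw ((le_max_left _ _).trans hwA)) (hb₂ w hw ((le_max_right _ _).trans hwA))
      _ ≤ C₁ * Real.exp (-(min c₁ c₂) * w.im) + C₂ * Real.exp (-(min c₁ c₂) * w.im) :=
        add_le_add (mul_le_mul_of_nonneg_left e₁ hC₁) (mul_le_mul_of_nonneg_left e₂ hC₂)
      _ = (C₁ + C₂) * Real.exp (-(min c₁ c₂) * w.im) := by ring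

theorem sub {G₁ G₂ : ℂ → ℂ} (h₁ : VertDecay G₁) (h₂ : VertDecay G₂) : VertDecay (G₁ - G₂) := by
  rw [sub_eq_add_neg]
  exact h₁.add h₂.neg

theorem sum {ι : Type*} (s : Finset ι) {G : ι → ℂ → ℂ} (h : ∀ i ∈ s, VertDecay (G i)) :
    VertDecay (∑ i ∈ s, G i) := by
  classical
  induction s using Finset.induction_on with
  | empty => simpa using VertDecay.zero
  | insert a s ha ih =>
    rw [Finset.sum_insert ha]
    exact (h a (Finset.mem_insert_self a s)).add
      (ih (fun i hi => h i (Finset.mem_insert_of_mem hi)))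

/-- Multiplication by the identity function preserves vertical decay. -/
theorem mul_id (hG : VertDecay G) : VertDecay (fun w => w * G w) where
  diff := differentiableOn_id.mul hG.diff
  decay R := by
    obtain ⟨C, c, A, hC, hc, hA, hb⟩ := hG.decay' R
    refine ⟨(|R| + 2 / c) * C, c / 2, A, half_pos hc, fun w hw hwA => ?_⟩
    have hw0 : 0 ≤ w.im := zero_le_one.trans (hA.trans hwA)
    have h1 : ‖w‖ ≤ |R| + w.im := by
      calc ‖w‖ ≤ |w.re| + |w.im| := Complex.norm_le_abs_re_add_abs_im w
        _ ≤ |R| + w.im := by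
          rw [abs_of_nonneg hw0]
          exact add_le_add_left (hw.trans (le_abs_self R)) _
    have h2 : w.im ≤ 2 / c * Real.exp (c / 2 * w.im) := by
      have := Real.add_one_le_exp (c / 2 * w.im)
      have h3 : c / 2 * w.im ≤ Real.exp (c / 2 * w.im) := by linarith
      have h4 : 2 / c * (c / 2 * w.im) ≤ 2 / c * Real.exp (c / 2 * w.im) :=
        mul_le_mul_of_nonneg_left h3 (by positivity)
      have h5 : 2 / c * (c / 2 * w.im) = w.im := by field_simp
      linarith
    have h3 : |R| ≤ |R| * Real.exp (c / 2 * w.im) := by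
      have : 1 ≤ Real.exp (c / 2 * w.im) := Real.one_le_exp (by positivity)
      nlinarith [abs_nonneg R]
    have h4 : ‖w‖ ≤ (|R| + 2 / c) * Real.exp (c / 2 * w.im) := by
      calc ‖w‖ ≤ |R| + w.im := h1
        _ ≤ |R| * Real.exp (c / 2 * w.im) + 2 / c * Real.exp (c / 2 * w.im) := add_le_add h3 h2
        _ = _ := by ring
    have h5 : Real.exp (c / 2 * w.im) * Real.exp (-c * w.im) = Real.exp (-(c / 2) * w.im) := by
      rw [← Real.exp_add]
      congr 1
      ring
    calc ‖w * G w‖ = ‖w‖ * ‖G w‖ := norm_mul _ _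
      _ ≤ ((|R| + 2 / c) * Real.exp (c / 2 * w.im)) * (C * Real.exp (-c * w.im)) :=
        mul_le_mul h4 (hb w hw hwA) (norm_nonneg _) (by positivity)
      _ = (|R| + 2 / c) * C * (Real.exp (c / 2 * w.im) * Real.exp (-c * w.im)) := by ring
      _ = (|R| + 2 / c) * C * Real.exp (-(c / 2) * w.im) := by rw [h5]

theorem mul_id_pow (hG : VertDecay G) (n : ℕ) : VertDecay (fun w => w ^ n * G w) := by
  induction n with
  | zero => simpa using hG
  | succ n ih =>
    refine ih.mul_id.congr (fun w _ => ?_)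
    ring

/-- Multiplication by a polynomial preserves vertical decay. -/
theorem mul_polynomial (hG : VertDecay G) (P : Polynomial ℂ) :
    VertDecay (fun w => P.eval w * G w) := by
  have h : VertDecay (∑ i ∈ Finset.range (P.natDegree + 1), (P.coeff i) • fun w => w ^ i * G w) :=
    VertDecay.sum _ (fun i _ => (hG.mul_id_pow i).smul (P.coeff i))
  refine h.congr (fun w _ => ?_)
  rw [Polynomial.eval_eq_sum_range, Finset.sum_mul, Finset.sum_apply]
  refine Finset.sum_congr rfl (fun i _ => ?_)
  simp only [Pi.smul_apply, smul_eq_mul]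
  ring

/-- Affine change of variables `w ↦ a w + b`, `a > 0`, `b` real, preserves vertical decay. -/
theorem comp_affine (hG : VertDecay G) {a : ℝ} (ha : 0 < a) (b : ℝ) :
    VertDecay (fun w => G (a * w + b)) where
  diff := by
    have hd : DifferentiableOn ℂ (fun w : ℂ => (a : ℂ) * w + b) {z | 0 < z.im} := by fun_prop
    refine hG.diff.comp hd ?_
    intro w hw
    show 0 < ((a : ℂ) * w + b).im
    simpa using mul_pos ha hw
  decay R := by
    obtain ⟨C, c, A, hC, hc, hA, hb⟩ := hG.decay' (a * R + |b|)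
    refine ⟨C, c * a, A / a, mul_pos hc ha, fun w hw hwA => ?_⟩
    have him : ((a : ℂ) * w + b).im = a * w.im := by simp
    have hre : ((a : ℂ) * w + b).re = a * w.re + b := by simp
    have h1 : |((a : ℂ) * w + b).re| ≤ a * R + |b| := by
      rw [hre]
      calc |a * w.re + b| ≤ |a * w.re| + |b| := abs_add_le _ _
        _ = a * |w.re| + |b| := by rw [abs_mul, abs_of_pos ha]
        _ ≤ a * R + |b| := by gcongr
    have h2 : A ≤ ((a : ℂ) * w + b).im := by
      rw [him]
      have := (div_le_iff₀ ha).mp hwA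
      linarith
    have := hb _ h1 h2
    rw [him] at this
    convert this using 3
    ring

end VertDecay

/-! ### Linearity and change of variables for `vertInt` -/

theorem vertInt_smul (c : ℂ) (G : ℂ → ℂ) (z : ℂ) : vertInt (c • G) z = c * vertInt G z := by
  unfold vertInt
  simp only [Pi.smul_apply, smul_eq_mul]
  rw [integral_const_mul]
  ring

theorem vertInt_neg (G : ℂ → ℂ) (z : ℂ) : vertInt (-G) z = -vertInt G z := by
  have := vertInt_smul (-1) G z
  simpa using this

theorem vertInt_zero (z : ℂ) : vertInt 0 z = 0 := by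
  simp [vertInt]

theorem vertInt_congr {G G' : ℂ → ℂ} {z : ℂ} (hz : 0 < z.im) (h : ∀ w : ℂ, 0 < w.im → G' w = G w) :
    vertInt G' z = vertInt G z := by
  unfold vertInt
  congr 1
  refine setIntegral_congr_fun measurableSet_Ioi (fun t ht => ?_)
  exact h _ (by simpa using hz.trans ht)

theorem VertDecay.vertInt_add {G₁ G₂ : ℂ → ℂ} (h₁ : VertDecay G₁) (h₂ : VertDecay G₂) {z : ℂ}
    (hz : 0 < z.im) : vertInt (G₁ + G₂) z = vertInt G₁ z + vertInt G₂ z := by
  unfold vertInt
  simp only [Pi.add_apply]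
  rw [integral_add (h₁.integrableOn_line z.re hz) (h₂.integrableOn_line z.re hz)]
  ring

theorem VertDecay.vertInt_sub {G₁ G₂ : ℂ → ℂ} (h₁ : VertDecay G₁) (h₂ : VertDecay G₂) {z : ℂ}
    (hz : 0 < z.im) : vertInt (G₁ - G₂) z = vertInt G₁ z - vertInt G₂ z := by
  rw [sub_eq_add_neg, h₁.vertInt_add h₂.neg hz, vertInt_neg, sub_eq_add_neg]

theorem VertDecay.vertInt_sum {ι : Type*} (s : Finset ι) {G : ι → ℂ → ℂ}
    (h : ∀ i ∈ s, VertDecay (G i)) {z : ℂ} (hz : 0 < z.im) :
    vertInt (∑ i ∈ s, G i) z = ∑ i ∈ s, vertInt (G i) z := by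
  classical
  induction s using Finset.induction_on with
  | empty => simp [vertInt_zero]
  | insert a s ha ih =>
    rw [Finset.sum_insert ha, Finset.sum_insert ha,
      (h a (Finset.mem_insert_self a s)).vertInt_add
        (VertDecay.sum s (fun i hi => h i (Finset.mem_insert_of_mem hi))) hz,
      ih (fun i hi => h i (Finset.mem_insert_of_mem hi))]

/-- Affine change of variables in the vertical ray integral (no hypotheses on `G`). -/
theorem vertInt_comp_affine (G : ℂ → ℂ) {a : ℝ} (ha : 0 < a) (b : ℝ) (z : ℂ) :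
    vertInt (fun w => G (a * w + b)) z = (a : ℂ)⁻¹ * vertInt G (a * z + b) := by
  unfold vertInt
  have him : ((a : ℂ) * z + b).im = a * z.im := by simp
  have hre : ((a : ℂ) * z + b).re = a * z.re + b := by simp
  rw [him, hre]
  have key := integral_comp_mul_left_Ioi (fun s : ℝ => G (((a * z.re + b : ℝ) : ℂ) + s * I)) z.im ha
  have hfun : ∀ t : ℝ, G ((a : ℂ) * ((z.re : ℂ) + t * I) + b) =
      G (((a * z.re + b : ℝ) : ℂ) + ((a * t : ℝ) : ℂ) * I) := by
    intro t
    congr 1
    push_cast
    ring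
  simp only [hfun]
  rw [key, Complex.real_smul]
  push_cast
  ring

/-- Exponential bound for the vertical ray integral. -/
theorem VertDecay.norm_vertInt_le {G : ℂ → ℂ} (hG : VertDecay G) (R : ℝ) :
    ∃ C c A : ℝ, 0 < c ∧ ∀ z : ℂ, |z.re| ≤ R → A ≤ z.im →
      ‖vertInt G z‖ ≤ C * Real.exp (-c * z.im) := by
  obtain ⟨C, c, A, hC, hc, hA, hb⟩ := hG.decay' R
  refine ⟨C / c, c, A, hc, fun z hz hzA => ?_⟩
  have hz0 : 0 < z.im := lt_of_lt_of_le one_pos (hA.trans hzA)
  unfold vertInt
  rw [norm_mul, Complex.norm_I, one_mul]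
  have hint : IntegrableOn (fun t : ℝ => C * Real.exp (-c * t)) (Ioi z.im) :=
    (exp_neg_integrableOn_Ioi z.im hc).const_mul C
  have h1 : ‖∫ t in Ioi z.im, G (z.re + t * I)‖ ≤ ∫ t in Ioi z.im, C * Real.exp (-c * t) := by
    refine norm_integral_le_of_norm_le hint ?_
    rw [ae_restrict_iff' measurableSet_Ioi]
    refine Eventually.of_forall (fun t ht => ?_)
    have := hb (z.re + t * I) (by simpa using hz) (by simpa using hzA.trans (le_of_lt ht))
    simpa using this
  refine h1.trans (le_of_eq ?_)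
  rw [integral_const_mul, integral_exp_mul_Ioi (neg_lt_zero.mpr hc)]
  field_simp

/-- Generic bound for the vertical ray integral by an integrable majorant (no hypotheses on `G`). -/
theorem norm_vertInt_le_of_le (G : ℂ → ℂ) (z : ℂ) {g : ℝ → ℝ} (hg : IntegrableOn g (Ioi z.im))
    (h : ∀ t : ℝ, z.im < t → ‖G (z.re + t * I)‖ ≤ g t) :
    ‖vertInt G z‖ ≤ ∫ t in Ioi z.im, g t := by
  unfold vertInt
  rw [norm_mul, Complex.norm_I, one_mul]
  refine norm_integral_le_of_norm_le hg ?_
  rw [ae_restrict_iff' measurableSet_Ioi]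
  exact Eventually.of_forall (fun t ht => h t ht)

/-- Uniform exponential bound for the vertical ray integral, from a uniform exponential bound on
the integrand (no holomorphy needed). -/
theorem norm_vertInt_le_of_uniform (G : ℂ → ℂ) {C c A : ℝ} (hc : 0 < c)
    (h : ∀ w : ℂ, A ≤ w.im → ‖G w‖ ≤ C * Real.exp (-c * w.im)) (z : ℂ) (hz : A ≤ z.im) :
    ‖vertInt G z‖ ≤ C / c * Real.exp (-c * z.im) := by
  have hint : IntegrableOn (fun t : ℝ => C * Real.exp (-c * t)) (Ioi z.im) :=
    (exp_neg_integrableOn_Ioi z.im hc).const_mul C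
  refine (norm_vertInt_le_of_le G z hint (fun t ht => ?_)).trans (le_of_eq ?_)
  · have := h (z.re + t * I) (by simpa using hz.trans (le_of_lt ht))
    simpa using this
  · rw [integral_const_mul, integral_exp_mul_Ioi (neg_lt_zero.mpr hc)]
    field_simp

end Fermat.Agent.S22
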