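import Mathlib
import Fermat.Agent.S22.VertInt
import Fermat.Prelude.Def_ModularForm_HeckeOperator

/-!
# Exponential decay of translates of cusp forms by rational matrices

Package (B1) of the S22 period-lattice plan.
-/

set_option autoImplicit false

namespace Fermat.Agent.S22

open Complex UpperHalfPlane ModularForm CongruenceSubgroup Filter Topology
open scoped MatrixGroups Pointwise Manifold

/-- The real matrix attached to a rational one. -/
noncomputable abbrev ratGL (α : GL (Fin 2) ℚ) : GL (Fin 2) ℝ :=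
  α.map (Rat.castHom ℝ)

/-- Uniform exponential decay at `i∞` of `f ∣[k] α` for a cusp form `f` of level `Γ₀(N)` and a
rational matrix `α`. -/
theorem exists_exp_decay_slash {N : ℕ} [NeZero N] {k : ℤ} (f : CuspForm (Gamma0 N) k)
    (α : GL (Fin 2) ℚ) :
    ∃ C c A : ℝ, 0 < c ∧ ∀ τ : ℍ, A ≤ τ.im →
      ‖(⇑f ∣[k] ratGL α) τ‖ ≤ C * Real.exp (-c * τ.im) := by
  have harith : (ConjAct.toConjAct (ratGL α)⁻¹ • ((Gamma0 N : Subgroup SL(2, ℤ)) :
      Subgroup (GL (Fin 2) ℝ))).IsArithmetic := by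
    have := Subgroup.IsArithmetic.conj ((Gamma0 N : Subgroup SL(2, ℤ)) :
      Subgroup (GL (Fin 2) ℝ)) α⁻¹
    simpa [ratGL, map_inv] using this
  let f' := CuspForm.translate f (ratGL α)
  have hdec := CuspFormClass.exp_decay_atImInfty' (f := f')
  obtain ⟨c, hc, hO⟩ := hdec
  obtain ⟨C, hC⟩ := hO.bound
  rw [Filter.Eventually, UpperHalfPlane.atImInfty_mem] at hC
  obtain ⟨A, hA⟩ := hC
  refine ⟨C, c, A, hc, fun τ hτ => ?_⟩
  have h1 : ‖f' τ‖ ≤ C * ‖Real.exp (-c * τ.im)‖ := hA τ hτ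
  have hcoe : f' τ = (⇑f ∣[k] ratGL α) τ := rfl
  rw [hcoe, Real.norm_eq_abs, abs_of_pos (Real.exp_pos _)] at h1
  exact h1

/-- A function on `ℍ` which is holomorphic and decays exponentially, uniformly in the real part,
gives a `VertDecay` function on `ℂ`. -/
theorem vertDecay_of_uniform {F : ℍ → ℂ} (hF : MDiff F) {C c A : ℝ} (hc : 0 < c)
    (h : ∀ τ : ℍ, A ≤ τ.im → ‖F τ‖ ≤ C * Real.exp (-c * τ.im)) :
    VertDecay (F ∘ ofComplex) where
  diff := UpperHalfPlane.mdifferentiable_iff.mp hF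
  decay _ := by
    refine ⟨C, c, max A 1, hc, fun w _ hw => ?_⟩
    have hw0 : 0 < w.im := lt_of_lt_of_le one_pos ((le_max_right _ _).trans hw)
    rw [Function.comp_apply, ofComplex_apply_of_im_pos hw0]
    exact h ⟨w, hw0⟩ ((le_max_left _ _).trans hw)

/-- `(f ∣[k] α) ∘ ofComplex` has vertical decay, for `f` a cusp form of level `Γ₀(N)` and `α`
rational. -/
theorem vertDecay_slash {N : ℕ} [NeZero N] {k : ℤ} (f : CuspForm (Gamma0 N) k)
    (α : GL (Fin 2) ℚ) : VertDecay ((⇑f ∣[k] ratGL α) ∘ ofComplex) := by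
  obtain ⟨C, c, A, hc, h⟩ := exists_exp_decay_slash f α
  exact vertDecay_of_uniform ((CuspFormClass.holo f).slash k (ratGL α)) hc h

/-- `Q(w) · (f ∣[k] α)(w)` has vertical decay for every polynomial `Q`. -/
theorem vertDecay_polynomial_mul_slash {N : ℕ} [NeZero N] {k : ℤ} (f : CuspForm (Gamma0 N) k)
    (α : GL (Fin 2) ℚ) (Q : Polynomial ℂ) :
    VertDecay (fun w => Q.eval w * ((⇑f ∣[k] ratGL α) ∘ ofComplex) w) :=
  (vertDecay_slash f α).mul_polynomial Q

/-! ### The subgroup of rational matrices in `GL(2, ℝ)` -/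

/-- The image of `GL(2, ℚ)` in `GL(2, ℝ)`. -/
noncomputable def ratSubgroup : Subgroup (GL (Fin 2) ℝ) :=
  (Matrix.GeneralLinearGroup.map (n := Fin 2) (Rat.castHom ℝ)).range

theorem ratGL_mem_ratSubgroup (α : GL (Fin 2) ℚ) : ratGL α ∈ ratSubgroup := ⟨α, rfl⟩

theorem mem_ratSubgroup_iff {g : GL (Fin 2) ℝ} : g ∈ ratSubgroup ↔ ∃ α : GL (Fin 2) ℚ, ratGL α = g :=
  Iff.rfl

theorem mapGL_mem_ratSubgroup (g : SL(2, ℤ)) :
    (Matrix.SpecialLinearGroup.mapGL ℝ g : GL (Fin 2) ℝ) ∈ ratSubgroup := by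
  refine ⟨Matrix.SpecialLinearGroup.mapGL ℚ g, ?_⟩
  exact Matrix.SpecialLinearGroup.map_mapGL (S := ℚ) (T := ℝ) g

theorem coe_SL_mem_ratSubgroup (g : SL(2, ℤ)) : ((g : GL (Fin 2) ℝ)) ∈ ratSubgroup :=
  mapGL_mem_ratSubgroup g

/-- An upper triangular matrix with rational entries is rational. -/
theorem upperTriangularGL_mem_ratSubgroup (a b d : ℚ) (had : (a : ℝ) * (d : ℝ) ≠ 0) :
    ModularForm.upperTriangularGL (a : ℝ) (b : ℝ) (d : ℝ) had ∈ ratSubgroup := by
  have had' : a * d ≠ 0 := by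
    intro h
    apply had
    exact_mod_cast h
  refine ⟨Matrix.GeneralLinearGroup.mkOfDetNeZero !![a, b; 0, d]
    (by rwa [Matrix.det_fin_two_of, mul_zero, sub_zero]), ?_⟩
  ext i j
  fin_cases i <;> fin_cases j <;> simp [ModularForm.upperTriangularGL]

theorem heckeMatrix_mem_ratSubgroup (p j : ℕ) : ModularForm.heckeMatrix p j ∈ ratSubgroup := by
  unfold ModularForm.heckeMatrix
  split_ifs with hp
  · exact one_mem _
  · have := upperTriangularGL_mem_ratSubgroup 1 j p (by simpa using hp)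
    simpa using this

theorem heckeDiagMatrix_mem_ratSubgroup (p : ℕ) : ModularForm.heckeDiagMatrix p ∈ ratSubgroup := by
  unfold ModularForm.heckeDiagMatrix
  split_ifs with hp
  · exact one_mem _
  · have := upperTriangularGL_mem_ratSubgroup p 0 1 (by simpa using hp)
    simpa using this

/-- Decay for elements of `ratSubgroup`. -/
theorem vertDecay_slash_of_mem {N : ℕ} [NeZero N] {k : ℤ} (f : CuspForm (Gamma0 N) k)
    {α : GL (Fin 2) ℝ} (hα : α ∈ ratSubgroup) : VertDecay ((⇑f ∣[k] α) ∘ ofComplex) := by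
  obtain ⟨α', rfl⟩ := hα
  exact vertDecay_slash f α'

theorem exists_exp_decay_slash_of_mem {N : ℕ} [NeZero N] {k : ℤ} (f : CuspForm (Gamma0 N) k)
    {α : GL (Fin 2) ℝ} (hα : α ∈ ratSubgroup) :
    ∃ C c A : ℝ, 0 < c ∧ ∀ τ : ℍ, A ≤ τ.im → ‖(⇑f ∣[k] α) τ‖ ≤ C * Real.exp (-c * τ.im) := by
  obtain ⟨α', rfl⟩ := hα
  exact exists_exp_decay_slash f α'

theorem vertDecay_polynomial_mul_slash_of_mem {N : ℕ} [NeZero N] {k : ℤ}
    (f : CuspForm (Gamma0 N) k) {α : GL (Fin 2) ℝ} (hα : α ∈ ratSubgroup) (Q : Polynomial ℂ) :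
    VertDecay (fun w => Q.eval w * ((⇑f ∣[k] α) ∘ ofComplex) w) :=
  (vertDecay_slash_of_mem f hα).mul_polynomial Q

end Fermat.Agent.S22
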