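/-
S22 support: abstract primitives of holomorphic functions on the upper half plane,
their uniqueness, and their limits at the cusp `i∞` along vertical lines.
-/
import Mathlib

set_option autoImplicit false

open Complex Filter Topology Set Metric
open UpperHalfPlane hiding I

namespace Fermat.Agent.S22

/-- `G` is a (holomorphic) primitive of `h` on the upper half plane. -/
def IsPrim (G h : ℍ → ℂ) : Prop :=
  ∀ τ : ℍ, HasDerivAt (G ∘ ofComplex) (h τ) (τ : ℂ)

section exhaustion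

/-- The exhausting balls of the upper half plane. -/
private def exBall (n : ℕ) : Set ℂ := ball (((n : ℝ) + 1 : ℝ) * I) ((n : ℝ) + 1)

private lemma exBall_subset_uhp (n : ℕ) : exBall n ⊆ {z : ℂ | 0 < z.im} := by
  intro z hz
  simp only [exBall, mem_ball, dist_eq_norm] at hz
  have h1 : |(z - ((n : ℝ) + 1 : ℝ) * I).im| ≤ ‖z - ((n : ℝ) + 1 : ℝ) * I‖ := abs_im_le_norm _
  have h2 : (z - ((n : ℝ) + 1 : ℝ) * I).im = z.im - ((n : ℝ) + 1) := by
    simp
  rw [h2] at h1
  have := (abs_lt.mp (lt_of_le_of_lt h1 hz)).1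
  show 0 < z.im
  linarith

private lemma I_mem_exBall (n : ℕ) : I ∈ exBall n := by
  simp only [exBall, mem_ball, dist_eq_norm]
  have : I - ((n : ℝ) + 1 : ℝ) * I = ((-(n : ℝ) : ℝ) : ℂ) * I := by push_cast; ring
  rw [this, norm_mul, norm_I, mul_one, norm_real, Real.norm_eq_abs, abs_neg,
    abs_of_nonneg (Nat.cast_nonneg n)]
  linarith

private lemma exBall_mono {n m : ℕ} (h : n ≤ m) : exBall n ⊆ exBall m := by
  apply ball_subset_ball'
  have : ((n : ℝ) + 1 : ℝ) * I - ((m : ℝ) + 1 : ℝ) * I = (((n : ℝ) - m : ℝ) : ℂ) * I := by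
    push_cast; ring
  rw [dist_eq_norm, this, norm_mul, norm_I, mul_one, norm_real, Real.norm_eq_abs]
  have hnm : (n : ℝ) ≤ m := by exact_mod_cast h
  rw [abs_of_nonpos (by linarith)]
  linarith

private lemma exists_mem_exBall {z : ℂ} (hz : 0 < z.im) : ∃ n : ℕ, z ∈ exBall n := by
  obtain ⟨n, hn⟩ := exists_nat_gt ((z.re ^ 2 + z.im ^ 2) / (2 * z.im))
  refine ⟨n, ?_⟩
  simp only [exBall, mem_ball, dist_eq_norm]
  have h2 : 0 < 2 * z.im := by linarith
  rw [div_lt_iff₀ h2] at hn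
  have hpos : (0 : ℝ) < (n : ℝ) + 1 := by positivity
  have hsq : ‖z - ((n : ℝ) + 1 : ℝ) * I‖ ^ 2 < ((n : ℝ) + 1) ^ 2 := by
    rw [← normSq_eq_norm_sq, normSq_apply]
    simp only [sub_re, mul_re, ofReal_re, Complex.I_re, mul_zero, ofReal_im, Complex.I_im, mul_one, sub_self,
      sub_zero, sub_im, mul_im, zero_mul, add_zero]
    nlinarith
  exact lt_of_pow_lt_pow_left₀ 2 hpos.le hsq

end exhaustion

/-- Every holomorphic function on the upper half plane has a primitive. -/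
theorem exists_isPrim {h : ℍ → ℂ}
    (hh : DifferentiableOn ℂ (h ∘ ofComplex) {z : ℂ | 0 < z.im}) : ∃ G : ℍ → ℂ, IsPrim G h := by
  classical
  set H : ℂ → ℂ := h ∘ ofComplex with hH
  have hex : ∀ n : ℕ, ∃ g : ℂ → ℂ, g I = 0 ∧ ∀ x ∈ exBall n, HasDerivAt g (H x) x := by
    intro n
    have : DifferentiableOn ℂ H (exBall n) := hh.mono (exBall_subset_uhp n)
    exact (DifferentiableOn.isExactOn_ball this).with_val_at I 0
  choose g hgI hg using hex
  -- agreement on overlaps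
  have hagree : ∀ {n m : ℕ}, n ≤ m → ∀ z ∈ exBall n, g n z = g m z := by
    intro n m hnm
    have hopen : IsOpen (exBall n) := isOpen_ball
    have hconn : IsPreconnected (exBall n) := (convex_ball _ _).isPreconnected
    have hd1 : DifferentiableOn ℂ (g n) (exBall n) := fun x hx =>
      (hg n x hx).differentiableAt.differentiableWithinAt
    have hd2 : DifferentiableOn ℂ (g m) (exBall n) := fun x hx =>
      (hg m x (exBall_mono hnm hx)).differentiableAt.differentiableWithinAt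
    have hderiv : (exBall n).EqOn (deriv (g n)) (deriv (g m)) := fun x hx => by
      rw [(hg n x hx).deriv, (hg m x (exBall_mono hnm hx)).deriv]
    exact hopen.eqOn_of_deriv_eq hconn hd1 hd2 hderiv (I_mem_exBall n) (by rw [hgI, hgI])
  -- index function
  have hidx : ∀ z : ℂ, 0 < z.im → ∃ n : ℕ, z ∈ exBall n := fun z hz => exists_mem_exBall hz
  let idx : ℍ → ℕ := fun τ => Nat.find (hidx τ τ.im_pos)
  have hidx_mem : ∀ τ : ℍ, (τ : ℂ) ∈ exBall (idx τ) := fun τ => Nat.find_spec (hidx τ τ.im_pos)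
  refine ⟨fun τ => g (idx τ) τ, fun τ => ?_⟩
  have hev : (fun τ' : ℍ => g (idx τ') τ') ∘ ofComplex =ᶠ[𝓝 (τ : ℂ)] g (idx τ) := by
    have hnhds : exBall (idx τ) ∈ 𝓝 (τ : ℂ) := isOpen_ball.mem_nhds (hidx_mem τ)
    filter_upwards [hnhds] with z hz
    have hzim : 0 < z.im := exBall_subset_uhp _ hz
    simp only [Function.comp_apply, ofComplex_apply_of_im_pos hzim]
    set τ' : ℍ := ⟨z, hzim⟩
    rcases le_total (idx τ') (idx τ) with hle | hle
    · exact hagree hle z (hidx_mem τ')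
    · exact (hagree hle z hz).symm
  have := hg (idx τ) τ (hidx_mem τ)
  rw [hH, Function.comp_apply, ofComplex_apply] at this
  exact this.congr_of_eventuallyEq hev


/-! ### Basic algebra of primitives -/

theorem IsPrim.add {G₁ G₂ h₁ h₂ : ℍ → ℂ} (h1 : IsPrim G₁ h₁) (h2 : IsPrim G₂ h₂) :
    IsPrim (G₁ + G₂) (h₁ + h₂) := fun τ => (h1 τ).add (h2 τ)

theorem IsPrim.sub {G₁ G₂ h₁ h₂ : ℍ → ℂ} (h1 : IsPrim G₁ h₁) (h2 : IsPrim G₂ h₂) :
    IsPrim (G₁ - G₂) (h₁ - h₂) := fun τ => (h1 τ).sub (h2 τ)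

theorem IsPrim.const_smul {G h : ℍ → ℂ} (hG : IsPrim G h) (c : ℂ) :
    IsPrim (c • G) (c • h) := fun τ => (hG τ).const_smul c

theorem IsPrim.neg {G h : ℍ → ℂ} (hG : IsPrim G h) : IsPrim (-G) (-h) := fun τ => (hG τ).neg

theorem isPrim_zero : IsPrim (0 : ℍ → ℂ) 0 := fun τ => hasDerivAt_const (τ : ℂ) (0 : ℂ)

theorem isPrim_const (c : ℂ) : IsPrim (fun _ => c) 0 := fun τ => hasDerivAt_const (τ : ℂ) c

theorem IsPrim.add_const {G h : ℍ → ℂ} (hG : IsPrim G h) (c : ℂ) :
    IsPrim (fun τ => G τ + c) h := fun τ => (hG τ).add_const c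

theorem IsPrim.congr {G h h' : ℍ → ℂ} (hG : IsPrim G h) (hh : ∀ τ, h τ = h' τ) :
    IsPrim G h' := fun τ => hh τ ▸ hG τ

theorem IsPrim.sum {ι : Type*} (s : Finset ι) {G h : ι → ℍ → ℂ}
    (hG : ∀ i ∈ s, IsPrim (G i) (h i)) :
    IsPrim (fun τ => ∑ i ∈ s, G i τ) (fun τ => ∑ i ∈ s, h i τ) := by
  intro τ
  exact HasDerivAt.fun_sum (u := s) (A := fun i => G i ∘ ofComplex) (A' := fun i => h i τ)
    (x := (τ : ℂ)) (fun i hi => hG i hi τ)

theorem IsPrim.differentiableOn {G h : ℍ → ℂ} (hG : IsPrim G h) :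
    DifferentiableOn ℂ (G ∘ ofComplex) {z : ℂ | 0 < z.im} := fun z hz => by
  have := hG ⟨z, hz⟩
  exact this.differentiableAt.differentiableWithinAt

/-- Two primitives of the same function differ by a constant. -/
theorem IsPrim.exists_eq_add_const {G G' h : ℍ → ℂ} (hG : IsPrim G h) (hG' : IsPrim G' h) :
    ∃ c : ℂ, ∀ τ : ℍ, G τ = G' τ + c := by
  have hopen : IsOpen {z : ℂ | 0 < z.im} := isOpen_upperHalfPlaneSet
  have hconn : IsPreconnected {z : ℂ | 0 < z.im} :=
    (convex_halfSpace_im_gt 0).isPreconnected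
  have hderiv : {z : ℂ | 0 < z.im}.EqOn (deriv (G ∘ ofComplex)) (deriv (G' ∘ ofComplex)) := by
    intro z hz
    rw [(hG ⟨z, hz⟩).deriv, (hG' ⟨z, hz⟩).deriv]
  obtain ⟨c, hc⟩ := hopen.exists_eq_add_of_deriv_eq hconn hG.differentiableOn
    hG'.differentiableOn hderiv
  refine ⟨c, fun τ => ?_⟩
  have := hc τ.im_pos
  simpa using this

/-- Chain rule for the Möbius action. -/
theorem IsPrim.comp_smul {G h : ℍ → ℂ} (hG : IsPrim G h) {g : GL (Fin 2) ℝ}
    (hg : 0 < g.val.det) :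
    IsPrim (fun τ => G (g • τ)) (fun τ => h (g • τ) * (g.val.det / denom g τ ^ 2)) := by
  intro τ
  have h1 := hasStrictDerivAt_smul hg τ
  have h2 : HasDerivAt (G ∘ ofComplex) (h (g • τ)) ((fun z : ℂ => ((g • ofComplex z : ℍ) : ℂ)) τ) := by
    simpa using hG (g • τ)
  have := h2.comp (τ : ℂ) h1.hasDerivAt
  have heq : (fun τ => G (g • τ)) ∘ ofComplex =
      (G ∘ ofComplex) ∘ fun z : ℂ => ((g • ofComplex z : ℍ) : ℂ) := by
    ext z
    simp
  rw [heq]
  exact this

/-! ### Limits along vertical lines -/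

/-- The point `x + t i` of the upper half plane (junk value when `t ≤ 0`). -/
noncomputable def vpt (x t : ℝ) : ℍ := ofComplex ((x : ℂ) + (t : ℂ) * I)

lemma vpt_coe (x : ℝ) {t : ℝ} (ht : 0 < t) : ((vpt x t : ℍ) : ℂ) = (x : ℂ) + (t : ℂ) * I := by
  have : 0 < ((x : ℂ) + (t : ℂ) * I).im := by simpa using ht
  rw [vpt, ofComplex_apply_of_im_pos this]

lemma vpt_re (x : ℝ) {t : ℝ} (ht : 0 < t) : (vpt x t).re = x := by
  have := congrArg Complex.re (vpt_coe x ht)
  simpa using this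

lemma vpt_im (x : ℝ) {t : ℝ} (ht : 0 < t) : (vpt x t).im = t := by
  have := congrArg Complex.im (vpt_coe x ht)
  simpa using this

lemma vpt_re_im (τ : ℍ) : vpt τ.re τ.im = τ := by
  apply UpperHalfPlane.ext
  rw [vpt_coe _ τ.im_pos]
  exact Complex.re_add_im (τ : ℂ)

theorem IsPrim.hasDerivAt_vpt_right {G h : ℍ → ℂ} (hG : IsPrim G h) (x : ℝ) {t : ℝ}
    (ht : 0 < t) : HasDerivAt (fun s : ℝ => G (vpt x s)) (h (vpt x t) * I) t := by
  have h1 : HasDerivAt (fun w : ℂ => (x : ℂ) + w * I) I (t : ℂ) := by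
    simpa using ((hasDerivAt_id (t : ℂ)).mul_const I).const_add (x : ℂ)
  have h2 : HasDerivAt (G ∘ ofComplex) (h (vpt x t)) ((fun w : ℂ => (x : ℂ) + w * I) (t : ℂ)) := by
    have := hG (vpt x t)
    rwa [vpt_coe x ht] at this
  have h3 := (h2.comp (t : ℂ) h1).comp_ofReal
  exact h3

theorem IsPrim.hasDerivAt_vpt_left {G h : ℍ → ℂ} (hG : IsPrim G h) (x : ℝ) {t : ℝ}
    (ht : 0 < t) : HasDerivAt (fun s : ℝ => G (vpt s t)) (h (vpt x t)) x := by
  have h1 : HasDerivAt (fun w : ℂ => w + (t : ℂ) * I) 1 (x : ℂ) := by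
    simpa using (hasDerivAt_id (x : ℂ)).add_const ((t : ℂ) * I)
  have h2 : HasDerivAt (G ∘ ofComplex) (h (vpt x t)) ((fun w : ℂ => w + (t : ℂ) * I) (x : ℂ)) := by
    have := hG (vpt x t)
    rwa [vpt_coe x ht] at this
  have h3 := (h2.comp (x : ℂ) h1).comp_ofReal
  rw [mul_one] at h3
  exact h3

/-- Exponential decay on vertical strips. -/
def StripDecay (h : ℍ → ℂ) : Prop :=
  ∀ A : ℝ, ∃ C a Y : ℝ, 0 < a ∧ ∀ τ : ℍ, |τ.re| ≤ A → Y ≤ τ.im →
    ‖h τ‖ ≤ C * Real.exp (-a * τ.im)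

/-- `G` tends to `c` at `i∞` along every vertical line. -/
def HasVLim (G : ℍ → ℂ) (c : ℂ) : Prop :=
  ∀ x : ℝ, Tendsto (fun t : ℝ => G (vpt x t)) atTop (𝓝 c)

theorem HasVLim.unique {G : ℍ → ℂ} {c c' : ℂ} (h : HasVLim G c) (h' : HasVLim G c') : c = c' :=
  tendsto_nhds_unique (h 0) (h' 0)

private lemma integrableOn_deriv_vpt {G h : ℍ → ℂ} (hG : IsPrim G h) (x : ℝ) {C a Y : ℝ}
    (ha : 0 < a) (hb : ∀ τ : ℍ, |τ.re| ≤ |x| → Y ≤ τ.im → ‖h τ‖ ≤ C * Real.exp (-a * τ.im))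
    {Y' : ℝ} (hY' : 0 < Y') (hYY' : Y ≤ Y') :
    MeasureTheory.IntegrableOn (deriv fun s : ℝ => G (vpt x s)) (Ioi Y') := by
  have hbound : MeasureTheory.IntegrableOn (fun t : ℝ => C * Real.exp (-a * t)) (Ioi Y') :=
    (integrableOn_exp_mul_Ioi (by linarith : -a < 0) Y').const_mul C
  refine MeasureTheory.Integrable.mono' hbound
    (measurable_deriv _).aestronglyMeasurable ?_
  rw [MeasureTheory.ae_restrict_iff' measurableSet_Ioi]
  refine Filter.Eventually.of_forall fun t ht => ?_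
  have ht0 : 0 < t := lt_trans hY' ht
  rw [(hG.hasDerivAt_vpt_right x ht0).deriv, norm_mul, norm_I, mul_one]
  have := hb (vpt x t) (by rw [vpt_re x ht0]) (by rw [vpt_im x ht0]; exact hYY'.trans ht.le)
  rwa [vpt_im x ht0] at this

/-- A primitive of a function with exponential decay on vertical strips has a limit at `i∞`
along vertical lines, independent of the line. -/
theorem IsPrim.exists_hasVLim {G h : ℍ → ℂ} (hG : IsPrim G h) (hd : StripDecay h) :
    ∃ c, HasVLim G c := by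
  -- existence of the limit along each vertical line
  have hex : ∀ x : ℝ, ∃ c, Tendsto (fun t : ℝ => G (vpt x t)) atTop (𝓝 c) := by
    intro x
    obtain ⟨C, a, Y, ha, hb⟩ := hd |x|
    set Y' := max Y 1 with hY'
    have hY'pos : 0 < Y' := lt_of_lt_of_le one_pos (le_max_right _ _)
    have hint := integrableOn_deriv_vpt hG x ha hb hY'pos (le_max_left _ _)
    exact ⟨_, MeasureTheory.tendsto_limUnder_of_hasDerivAt_of_integrableOn_Ioi
      (fun t ht => ((hG.hasDerivAt_vpt_right x (lt_trans hY'pos ht)).differentiableAt).hasDerivAt)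
      hint⟩
  choose c hc using hex
  refine ⟨c 0, fun x => ?_⟩
  suffices c x = c 0 by rw [← this]; exact hc x
  -- the difference tends to zero
  obtain ⟨C, a, Y, ha, hb⟩ := hd |x|
  have hdiff : Tendsto (fun t : ℝ => G (vpt x t) - G (vpt 0 t)) atTop (𝓝 (c x - c 0)) :=
    (hc x).sub (hc 0)
  have hzero : Tendsto (fun t : ℝ => G (vpt x t) - G (vpt 0 t)) atTop (𝓝 0) := by
    have hbd : Tendsto (fun t : ℝ => C * Real.exp (-a * t) * ‖x - 0‖) atTop (𝓝 0) := by
      have h1 : Tendsto (fun t : ℝ => Real.exp (-a * t)) atTop (𝓝 0) := by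
        have : Tendsto (fun t : ℝ => -a * t) atTop atBot :=
          (tendsto_id.const_mul_atTop_of_neg (by linarith : -a < 0))
        exact Real.tendsto_exp_atBot.comp this
      simpa using (h1.const_mul C).mul_const ‖x - 0‖
    refine squeeze_zero_norm' ?_ hbd
    filter_upwards [eventually_ge_atTop (max Y 1)] with t ht
    have ht0 : 0 < t := lt_of_lt_of_le one_pos ((le_max_right _ _).trans ht)
    have hYt : Y ≤ t := (le_max_left _ _).trans ht
    have hconv : Convex ℝ (uIcc (0 : ℝ) x) := convex_uIcc 0 x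
    refine hconv.norm_image_sub_le_of_norm_hasDerivWithin_le
      (f := fun s : ℝ => G (vpt s t)) (f' := fun s : ℝ => h (vpt s t))
      (fun s _ => (hG.hasDerivAt_vpt_left s ht0).hasDerivWithinAt) (fun s hs => ?_)
      left_mem_uIcc right_mem_uIcc
    have hs' : |s| ≤ |x| := by
      rcases le_total 0 x with hx | hx
      · rw [uIcc_of_le hx] at hs
        rw [abs_of_nonneg hs.1, abs_of_nonneg hx]; exact hs.2
      · rw [uIcc_of_ge hx] at hs
        rw [abs_of_nonpos hs.2, abs_of_nonpos hx]; linarith [hs.1]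
    have := hb (vpt s t) (by rw [vpt_re s ht0]; exact hs') (by rw [vpt_im s ht0]; exact hYt)
    rwa [vpt_im s ht0] at this
  exact sub_eq_zero.mp (tendsto_nhds_unique hdiff hzero)

/-- Quantitative version: the primitive converges exponentially fast to its limit. -/
theorem IsPrim.norm_sub_le_of_hasVLim {G h : ℍ → ℂ} (hG : IsPrim G h) {c : ℂ}
    (hc : HasVLim G c) {A C a Y : ℝ} (ha : 0 < a)
    (hb : ∀ τ : ℍ, |τ.re| ≤ A → Y ≤ τ.im → ‖h τ‖ ≤ C * Real.exp (-a * τ.im))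
    (τ : ℍ) (h1 : |τ.re| ≤ A) (h2 : Y ≤ τ.im) :
    ‖G τ - c‖ ≤ C / a * Real.exp (-a * τ.im) := by
  set x := τ.re with hx
  set t₀ := τ.im with ht₀
  have ht₀pos : 0 < t₀ := τ.im_pos
  have hb' : ∀ τ' : ℍ, |τ'.re| ≤ |x| → Y ≤ τ'.im → ‖h τ'‖ ≤ C * Real.exp (-a * τ'.im) :=
    fun τ' h1' h2' => hb τ' (h1'.trans h1) h2'
  have hint := integrableOn_deriv_vpt hG x ha hb' ht₀pos h2
  have hderiv : ∀ t ∈ Ici t₀, HasDerivAt (fun s : ℝ => G (vpt x s))
      (deriv (fun s : ℝ => G (vpt x s)) t) t := fun t ht =>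
    ((hG.hasDerivAt_vpt_right x (lt_of_lt_of_le ht₀pos ht)).differentiableAt).hasDerivAt
  have hFTC := MeasureTheory.integral_Ioi_of_hasDerivAt_of_tendsto' hderiv hint (hc x)
  have hGτ : G (vpt x t₀) = G τ := by rw [hx, ht₀, vpt_re_im]
  rw [hGτ] at hFTC
  have hnorm : ‖∫ t in Ioi t₀, deriv (fun s : ℝ => G (vpt x s)) t‖ ≤
      ∫ t in Ioi t₀, C * Real.exp (-a * t) := by
    refine MeasureTheory.norm_integral_le_of_norm_le
      ((integrableOn_exp_mul_Ioi (by linarith : -a < 0) t₀).const_mul C) ?_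
    rw [MeasureTheory.ae_restrict_iff' measurableSet_Ioi]
    refine Filter.Eventually.of_forall fun t ht => ?_
    have ht0 : 0 < t := lt_trans ht₀pos ht
    rw [(hG.hasDerivAt_vpt_right x ht0).deriv, norm_mul, norm_I, mul_one]
    have := hb (vpt x t) (by rw [vpt_re x ht0]; exact h1)
      (by rw [vpt_im x ht0]; exact h2.trans ht.le)
    rwa [vpt_im x ht0] at this
  rw [hFTC, MeasureTheory.integral_const_mul, integral_exp_mul_Ioi (by linarith : -a < 0)] at hnorm
  rw [← norm_neg, neg_sub]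
  calc ‖c - G τ‖ ≤ C * (-Real.exp (-a * t₀) / -a) := hnorm
    _ = C / a * Real.exp (-a * t₀) := by
      field_simp

end Fermat.Agent.S22
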