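import Mathlib
import Fermat.Prelude.Def_CuspForm_HeckeAlgebra

set_option autoImplicit false
set_option linter.style.haveILetI false

namespace Fermat.Agent.S22

open CuspForm

/-- Abstract finiteness criterion: a finitely generated `ℤ`-lattice of linear functionals on the
space of cusp forms which is stable under (the transpose of) the Hecke generators and separates
points forces the Hecke algebra to be a finite `ℤ`-module. -/
theorem finite_heckeAlgebra_of_lattice {N : ℕ} [NeZero N] {k : ℤ} (S : Set ℕ)
    (Λ : Submodule ℤ (Module.Dual ℂ (CuspForm (CongruenceSubgroup.Gamma0 N) k)))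
    (hfg : Λ.FG)
    (hstab : ∀ t ∈ heckeGenerators N k ∅, ∀ l ∈ Λ, l ∘ₗ t ∈ Λ)
    (hsep : ∀ f : CuspForm (CongruenceSubgroup.Gamma0 N) k, (∀ l ∈ Λ, l f = 0) → f = 0) :
    Module.Finite ℤ (heckeAlgebra N k S) := by
  classical
  -- Step 1: stability under the whole Hecke algebra
  have hstab' : ∀ T ∈ heckeAlgebra N k ∅, ∀ l ∈ Λ, l ∘ₗ T ∈ Λ := by
    intro T hT
    refine Algebra.adjoin_induction (p := fun T _ => ∀ l ∈ Λ, l ∘ₗ T ∈ Λ) ?_ ?_ ?_ ?_ hT
    · intro t ht l hl
      exact hstab t ht l hl
    · intro n l hl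
      have : l ∘ₗ (algebraMap ℤ (Module.End ℂ (CuspForm (CongruenceSubgroup.Gamma0 N) k)) n) =
          n • l := by
        ext f
        simp
      rw [this]
      exact Λ.smul_mem n hl
    · intro T T' _ _ hT hT' l hl
      rw [LinearMap.comp_add]
      exact Λ.add_mem (hT l hl) (hT' l hl)
    · intro T T' _ _ hT hT' l hl
      have : l ∘ₗ (T * T') = (l ∘ₗ T) ∘ₗ T' := rfl
      rw [this]
      exact hT' _ (hT l hl)
  -- Step 2: the transpose map
  let Φ : heckeAlgebra N k ∅ →ₗ[ℤ] (Λ →ₗ[ℤ] Λ) :=
    { toFun := fun T =>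
        { toFun := fun l => ⟨(l : Module.Dual ℂ _) ∘ₗ (T : Module.End ℂ _), hstab' T T.2 l l.2⟩
          map_add' := fun l l' => by
            ext f
            simp
          map_smul' := fun n l => by
            ext f
            simp }
      map_add' := fun T T' => by
        ext l f
        simp
      map_smul' := fun n T => by
        ext l f
        simp }
  have hΦ : Function.Injective Φ := by
    rw [injective_iff_map_eq_zero]
    intro T hT
    apply Subtype.ext
    refine LinearMap.ext fun f => ?_
    rw [ZeroMemClass.coe_zero, LinearMap.zero_apply]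
    apply hsep
    intro l hl
    have := congrArg (fun g : Λ →ₗ[ℤ] Λ => ((g ⟨l, hl⟩ : Λ) : Module.Dual ℂ _) f) hT
    simpa [Φ] using this
  -- Step 4: finiteness of `End_ℤ Λ`
  haveI : Module.Finite ℤ Λ := Module.Finite.iff_fg.mpr hfg
  haveI : Module.Free ℤ Λ := Module.free_of_finite_type_torsion_free'
  haveI : Module.Finite ℤ (heckeAlgebra N k ∅) := Module.Finite.of_injective Φ hΦ
  -- Step 6: monotonicity in `S`
  have hle : heckeAlgebra N k S ≤ heckeAlgebra N k ∅ := heckeAlgebra_mono (Set.empty_subset S)
  exact Module.Finite.of_injective (Subalgebra.inclusion hle).toLinearMap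
    (Subalgebra.inclusion_injective hle)

end Fermat.Agent.S22
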