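import Mathlib

set_option autoImplicit false
set_option linter.style.haveILetI false

namespace Fermat.Agent.S22

/-- Right coset representatives of a finite-index subgroup. -/
theorem exists_finset_right_coset_reps {G : Type*} [Group G] (H : Subgroup G) [H.FiniteIndex] :
    ∃ R : Finset G, ∀ g : G, ∃ γ ∈ H, ∃ r ∈ R, g = γ * r := by
  classical
  haveI : Finite (G ⧸ H) := Subgroup.finite_quotient_of_finiteIndex
  haveI : Fintype (G ⧸ H) := Fintype.ofFinite _
  refine ⟨Finset.univ.image (fun q : G ⧸ H => (q.out)⁻¹), fun g => ?_⟩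
  set q : G ⧸ H := QuotientGroup.mk g⁻¹ with hq
  have h1 : (q.out)⁻¹ * g⁻¹ ∈ H := by
    have : (QuotientGroup.mk q.out : G ⧸ H) = QuotientGroup.mk g⁻¹ := by
      rw [QuotientGroup.out_eq']
    exact QuotientGroup.eq.mp this
  refine ⟨((q.out)⁻¹ * g⁻¹)⁻¹, H.inv_mem h1, (q.out)⁻¹, ?_, ?_⟩
  · exact Finset.mem_image_of_mem _ (Finset.mem_univ q)
  · group

/-- Abstract "Manin trick": a family of "period" maps `ev g h : M →+ D` on a group `G`
satisfying the Chasles relation, invariance under a finite-index subgroup `H`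
(up to an action on the coefficient module `M`) and vanishing along a set `s₁` of generators,
where `s₁ ∪ s₂` generates `G` with `s₂` finite and `M` is a finitely generated abelian group,
spans a finitely generated subgroup. -/
theorem periods_fg {G : Type*} [Group G] (H : Subgroup G) [H.FiniteIndex]
    (s₁ s₂ : Set G) (hs : Subgroup.closure (s₁ ∪ s₂) = ⊤) (hs₂ : s₂.Finite)
    {M D : Type*} [AddCommGroup M] [Module.Finite ℤ M] [AddCommGroup D]
    (ev : G → G → M →+ D) (act : H → M → M)
    (chasles : ∀ g h l P, ev g h P + ev h l P = ev g l P)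
    (hinv : ∀ (γ : H) g h P, ev (γ * g) (γ * h) P = ev g h (act γ P))
    (htriv : ∀ t ∈ s₁, ∀ g P, ev g (g * t) P = 0) :
    (Submodule.span ℤ {x : D | ∃ g h P, ev g h P = x}).FG := by
  classical
  obtain ⟨R, hR⟩ := exists_finset_right_coset_reps H
  -- the finitely generated candidate
  set Λ' : Submodule ℤ D :=
    ⨆ r ∈ R, ⨆ t ∈ hs₂.toFinset, LinearMap.range ((ev r (r * t)).toIntLinearMap) with hΛ'
  have hfg : Λ'.FG := by
    rw [hΛ']
    refine Submodule.fg_biSup _ _ fun r _ => ?_
    refine Submodule.fg_biSup _ _ fun t _ => ?_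
    rw [LinearMap.range_eq_map]
    exact Submodule.FG.map _ (Module.Finite.fg_top (R := ℤ) (M := M))
  have hself : ∀ g P, ev g g P = 0 := by
    intro g P
    have := chasles g g g P
    simpa using this
  have hsymm : ∀ g h P, ev h g P = - ev g h P := by
    intro g h P
    have := chasles g h g P
    rw [hself] at this
    exact (neg_eq_of_add_eq_zero_right this).symm
  have hbase : ∀ t ∈ s₂, ∀ g P, ev g (g * t) P ∈ Λ' := by
    intro t ht g P
    obtain ⟨γ, hγ, r, hr, rfl⟩ := hR g
    have := hinv ⟨γ, hγ⟩ r (r * t) P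
    simp only [← mul_assoc] at this
    rw [this]
    refine Submodule.mem_iSup_of_mem r (Submodule.mem_iSup_of_mem hr ?_)
    refine Submodule.mem_iSup_of_mem t (Submodule.mem_iSup_of_mem (hs₂.mem_toFinset.mpr ht) ?_)
    exact ⟨_, rfl⟩
  have hmain : ∀ x : G, ∀ g P, ev g (g * x) P ∈ Λ' := by
    intro x
    have hx : x ∈ Subgroup.closure (s₁ ∪ s₂) := by rw [hs]; trivial
    refine Subgroup.closure_induction (p := fun x _ => ∀ g P, ev g (g * x) P ∈ Λ')
      ?_ ?_ ?_ ?_ hx
    · rintro t (ht | ht) g P
      · rw [htriv t ht]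
        exact Λ'.zero_mem
      · exact hbase t ht g P
    · intro g P
      rw [mul_one, hself]
      exact Λ'.zero_mem
    · intro x y _ _ hx hy g P
      rw [← chasles g (g * x) (g * (x * y)) P]
      refine Λ'.add_mem (hx g P) ?_
      have := hy (g * x) P
      rwa [mul_assoc] at this
    · intro x _ hx g P
      rw [hsymm]
      refine Λ'.neg_mem ?_
      have := hx (g * x⁻¹) P
      rwa [inv_mul_cancel_right] at this
  refine Submodule.FG.of_le hfg ?_
  rw [Submodule.span_le]
  rintro _ ⟨g, h, P, rfl⟩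
  have := hmain (g⁻¹ * h) g P
  rwa [mul_inv_cancel_left] at this

end Fermat.Agent.S22
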