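import Mathlib
import Fermat.Prelude.Def_CuspForm_HeckeAlgebra
import Fermat.Agent.Helper2.Gamma0Small

set_option autoImplicit false

namespace Fermat.Agent.S22

open CuspForm
open scoped MatrixGroups

theorem neg_one_mem_Gamma0 (N : ℕ) :
    (-1 : GL (Fin 2) ℝ) ∈ (CongruenceSubgroup.Gamma0 N : Subgroup (GL (Fin 2) ℝ)) := by
  refine ⟨-1, ?_, ?_⟩
  · rw [SetLike.mem_coe, CongruenceSubgroup.Gamma0_mem]
    simp
  · ext i j
    simp

theorem cuspForm_eq_zero_of_odd (N : ℕ) {k : ℤ} (hk : Odd k)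
    (f : CuspForm (CongruenceSubgroup.Gamma0 N) k) : f = 0 := by
  have h := ModularForm.eq_zero_of_neg_one_mem (neg_one_mem_Gamma0 N) hk
    (ModularFormClass.modularForm f)
  ext z
  exact DFunLike.congr_fun h z

theorem finite_heckeAlgebra_of_forall_eq_zero {N : ℕ} [NeZero N] {k : ℤ} (S : Set ℕ)
    (h : ∀ f : CuspForm (CongruenceSubgroup.Gamma0 N) k, f = 0) :
    Module.Finite ℤ (heckeAlgebra N k S) := by
  haveI : Subsingleton (CuspForm (CongruenceSubgroup.Gamma0 N) k) :=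
    ⟨fun f g => by rw [h f, h g]⟩
  haveI : Subsingleton (Module.End ℂ (CuspForm (CongruenceSubgroup.Gamma0 N) k)) :=
    ⟨fun a b => LinearMap.ext fun f => Subsingleton.elim _ _⟩
  haveI : Subsingleton (heckeAlgebra N k S) := ⟨fun a b => Subtype.ext (Subsingleton.elim _ _)⟩
  infer_instance

theorem finite_heckeAlgebra_of_odd {N : ℕ} [NeZero N] {k : ℤ} (S : Set ℕ) (hk : Odd k) :
    Module.Finite ℤ (heckeAlgebra N k S) :=
  finite_heckeAlgebra_of_forall_eq_zero S (cuspForm_eq_zero_of_odd N hk)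

theorem finite_heckeAlgebra_of_nonpos {N : ℕ} [NeZero N] {k : ℤ} (S : Set ℕ) (hk : k ≤ 0) :
    Module.Finite ℤ (heckeAlgebra N k S) :=
  finite_heckeAlgebra_of_forall_eq_zero S
    (Fermat.Agent.Helper2.cuspForm_Gamma0_eq_zero_of_weight_nonpos N k hk)

end Fermat.Agent.S22
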