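import Mathlib
import Fermat.Prelude.Def_CuspForm_HeckeAlgebra
import Fermat.Agent.S22.C_helper9_Lattice
import Fermat.Agent.S22.C_helper9_PeriodsFG
import Fermat.Agent.S22.C_helper9_Trivial

set_option autoImplicit false

namespace Fermat.Agent.S22

open CuspForm CongruenceSubgroup
open scoped MatrixGroups

/-- The data and properties of the period pairing needed to conclude finiteness of the Hecke
algebra: `ev g h P f = ∫_{g∞}^{h∞} f(w) P(w) dw` for `P` in a finitely generated `ℤ`-module `M`
of coefficient polynomials. -/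
structure PeriodData (N : ℕ) [NeZero N] (k : ℤ) (M : Type) [AddCommGroup M] where
  ev : SL(2, ℤ) → SL(2, ℤ) → M →+ Module.Dual ℂ (CuspForm (Gamma0 N) k)
  act : Gamma0 N → M → M
  chasles : ∀ g h l P, ev g h P + ev h l P = ev g l P
  hinv : ∀ (γ : Gamma0 N) g h P, ev (γ * g) (γ * h) P = ev g h (act γ P)
  htriv : ∀ g P, ev g (g * ModularGroup.T) P = 0
  hecke : ∀ t ∈ heckeGenerators N k ∅, ∀ g h P,
    (ev g h P) ∘ₗ t ∈ Submodule.span ℤ {x | ∃ g h P, ev g h P = x}
  sep : ∀ f : CuspForm (Gamma0 N) k, (∀ g h P, ev g h P f = 0) → f = 0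

theorem finite_heckeAlgebra_of_periodData {N : ℕ} [NeZero N] {k : ℤ} {M : Type} [AddCommGroup M]
    [Module.Finite ℤ M] (D : PeriodData N k M) (S : Set ℕ) :
    Module.Finite ℤ (heckeAlgebra N k S) := by
  set Λ : Submodule ℤ (Module.Dual ℂ (CuspForm (Gamma0 N) k)) :=
    Submodule.span ℤ {x | ∃ g h P, D.ev g h P = x} with hΛ
  have hfg : Λ.FG := by
    refine periods_fg (Gamma0 N) {ModularGroup.T} {ModularGroup.S} ?_ (Set.finite_singleton _)
      D.ev D.act D.chasles D.hinv ?_
    · have := SpecialLinearGroup.SL2Z_generators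
      rw [← this]
      congr 1
      ext x
      simp
    · intro t ht g P
      rw [Set.mem_singleton_iff] at ht
      rw [ht]
      exact D.htriv g P
  refine finite_heckeAlgebra_of_lattice S Λ hfg ?_ ?_
  · intro t ht l hl
    refine Submodule.span_induction (p := fun l _ => l ∘ₗ t ∈ Λ) ?_ ?_ ?_ ?_ hl
    · rintro _ ⟨g, h, P, rfl⟩
      exact D.hecke t ht g h P
    · simp
    · intro x y _ _ hx hy
      rw [LinearMap.add_comp]
      exact Λ.add_mem hx hy
    · intro n x _ hx
      rw [LinearMap.smul_comp]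
      exact Λ.smul_mem n hx
  · intro f hf
    refine D.sep f fun g h P => hf _ (Submodule.subset_span ⟨g, h, P, rfl⟩)

end Fermat.Agent.S22
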