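import Mathlib

set_option autoImplicit false

namespace Fermat.Agent.S22

open Polynomial

section polyAct

variable {R : Type*} [CommRing R]

/-- The weight `m` "homogeneous substitution" action of a `2×2` matrix `A = [a b; c d]` on
polynomials of degree `≤ m`: `P ↦ ∑_j p_j (aX+b)^j (cX+d)^(m-j) = (cX+d)^m P((aX+b)/(cX+d))`. -/
noncomputable def polyAct (m : ℕ) (A : Matrix (Fin 2) (Fin 2) R) : R[X] →ₗ[R] R[X] where
  toFun P := ∑ j ∈ Finset.range (m + 1),
    C (P.coeff j) * (C (A 0 0) * X + C (A 0 1)) ^ j * (C (A 1 0) * X + C (A 1 1)) ^ (m - j)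
  map_add' P Q := by
    simp only [coeff_add, map_add, add_mul, Finset.sum_add_distrib]
  map_smul' r P := by
    simp only [RingHom.id_apply, Finset.smul_sum]
    refine Finset.sum_congr rfl fun j _ => ?_
    rw [coeff_smul, smul_eq_mul, C_mul, smul_eq_C_mul]
    ring

theorem polyAct_apply (m : ℕ) (A : Matrix (Fin 2) (Fin 2) R) (P : R[X]) :
    polyAct m A P = ∑ j ∈ Finset.range (m + 1),
      C (P.coeff j) * (C (A 0 0) * X + C (A 0 1)) ^ j * (C (A 1 0) * X + C (A 1 1)) ^ (m - j) :=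
  rfl

theorem natDegree_linear_le (a b : R) : (C a * X + C b : R[X]).natDegree ≤ 1 := by
  refine (natDegree_add_le _ _).trans ?_
  rw [max_le_iff]
  exact ⟨(natDegree_C_mul_le _ _).trans natDegree_X_le, by simp⟩

theorem natDegree_polyAct_le (m : ℕ) (A : Matrix (Fin 2) (Fin 2) R) (P : R[X]) :
    (polyAct m A P).natDegree ≤ m := by
  rw [polyAct_apply]
  refine natDegree_sum_le_of_forall_le _ _ fun j hj => ?_
  have hj' : j ≤ m := Nat.lt_succ_iff.mp (Finset.mem_range.mp hj)
  refine (natDegree_mul_le).trans ?_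
  have h1 : (C (P.coeff j) * (C (A 0 0) * X + C (A 0 1)) ^ j).natDegree ≤ j := by
    refine (natDegree_C_mul_le _ _).trans ?_
    refine (natDegree_pow_le).trans ?_
    calc j * (C (A 0 0) * X + C (A 0 1) : R[X]).natDegree ≤ j * 1 :=
          Nat.mul_le_mul_left _ (natDegree_linear_le _ _)
      _ = j := mul_one j
  have h2 : ((C (A 1 0) * X + C (A 1 1) : R[X]) ^ (m - j)).natDegree ≤ m - j := by
    refine (natDegree_pow_le).trans ?_
    calc (m - j) * (C (A 1 0) * X + C (A 1 1) : R[X]).natDegree ≤ (m - j) * 1 :=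
          Nat.mul_le_mul_left _ (natDegree_linear_le _ _)
      _ = m - j := mul_one _
  omega

theorem polyAct_mem_degreeLT (m : ℕ) (A : Matrix (Fin 2) (Fin 2) R) (P : R[X]) :
    polyAct m A P ∈ degreeLT R (m + 1) := by
  rw [mem_degreeLT]
  exact lt_of_le_of_lt degree_le_natDegree
    (by exact_mod_cast Nat.lt_succ_of_le (natDegree_polyAct_le m A P))

theorem polyAct_map {S : Type*} [CommRing S] (φ : R →+* S) (m : ℕ) (A : Matrix (Fin 2) (Fin 2) R)
    (P : R[X]) : (polyAct m A P).map φ = polyAct m (A.map φ) (P.map φ) := by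
  simp only [polyAct_apply, Polynomial.map_sum, Polynomial.map_mul, Polynomial.map_pow,
    Polynomial.map_add, map_C, map_X, coeff_map, Matrix.map_apply]

end polyAct

section eval

variable {K : Type*} [Field K]

/-- Evaluation of `polyAct`: `(P‖A)(u) = (cu+d)^m P((au+b)/(cu+d))`. -/
theorem eval_polyAct (m : ℕ) (A : Matrix (Fin 2) (Fin 2) K) (P : K[X]) (hP : P.natDegree ≤ m)
    (u : K) (hu : A 1 0 * u + A 1 1 ≠ 0) :
    (polyAct m A P).eval u =
      (A 1 0 * u + A 1 1) ^ m * P.eval ((A 0 0 * u + A 0 1) / (A 1 0 * u + A 1 1)) := by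
  rw [polyAct_apply, eval_finsetSum]
  rw [eval_eq_sum_range' (Nat.lt_succ_of_le hP), Finset.mul_sum]
  refine Finset.sum_congr rfl fun j hj => ?_
  have hj' : j ≤ m := Nat.lt_succ_iff.mp (Finset.mem_range.mp hj)
  simp only [eval_mul, eval_C, eval_pow, eval_add, eval_X]
  rw [div_pow]
  generalize A 1 0 * u + A 1 1 = w at hu ⊢
  generalize A 0 0 * u + A 0 1 = v
  have : w ^ m = w ^ j * w ^ (m - j) := by
    rw [← pow_add, Nat.add_sub_cancel' hj']
  rw [this]
  have hne : w ^ j ≠ 0 := pow_ne_zero _ hu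
  field_simp

end eval

section SL

open UpperHalfPlane
open scoped MatrixGroups

/-- `polyAct` for `g ∈ SL(2,ℤ)` computes the weight `-m` slash action on polynomial functions. -/
theorem eval_polyAct_SL (m : ℕ) (g : SL(2, ℤ)) (P : ℂ[X]) (hP : P.natDegree ≤ m) (u : ℍ) :
    (polyAct m ((g : Matrix (Fin 2) (Fin 2) ℤ).map (Int.cast : ℤ → ℂ)) P).eval (u : ℂ) =
      denom g u ^ m * P.eval ((g • u : ℍ) : ℂ) := by
  have hu : denom g u ≠ 0 := denom_ne_zero g u
  rw [ModularGroup.denom_apply] at hu ⊢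
  rw [eval_polyAct m _ P hP (u : ℂ) (by simpa using hu)]
  rw [UpperHalfPlane.coe_specialLinearGroup_apply]
  simp

end SL

end Fermat.Agent.S22
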