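import Mathlib
import Fermat.Agent.S22.VertInt
import Fermat.Prelude.Def_ModularForm_HeckeOperator

/-!
# Primitives normalised at a cusp: `cuspPrim H α z = ∫_{α∞}^z H(w) dw`

Package (B), analytic lemmas L1, L2, L3 of the S22 period-lattice plan.
-/

set_option autoImplicit false

namespace Fermat.Agent.S22

open Complex UpperHalfPlane ModularForm Filter Topology
open scoped MatrixGroups Manifold

/-- The primitive of the 1-form `H(w) dw` on `ℍ` which vanishes at the cusp `α∞`: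
`cuspPrim H α z = ∫_{α∞}^z H(w) dw = -∫_{α⁻¹z}^{i∞} (H ∣[2] α)(u) du`. -/
noncomputable def cuspPrim (H : ℍ → ℂ) (α : GL (Fin 2) ℝ) (z : ℍ) : ℂ :=
  -vertInt ((H ∣[(2 : ℤ)] α) ∘ ofComplex) ↑(α⁻¹ • z)

/-- (L1) Formal covariance of `cuspPrim` under the weight `2` slash action. -/
theorem cuspPrim_slash (H : ℍ → ℂ) (β α : GL (Fin 2) ℝ) (z : ℍ) :
    cuspPrim (H ∣[(2 : ℤ)] β) α z = cuspPrim H (β * α) (β • z) := by
  unfold cuspPrim
  rw [← SlashAction.slash_mul, mul_inv_rev, mul_smul, inv_smul_smul]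

theorem cuspPrim_slash' (H : ℍ → ℂ) (β α : GL (Fin 2) ℝ) (z : ℍ) :
    cuspPrim H (β * α) z = cuspPrim (H ∣[(2 : ℤ)] β) α (β⁻¹ • z) := by
  rw [cuspPrim_slash, smul_inv_smul]

/-- The weight 2 slash action of an upper triangular matrix with positive diagonal. -/
theorem slash_two_upperTriangularGL (F : ℍ → ℂ) {a b d : ℝ} (ha : 0 < a) (hd : 0 < d)
    (had : a * d ≠ 0) (u : ℍ) :
    (F ∣[(2 : ℤ)] upperTriangularGL a b d had) u =
      ((a / d : ℝ) : ℂ) * F (upperTriangularGL a b d had • u) := by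
  have hdet : ((upperTriangularGL a b d had).det : ℝ) = a * d := by
    rw [Matrix.GeneralLinearGroup.val_det_apply, val_upperTriangularGL, Matrix.det_fin_two_of]
    ring
  have hpos : 0 < ((upperTriangularGL a b d had).det : ℝ) := by rw [hdet]; exact mul_pos ha hd
  have hσ : UpperHalfPlane.σ (upperTriangularGL a b d had) = .refl ℝ ℂ := by
    rw [UpperHalfPlane.σ, if_pos hpos]
  have hden : denom (upperTriangularGL a b d had) u = d := by
    simp [denom, val_upperTriangularGL]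
  rw [ModularForm.slash_apply, hσ, hdet, hden, abs_of_pos (mul_pos ha hd)]
  simp only [ContinuousAlgEquiv.refl_apply]
  have hd' : (d : ℂ) ≠ 0 := by exact_mod_cast hd.ne'
  push_cast
  rw [zpow_one, zpow_neg, zpow_ofNat]
  field_simp

theorem coe_upperTriangularGL_smul {a b d : ℝ} (ha : 0 < a) (hd : 0 < d) (had : a * d ≠ 0)
    (u : ℍ) :
    ((upperTriangularGL a b d had • u : ℍ) : ℂ) = ((a / d : ℝ) : ℂ) * (u : ℂ) + ((b / d : ℝ) : ℂ) := by
  have hdet : ((upperTriangularGL a b d had).det : ℝ) = a * d := by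
    rw [Matrix.GeneralLinearGroup.val_det_apply, val_upperTriangularGL, Matrix.det_fin_two_of]
    ring
  have hpos : 0 < ((upperTriangularGL a b d had).det : ℝ) := by rw [hdet]; exact mul_pos ha hd
  rw [UpperHalfPlane.coe_smul_of_det_pos hpos]
  have hd' : (d : ℂ) ≠ 0 := by exact_mod_cast hd.ne'
  simp only [num, denom, val_upperTriangularGL, Matrix.of_apply, Matrix.cons_val', Matrix.cons_val_zero,
    Matrix.cons_val_fin_one, Matrix.cons_val_one, ofReal_zero, zero_mul, zero_add]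
  push_cast
  field_simp

/-- (L2) `cuspPrim` only depends on the cusp `α∞`: right multiplication of `α` by an upper
triangular matrix with positive diagonal does not change it. -/
theorem cuspPrim_mul_upperTriangularGL (H : ℍ → ℂ) (α : GL (Fin 2) ℝ) {a b d : ℝ} (ha : 0 < a)
    (hd : 0 < d) (had : a * d ≠ 0) (z : ℍ) :
    cuspPrim H (α * upperTriangularGL a b d had) z = cuspPrim H α z := by
  set U := upperTriangularGL a b d had with hU
  have hr : 0 < a / d := div_pos ha hd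
  unfold cuspPrim
  rw [SlashAction.slash_mul, mul_inv_rev, mul_smul]
  set F := H ∣[(2 : ℤ)] α with hF
  set x := α⁻¹ • z with hx
  congr 1
  have h1 : vertInt ((F ∣[(2 : ℤ)] U) ∘ ofComplex) ↑(U⁻¹ • x) =
      vertInt (((a / d : ℝ) : ℂ) • fun w : ℂ => (F ∘ ofComplex) (((a / d : ℝ) : ℂ) * w + ((b / d : ℝ) : ℂ)))
        ↑(U⁻¹ • x) := by
    refine vertInt_congr (U⁻¹ • x).im_pos (fun w hw => ?_)
    rw [Function.comp_apply, ofComplex_apply_of_im_pos hw, slash_two_upperTriangularGL F ha hd had,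
      Pi.smul_apply, smul_eq_mul, Function.comp_apply]
    congr 2
    have h2 := coe_upperTriangularGL_smul (b := b) ha hd had ⟨w, hw⟩
    rw [← hU] at h2
    have h3 : 0 < (((a / d : ℝ) : ℂ) * w + ((b / d : ℝ) : ℂ)).im := by
      simpa using mul_pos hr hw
    rw [ofComplex_apply_of_im_pos h3]
    ext1
    exact h2
  rw [h1, vertInt_smul, vertInt_comp_affine _ hr]
  have h4 : ((a / d : ℝ) : ℂ) * ((U⁻¹ • x : ℍ) : ℂ) + ((b / d : ℝ) : ℂ) = (x : ℂ) := by
    have := coe_upperTriangularGL_smul (b := b) ha hd had (U⁻¹ • x)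
    rw [← hU, smul_inv_smul] at this
    exact this.symm
  rw [h4]
  have hne : ((a / d : ℝ) : ℂ) ≠ 0 := by exact_mod_cast hr.ne'
  field_simp

/-- (L3) `cuspPrim H α` is a primitive of `H` on the upper half plane. -/
theorem hasDerivAt_cuspPrim (H : ℍ → ℂ) {α : GL (Fin 2) ℝ} (hα : 0 < α.det.val)
    (hdec : VertDecay ((H ∣[(2 : ℤ)] α) ∘ ofComplex)) (z : ℍ) :
    HasDerivAt (fun w : ℂ => cuspPrim H α (ofComplex w)) (H z) z := by
  have hαinv : 0 < (α⁻¹).det.val := by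
    rw [map_inv, Units.val_inv_eq_inv_val]
    exact inv_pos.mpr hα
  have hαinv' : 0 < (α⁻¹).val.det := by
    rwa [← Matrix.GeneralLinearGroup.val_det_apply]
  have hm := (hasStrictDerivAt_smul hαinv' z).hasDerivAt
  have hmz : ((α⁻¹ • ofComplex (z : ℂ) : ℍ) : ℂ) = ((α⁻¹ • z : ℍ) : ℂ) := by
    rw [ofComplex_apply]
  have hv := hdec.hasDerivAt_vertInt (z := ((α⁻¹ • z : ℍ) : ℂ)) (α⁻¹ • z).im_pos
  rw [← hmz] at hv
  have hcomp := (hv.comp (z : ℂ) hm).neg
  have hval : -(-((H ∣[(2 : ℤ)] α) ∘ ofComplex) ((α⁻¹ • ofComplex (z : ℂ) : ℍ) : ℂ) *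
      (((α⁻¹).val.det : ℝ) / denom α⁻¹ z ^ 2)) = H z := by
    rw [hmz, Function.comp_apply, ofComplex_apply, ModularForm.slash_apply, smul_inv_smul]
    have hσ : UpperHalfPlane.σ α = .refl ℝ ℂ := by rw [UpperHalfPlane.σ, if_pos hα]
    have hσ' : UpperHalfPlane.σ α⁻¹ = .refl ℝ ℂ := by rw [UpperHalfPlane.σ, if_pos hαinv]
    have hcoc := denom_cocycle_σ α α⁻¹ z
    rw [mul_inv_cancel, hσ', ContinuousAlgEquiv.refl_apply] at hcoc
    have h1 : denom (1 : GL (Fin 2) ℝ) (z : ℂ) = 1 := by simp [denom]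
    rw [h1] at hcoc
    have hd1 : denom α⁻¹ z ≠ 0 := denom_ne_zero _ z
    have hd2 : denom α ((α⁻¹ • z : ℍ) : ℂ) ≠ 0 := denom_ne_zero _ _
    have hdetinv : ((α⁻¹).val.det : ℝ) = (α.det.val)⁻¹ := by
      rw [← Matrix.GeneralLinearGroup.val_det_apply, map_inv, Units.val_inv_eq_inv_val]
    rw [hσ, ContinuousAlgEquiv.refl_apply, hdetinv, abs_of_pos hα]
    have hdet0 : ((α.det.val : ℝ) : ℂ) ≠ 0 := by exact_mod_cast hα.ne'
    have e : denom α ((α⁻¹ • z : ℍ) : ℂ) = (denom α⁻¹ z)⁻¹ := by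
      field_simp
      exact hcoc.symm
    rw [e]
    push_cast
    rw [zpow_one, zpow_neg, zpow_ofNat]
    field_simp
  rw [hval] at hcomp
  exact hcomp

/-- A function on `ℍ` whose extension by `ofComplex` has derivative zero is constant. -/
theorem eq_of_hasDerivAt_zero {D : ℍ → ℂ}
    (hD : ∀ z : ℍ, HasDerivAt (fun w : ℂ => D (ofComplex w)) 0 z) (z w : ℍ) : D z = D w := by
  have hopen : IsOpen {u : ℂ | 0 < u.im} := isOpen_upperHalfPlaneSet
  have hconn : IsPreconnected {u : ℂ | 0 < u.im} := (convex_halfSpace_im_gt 0).isPreconnected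
  have hdiff : DifferentiableOn ℂ (fun u : ℂ => D (ofComplex u)) {u : ℂ | 0 < u.im} := by
    intro u hu
    exact (hD ⟨u, hu⟩).differentiableAt.differentiableWithinAt
  have hzero : Set.EqOn (fderiv ℂ (fun u : ℂ => D (ofComplex u))) 0 {u : ℂ | 0 < u.im} := by
    intro u hu
    have := (hD ⟨u, hu⟩).hasFDerivAt.fderiv
    simpa using this
  have := hopen.is_const_of_fderiv_eq_zero hconn hdiff hzero (x := (z : ℂ)) (y := (w : ℂ))
    z.im_pos w.im_pos
  simpa [ofComplex_apply] using this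

/-- Two primitives normalised at different cusps differ by a constant (the period). -/
theorem cuspPrim_sub_cuspPrim_const (H : ℍ → ℂ) {α β : GL (Fin 2) ℝ} (hα : 0 < α.det.val)
    (hβ : 0 < β.det.val) (hdα : VertDecay ((H ∣[(2 : ℤ)] α) ∘ ofComplex))
    (hdβ : VertDecay ((H ∣[(2 : ℤ)] β) ∘ ofComplex)) (z w : ℍ) :
    cuspPrim H α z - cuspPrim H β z = cuspPrim H α w - cuspPrim H β w := by
  refine eq_of_hasDerivAt_zero (D := fun z => cuspPrim H α z - cuspPrim H β z) (fun u => ?_) z w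
  have := (hasDerivAt_cuspPrim H hα hdα u).sub (hasDerivAt_cuspPrim H hβ hdβ u)
  rw [sub_self] at this
  exact this

/-! ### Linearity in `H` -/

theorem cuspPrim_add (H₁ H₂ : ℍ → ℂ) (α : GL (Fin 2) ℝ)
    (h₁ : VertDecay ((H₁ ∣[(2 : ℤ)] α) ∘ ofComplex)) (h₂ : VertDecay ((H₂ ∣[(2 : ℤ)] α) ∘ ofComplex))
    (z : ℍ) : cuspPrim (H₁ + H₂) α z = cuspPrim H₁ α z + cuspPrim H₂ α z := by
  unfold cuspPrim
  rw [SlashAction.add_slash]
  have : ((H₁ ∣[(2 : ℤ)] α + H₂ ∣[(2 : ℤ)] α) ∘ ofComplex) =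
      (H₁ ∣[(2 : ℤ)] α) ∘ ofComplex + (H₂ ∣[(2 : ℤ)] α) ∘ ofComplex := rfl
  rw [this, h₁.vertInt_add h₂ (α⁻¹ • z).im_pos]
  ring

theorem cuspPrim_smul (c : ℂ) (H : ℍ → ℂ) {α : GL (Fin 2) ℝ} (hα : 0 < α.det.val) (z : ℍ) :
    cuspPrim (c • H) α z = c * cuspPrim H α z := by
  unfold cuspPrim
  have hσ : UpperHalfPlane.σ α = .refl ℝ ℂ := by rw [UpperHalfPlane.σ, if_pos hα]
  rw [ModularForm.smul_slash, hσ, ContinuousAlgEquiv.refl_apply]
  have : ((c • H ∣[(2 : ℤ)] α) ∘ ofComplex) = c • ((H ∣[(2 : ℤ)] α) ∘ ofComplex) := rfl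
  rw [this, vertInt_smul]
  ring

theorem cuspPrim_zero (α : GL (Fin 2) ℝ) (z : ℍ) : cuspPrim 0 α z = 0 := by
  unfold cuspPrim
  rw [SlashAction.zero_slash]
  have : ((0 : ℍ → ℂ) ∘ ofComplex) = 0 := rfl
  rw [this, vertInt_zero, neg_zero]

theorem cuspPrim_sum {ι : Type*} (s : Finset ι) (H : ι → ℍ → ℂ) (α : GL (Fin 2) ℝ)
    (h : ∀ i ∈ s, VertDecay ((H i ∣[(2 : ℤ)] α) ∘ ofComplex)) (z : ℍ) :
    cuspPrim (∑ i ∈ s, H i) α z = ∑ i ∈ s, cuspPrim (H i) α z := by
  classical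
  induction s using Finset.induction_on with
  | empty => simp [cuspPrim_zero]
  | insert a s ha ih =>
    have hs : VertDecay (((∑ i ∈ s, H i) ∣[(2 : ℤ)] α) ∘ ofComplex) := by
      have h2 : ((∑ i ∈ s, H i) ∣[(2 : ℤ)] α) ∘ ofComplex =
          ∑ i ∈ s, (H i ∣[(2 : ℤ)] α) ∘ ofComplex := by
        rw [SlashAction.sum_slash]
        ext w
        simp [Finset.sum_apply]
      rw [h2]
      exact VertDecay.sum s (fun i hi => h i (Finset.mem_insert_of_mem hi))
    rw [Finset.sum_insert ha, Finset.sum_insert ha,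
      cuspPrim_add _ _ α (h a (Finset.mem_insert_self a s)) hs,
      ih (fun i hi => h i (Finset.mem_insert_of_mem hi))]

/-! ### `T`-invariance -/

theorem mapGL_T_eq : (Matrix.SpecialLinearGroup.mapGL ℝ ModularGroup.T : GL (Fin 2) ℝ) =
    upperTriangularGL 1 1 1 (by norm_num) := by
  apply Matrix.GeneralLinearGroup.ext
  intro i j
  rw [val_upperTriangularGL]
  fin_cases i <;> fin_cases j <;> simp [ModularGroup.coe_T]

/-- `cuspPrim H (α T) = cuspPrim H α`. -/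
theorem cuspPrim_mul_T (H : ℍ → ℂ) (α : GL (Fin 2) ℝ) (z : ℍ) :
    cuspPrim H (α * (Matrix.SpecialLinearGroup.mapGL ℝ ModularGroup.T : GL (Fin 2) ℝ)) z =
      cuspPrim H α z := by
  rw [mapGL_T_eq]
  exact cuspPrim_mul_upperTriangularGL H α one_pos one_pos _ z

end Fermat.Agent.S22
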