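import Mathlib
import Fermat.Agent.S22.VertInt
import Fermat.Agent.S22.Decay
import Fermat.Agent.S22.CuspPrim
import Fermat.Agent.S22.B2_helper9_PolyAct

/-!
# Periods `∫_{g∞}^{h∞} f(w) P(w) dw` of cusp forms against polynomials

Package (B) of the S22 period-lattice plan: definitions, the slash formula for `f · P`, decay,
base point independence, Chasles, `T`-invariance, `Γ₀(N)`-invariance.
-/

set_option autoImplicit false

namespace Fermat.Agent.S22

open Complex UpperHalfPlane ModularForm CongruenceSubgroup Polynomial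
open scoped MatrixGroups

/-- The function `u ↦ F(u) P(u)` on the upper half plane. -/
noncomputable def formPoly (F : ℍ → ℂ) (P : ℂ[X]) : ℍ → ℂ := fun u => F u * P.eval (u : ℂ)

theorem formPoly_apply (F : ℍ → ℂ) (P : ℂ[X]) (u : ℍ) : formPoly F P u = F u * P.eval (u : ℂ) := rfl

theorem formPoly_add_poly (F : ℍ → ℂ) (P Q : ℂ[X]) :
    formPoly F (P + Q) = formPoly F P + formPoly F Q := by
  ext u
  simp [formPoly, mul_add]

theorem formPoly_smul_poly (F : ℍ → ℂ) (c : ℂ) (P : ℂ[X]) :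
    formPoly F (c • P) = c • formPoly F P := by
  ext u
  simp [formPoly, mul_left_comm]

theorem formPoly_add_form (F G : ℍ → ℂ) (P : ℂ[X]) :
    formPoly (F + G) P = formPoly F P + formPoly G P := by
  ext u
  simp [formPoly, add_mul]

theorem formPoly_smul_form (c : ℂ) (F : ℍ → ℂ) (P : ℂ[X]) :
    formPoly (c • F) P = c • formPoly F P := by
  ext u
  simp [formPoly, mul_assoc]

theorem formPoly_sum_form {ι : Type*} (s : Finset ι) (F : ι → ℍ → ℂ) (P : ℂ[X]) :
    formPoly (∑ i ∈ s, F i) P = ∑ i ∈ s, formPoly (F i) P := by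
  ext u
  simp [formPoly, Finset.sum_mul, Finset.sum_apply]

/-- A real `2 × 2` matrix viewed as a complex one. -/
noncomputable def cmat (α : GL (Fin 2) ℝ) : Matrix (Fin 2) (Fin 2) ℂ :=
  (α : Matrix (Fin 2) (Fin 2) ℝ).map (fun x : ℝ => (x : ℂ))

@[simp] theorem cmat_apply (α : GL (Fin 2) ℝ) (i j : Fin 2) : cmat α i j = ((α i j : ℝ) : ℂ) := rfl

/-- The weight `2` slash action on `f · P` in terms of the weight `k = m + 2` action on `f` and
the polynomial action on `P`. -/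
theorem formPoly_slash (m : ℕ) {k : ℤ} (hk : k = (m : ℤ) + 2) (F : ℍ → ℂ) (P : ℂ[X])
    (hP : P.natDegree ≤ m) {α : GL (Fin 2) ℝ} (hα : 0 < α.det.val) :
    (formPoly F P) ∣[(2 : ℤ)] α =
      formPoly (F ∣[k] α) ((((α.det.val : ℝ) : ℂ) ^ m)⁻¹ • polyAct m (cmat α) P) := by
  subst hk
  ext u
  have hσ : UpperHalfPlane.σ α = .refl ℝ ℂ := by rw [UpperHalfPlane.σ, if_pos hα]
  have hden : denom α u ≠ 0 := denom_ne_zero α u
  have hden' : cmat α 1 0 * (u : ℂ) + cmat α 1 1 ≠ 0 := hden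
  have hdet : ((α.det.val : ℝ) : ℂ) ≠ 0 := by exact_mod_cast hα.ne'
  rw [formPoly_apply, ModularForm.slash_apply, ModularForm.slash_apply, hσ,
    ContinuousAlgEquiv.refl_apply, ContinuousAlgEquiv.refl_apply, formPoly_apply, eval_smul,
    eval_polyAct m (cmat α) P hP (u : ℂ) hden', abs_of_pos hα]
  have hcoe : ((α • u : ℍ) : ℂ) = (cmat α 0 0 * (u : ℂ) + cmat α 0 1) /
      (cmat α 1 0 * (u : ℂ) + cmat α 1 1) := UpperHalfPlane.coe_smul_of_det_pos hα u
  rw [← hcoe]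
  have hd : cmat α 1 0 * (u : ℂ) + cmat α 1 1 = denom α u := rfl
  rw [hd]
  have e1 : (((α.det.val : ℝ) : ℂ)) ^ ((m : ℤ) + 2 - 1) = ((α.det.val : ℝ) : ℂ) ^ m * (α.det.val : ℝ) := by
    rw [show (m : ℤ) + 2 - 1 = (m : ℤ) + 1 by ring, zpow_add₀ hdet, zpow_natCast, zpow_one]
  have e2 : (denom α u) ^ (-((m : ℤ) + 2)) = ((denom α u) ^ m)⁻¹ * ((denom α u) ^ 2)⁻¹ := by
    rw [zpow_neg, zpow_add₀ hden, zpow_natCast, mul_inv]
    norm_cast
  rw [e1, e2]
  rw [show ((2 : ℤ) - 1) = 1 by norm_num, zpow_one, zpow_neg]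
  rw [smul_eq_mul]
  have : (denom α u) ^ (2 : ℤ) = (denom α u) ^ 2 := by norm_cast
  rw [this]
  field_simp

theorem natDegree_smul_polyAct_le (m : ℕ) (c : ℂ) (A : Matrix (Fin 2) (Fin 2) ℂ) (P : ℂ[X]) :
    (c • polyAct m A P).natDegree ≤ m :=
  (natDegree_smul_le c _).trans (natDegree_polyAct_le m A P)

variable {N : ℕ} [NeZero N]

theorem det_pos_of_SL (g : SL(2, ℤ)) : 0 < (g : GL (Fin 2) ℝ).det.val := by
  have : (g : GL (Fin 2) ℝ).det = 1 := Matrix.SpecialLinearGroup.det_mapGL g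
  rw [this]
  exact one_pos

/-- Decay of all the integrands occurring in the theory. -/
theorem vertDecay_formPoly_slash (m : ℕ) {k : ℤ} (hk : k = (m : ℤ) + 2)
    (f : CuspForm (Gamma0 N) k) {β α : GL (Fin 2) ℝ} (hβ : β ∈ ratSubgroup) (hα : α ∈ ratSubgroup)
    (hαdet : 0 < α.det.val) (P : ℂ[X]) (hP : P.natDegree ≤ m) :
    VertDecay (((formPoly (⇑f ∣[k] β) P) ∣[(2 : ℤ)] α) ∘ ofComplex) := by
  rw [formPoly_slash m hk _ P hP hαdet, ← SlashAction.slash_mul]
  refine (vertDecay_polynomial_mul_slash_of_mem f (mul_mem hβ hα)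
    ((((α.det.val : ℝ) : ℂ) ^ m)⁻¹ • polyAct m (cmat α) P)).congr (fun w hw => ?_)
  rw [Function.comp_apply, formPoly_apply, Function.comp_apply, ofComplex_apply_of_im_pos hw]
  rw [mul_comm]

theorem vertDecay_formPoly_slash_one (m : ℕ) {k : ℤ} (hk : k = (m : ℤ) + 2)
    (f : CuspForm (Gamma0 N) k) {α : GL (Fin 2) ℝ} (hα : α ∈ ratSubgroup)
    (hαdet : 0 < α.det.val) (P : ℂ[X]) (hP : P.natDegree ≤ m) :
    VertDecay (((formPoly (⇑f) P) ∣[(2 : ℤ)] α) ∘ ofComplex) := by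
  have := vertDecay_formPoly_slash m hk f (one_mem ratSubgroup) hα hαdet P hP
  rwa [SlashAction.slash_one] at this

/-- The period `∫_{g∞}^{h∞} F(w) P(w) dw`. -/
noncomputable def period (F : ℍ → ℂ) (P : ℂ[X]) (g h : SL(2, ℤ)) : ℂ :=
  cuspPrim (formPoly F P) (g : GL (Fin 2) ℝ) UpperHalfPlane.I -
    cuspPrim (formPoly F P) (h : GL (Fin 2) ℝ) UpperHalfPlane.I

theorem period_chasles (F : ℍ → ℂ) (P : ℂ[X]) (a b c : SL(2, ℤ)) :
    period F P a b + period F P b c = period F P a c := by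
  unfold period
  ring

theorem period_self (F : ℍ → ℂ) (P : ℂ[X]) (a : SL(2, ℤ)) : period F P a a = 0 := by
  unfold period
  ring

/-- Base point independence of the period. -/
theorem period_eq_base (m : ℕ) {k : ℤ} (hk : k = (m : ℤ) + 2) (f : CuspForm (Gamma0 N) k)
    {β : GL (Fin 2) ℝ} (hβ : β ∈ ratSubgroup) (P : ℂ[X]) (hP : P.natDegree ≤ m) (g h : SL(2, ℤ))
    (z : ℍ) :
    period (⇑f ∣[k] β) P g h = cuspPrim (formPoly (⇑f ∣[k] β) P) (g : GL (Fin 2) ℝ) z -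
      cuspPrim (formPoly (⇑f ∣[k] β) P) (h : GL (Fin 2) ℝ) z :=
  cuspPrim_sub_cuspPrim_const _ (det_pos_of_SL g) (det_pos_of_SL h)
    (vertDecay_formPoly_slash m hk f hβ (coe_SL_mem_ratSubgroup g) (det_pos_of_SL g) P hP)
    (vertDecay_formPoly_slash m hk f hβ (coe_SL_mem_ratSubgroup h) (det_pos_of_SL h) P hP) _ _

/-- `T`-invariance: the period only depends on the cusps. -/
theorem period_mul_T_left (F : ℍ → ℂ) (P : ℂ[X]) (g h : SL(2, ℤ)) :
    period F P (g * ModularGroup.T) h = period F P g h := by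
  unfold period
  have : ((g * ModularGroup.T : SL(2, ℤ)) : GL (Fin 2) ℝ) =
      (g : GL (Fin 2) ℝ) * (Matrix.SpecialLinearGroup.mapGL ℝ ModularGroup.T : GL (Fin 2) ℝ) :=
    map_mul (Matrix.SpecialLinearGroup.mapGL ℝ) g ModularGroup.T
  rw [this, cuspPrim_mul_T]

theorem period_mul_T_right (F : ℍ → ℂ) (P : ℂ[X]) (g h : SL(2, ℤ)) :
    period F P g (h * ModularGroup.T) = period F P g h := by
  unfold period
  have : ((h * ModularGroup.T : SL(2, ℤ)) : GL (Fin 2) ℝ) =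
      (h : GL (Fin 2) ℝ) * (Matrix.SpecialLinearGroup.mapGL ℝ ModularGroup.T : GL (Fin 2) ℝ) :=
    map_mul (Matrix.SpecialLinearGroup.mapGL ℝ) h ModularGroup.T
  rw [this, cuspPrim_mul_T]

theorem period_mul_T_self (F : ℍ → ℂ) (P : ℂ[X]) (g : SL(2, ℤ)) :
    period F P g (g * ModularGroup.T) = 0 := by
  rw [period_mul_T_right, period_self]

end Fermat.Agent.S22
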