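import Mathlib
import Fermat.Agent.S22.Periods
import Fermat.Agent.S22.Hermite

set_option autoImplicit false

namespace Fermat.Agent.S22

open Complex UpperHalfPlane ModularForm CongruenceSubgroup Polynomial
open scoped MatrixGroups

/-- weight `k` slash by an upper triangular matrix with positive diagonal. -/
theorem slash_upperTriangularGL (k : ℤ) (F : ℍ → ℂ) {a b d : ℝ} (ha : 0 < a) (hd : 0 < d)
    (had : a * d ≠ 0) (u : ℍ) :
    (F ∣[k] upperTriangularGL a b d had) u =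
      ((a * d : ℝ) : ℂ) ^ (k - 1) * (d : ℂ) ^ (-k) * F (upperTriangularGL a b d had • u) := by
  have hdet : ((upperTriangularGL a b d had).det : ℝ) = a * d := by
    rw [Matrix.GeneralLinearGroup.val_det_apply, val_upperTriangularGL, Matrix.det_fin_two_of]
    ring
  have hpos : 0 < ((upperTriangularGL a b d had).det : ℝ) := by rw [hdet]; exact mul_pos ha hd
  have hσ : UpperHalfPlane.σ (upperTriangularGL a b d had) = .refl ℝ ℂ := by
    rw [UpperHalfPlane.σ, if_pos hpos]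
  have hden : denom (upperTriangularGL a b d had) u = d := by
    simp [denom, val_upperTriangularGL]
  rw [ModularForm.slash_apply, hσ, hdet, hden, abs_of_pos (mul_pos ha hd)]
  simp only [ContinuousAlgEquiv.refl_apply]
  ring

/-- The adjugate of `[a b; 0 d]` as a complex matrix. -/
noncomputable def adjUT (a b d : ℝ) : Matrix (Fin 2) (Fin 2) ℂ := !![(d : ℂ), -(b : ℂ); 0, (a : ℂ)]

/-- The Hecke twist: `(f · P‖adj δ) ∣[2] δ = (f ∣[k] δ) · P` for `δ = [a b; 0 d]`, `k = m + 2`. -/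
theorem formPoly_slash_upperTriangularGL (m : ℕ) {k : ℤ} (hk : k = (m : ℤ) + 2) (F : ℍ → ℂ)
    {a b d : ℝ} (ha : 0 < a) (hd : 0 < d) (had : a * d ≠ 0) (P : ℂ[X]) (hP : P.natDegree ≤ m) :
    (formPoly F (polyAct m (adjUT a b d) P)) ∣[(2 : ℤ)] upperTriangularGL a b d had =
      formPoly (F ∣[k] upperTriangularGL a b d had) P := by
  subst hk
  ext u
  have ha' : (a : ℂ) ≠ 0 := by exact_mod_cast ha.ne'
  have hd' : (d : ℂ) ≠ 0 := by exact_mod_cast hd.ne'
  rw [slash_two_upperTriangularGL _ ha hd had, formPoly_apply, formPoly_apply,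
    slash_upperTriangularGL _ _ ha hd had]
  have hev := eval_polyAct m (adjUT a b d) P hP
    ((upperTriangularGL a b d had • u : ℍ) : ℂ) (by simpa [adjUT] using ha')
  rw [hev, coe_upperTriangularGL_smul ha hd had]
  have harg : ((adjUT a b d 0 0 *
      (((a / d : ℝ) : ℂ) * (u : ℂ) + ((b / d : ℝ) : ℂ)) + adjUT a b d 0 1) /
      (adjUT a b d 1 0 *
      (((a / d : ℝ) : ℂ) * (u : ℂ) + ((b / d : ℝ) : ℂ)) + adjUT a b d 1 1))
      = (u : ℂ) := by
    simp only [adjUT, Matrix.of_apply, Matrix.cons_val', Matrix.cons_val_zero,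
      Matrix.cons_val_fin_one, Matrix.cons_val_one, zero_mul, zero_add]
    push_cast
    field_simp
    ring
  rw [harg]
  simp only [adjUT, Matrix.of_apply, Matrix.cons_val', Matrix.cons_val_zero,
    Matrix.cons_val_fin_one, Matrix.cons_val_one, zero_mul, zero_add]
  have hk : ((m : ℤ) + 2 - 1) = (m : ℤ) + 1 := by ring
  rw [hk, zpow_neg, zpow_add₀ hd', zpow_add₀ (by push_cast; exact mul_ne_zero ha' hd')]
  push_cast
  simp only [zpow_natCast, zpow_ofNat]
  field_simp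
  ring

/-- The Hecke step for `cuspPrim`: with `δ = [a b; 0 d]` and `δ g = g' U'` (Hermite form),
`∫_{g∞}^z (F∣[k]δ) P = ∫_{g'∞}^{δ z} F · (P‖adj δ)`. -/
theorem cuspPrim_hecke_step (m : ℕ) {k : ℤ} (hk : k = (m : ℤ) + 2) (F : ℍ → ℂ) {a b d : ℝ}
    (ha : 0 < a) (hd : 0 < d) (had : a * d ≠ 0) (P : ℂ[X]) (hP : P.natDegree ≤ m)
    (g g' : GL (Fin 2) ℝ) {a' b' d' : ℝ} (ha' : 0 < a') (hd' : 0 < d') (had' : a' * d' ≠ 0)
    (hH : upperTriangularGL a b d had * g = g' * upperTriangularGL a' b' d' had') (z : ℍ) :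
    cuspPrim (formPoly (F ∣[k] upperTriangularGL a b d had) P) g z =
      cuspPrim (formPoly F (polyAct m (adjUT a b d) P)) g' (upperTriangularGL a b d had • z) := by
  rw [← formPoly_slash_upperTriangularGL m hk F ha hd had P hP, cuspPrim_slash, hH,
    cuspPrim_mul_upperTriangularGL _ _ ha' hd']

variable {N : ℕ} [NeZero N]

theorem natDegree_polyAct_adjUT_le (m : ℕ) (a b d : ℝ) (P : ℂ[X]) :
    (polyAct m (adjUT a b d) P).natDegree ≤ m := natDegree_polyAct_le m _ P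

/-- The Hecke step for periods. -/
theorem period_slash_upperTriangularGL (m : ℕ) {k : ℤ} (hk : k = (m : ℤ) + 2)
    (f : CuspForm (Gamma0 N) k) {a b d : ℝ} (ha : 0 < a) (hd : 0 < d) (had : a * d ≠ 0)
    (hδ : upperTriangularGL a b d had ∈ ratSubgroup) (P : ℂ[X]) (hP : P.natDegree ≤ m)
    (g h g' h' : SL(2, ℤ))
    {a₁ b₁ d₁ : ℝ} (ha₁ : 0 < a₁) (hd₁ : 0 < d₁) (had₁ : a₁ * d₁ ≠ 0)
    (hg : upperTriangularGL a b d had * (g : GL (Fin 2) ℝ) =
      (g' : GL (Fin 2) ℝ) * upperTriangularGL a₁ b₁ d₁ had₁)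
    {a₂ b₂ d₂ : ℝ} (ha₂ : 0 < a₂) (hd₂ : 0 < d₂) (had₂ : a₂ * d₂ ≠ 0)
    (hh : upperTriangularGL a b d had * (h : GL (Fin 2) ℝ) =
      (h' : GL (Fin 2) ℝ) * upperTriangularGL a₂ b₂ d₂ had₂) :
    period (⇑f ∣[k] upperTriangularGL a b d had) P g h =
      period (⇑f) (polyAct m (adjUT a b d) P) g' h' := by
  rw [period_eq_base m hk f hδ P hP g h UpperHalfPlane.I]
  rw [cuspPrim_hecke_step m hk (⇑f) ha hd had P hP _ _ ha₁ hd₁ had₁ hg,
    cuspPrim_hecke_step m hk (⇑f) ha hd had P hP _ _ ha₂ hd₂ had₂ hh]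
  have h1 := period_eq_base m hk f (one_mem ratSubgroup) (polyAct m (adjUT a b d) P)
    (natDegree_polyAct_adjUT_le m a b d P) g' h' (upperTriangularGL a b d had • UpperHalfPlane.I)
  rw [SlashAction.slash_one] at h1
  exact h1.symm

end Fermat.Agent.S22
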