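import Mathlib

set_option autoImplicit false

/-!
# S22, package (D): separation of cusp forms by periods (abstract form)

If the "Eichler integral" `φ(z) = E 1 ((X - z)^m) z` built from a family of primitives
`E g P` (`E g P z = ∫_z^{i∞} (f∣g) P`) is covariant under `SL(2,ℤ)` (this encodes the vanishing of
all periods of `f`), then `φ` is a modular form of weight `-m`, hence zero, hence `f = 0`.
-/

namespace Fermat.Agent.S22

open UpperHalfPlane Polynomial ModularForm CongruenceSubgroup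
open scoped MatrixGroups Manifold

theorem moebius_sub_aux (a b c d u z : ℂ) (hdet : a * d - b * c = 1) (hu : c * u + d ≠ 0)
    (hz : c * z + d ≠ 0) :
    (a * u + b) / (c * u + d) - (a * z + b) / (c * z + d) = (u - z) / ((c * u + d) * (c * z + d)) := by
  rw [div_sub_div _ _ hu hz, div_left_inj' (mul_ne_zero hu hz)]
  linear_combination (u - z) * hdet

/-- the key Möbius identity -/
theorem smul_sub_smul (g : SL(2, ℤ)) (u z : ℍ) :
    ((g • u : ℍ) : ℂ) - ((g • z : ℍ) : ℂ) = ((u : ℂ) - z) / (denom g u * denom g z) := by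
  have hu : denom g u ≠ 0 := denom_ne_zero g u
  have hz : denom g z ≠ 0 := denom_ne_zero g z
  have hdet : ((g 0 0 : ℤ) : ℂ) * (g 1 1 : ℤ) - (g 0 1 : ℤ) * (g 1 0 : ℤ) = 1 := by
    have := g.det_coe
    rw [Matrix.det_fin_two] at this
    exact_mod_cast this
  rw [UpperHalfPlane.coe_specialLinearGroup_apply, UpperHalfPlane.coe_specialLinearGroup_apply]
  rw [ModularGroup.denom_apply, ModularGroup.denom_apply] at *
  simp only [algebraMap_int_eq, eq_intCast, Complex.ofReal_intCast] at *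
  exact moebius_sub_aux _ _ _ _ _ _ hdet hu hz

section descent

variable (L : ℂ[X] →ₗ[ℂ] (ℍ → ℂ)) (f : ℍ → ℂ)

theorem shift_identity (r s : ℕ) (w : ℂ) (τ : ℍ) :
    L (X ^ s * (X - C w) ^ (r + 1)) τ =
      L (X ^ (s + 1) * (X - C w) ^ r) τ - w * L (X ^ s * (X - C w) ^ r) τ := by
  have : (X : ℂ[X]) ^ s * (X - C w) ^ (r + 1) =
      X ^ (s + 1) * (X - C w) ^ r - w • (X ^ s * (X - C w) ^ r) := by
    rw [smul_eq_C_mul]
    ring
  rw [this, map_sub, map_smul]
  simp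

theorem hasDerivAt_shift_zero
    (hderiv : ∀ (P : ℂ[X]) (z : ℍ),
      HasDerivAt (fun w : ℂ => L P (ofComplex w)) (-(f z * P.eval (z : ℂ))) z)
    (s : ℕ) (z : ℍ) :
    HasDerivAt (fun w : ℂ => L (X ^ s * (X - C w) ^ 0) (ofComplex w)) (-(f z * (z : ℂ) ^ s)) z := by
  have := hderiv (X ^ s) z
  simpa using this

theorem hasDerivAt_shift_succ
    (hderiv : ∀ (P : ℂ[X]) (z : ℍ),
      HasDerivAt (fun w : ℂ => L P (ofComplex w)) (-(f z * P.eval (z : ℂ))) z)
    (r s : ℕ) (z : ℍ) :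
    HasDerivAt (fun w : ℂ => L (X ^ s * (X - C w) ^ (r + 1)) (ofComplex w))
      (-((r : ℂ) + 1) * L (X ^ s * (X - C (z : ℂ)) ^ r) z) z := by
  induction r generalizing s with
  | zero =>
    have h1 := hasDerivAt_shift_zero L f hderiv (s + 1) z
    have h0 := hasDerivAt_shift_zero L f hderiv s z
    have hid : HasDerivAt (fun w : ℂ => w) 1 (z : ℂ) := hasDerivAt_id _
    have := h1.sub (hid.mul h0)
    refine (this.congr_deriv ?_).congr_of_eventuallyEq ?_
    · simp only [pow_zero, mul_one, ofComplex_apply]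
      generalize L (X ^ s) z = A
      push_cast
      ring
    · filter_upwards with w
      rw [shift_identity]
      rfl
  | succ r ih =>
    have h1 := ih (s + 1)
    have h0 := ih s
    have hid : HasDerivAt (fun w : ℂ => w) 1 (z : ℂ) := hasDerivAt_id _
    have := h1.sub (hid.mul h0)
    refine (this.congr_deriv ?_).congr_of_eventuallyEq ?_
    · have hB := shift_identity L r s (z : ℂ) z
      simp only [ofComplex_apply]
      rw [hB]
      generalize L (X ^ (s + 1) * (X - C (z : ℂ)) ^ r) z = A1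
      generalize L (X ^ s * (X - C (z : ℂ)) ^ r) z = A0
      push_cast
      ring
    · filter_upwards with w
      rw [shift_identity]
      rfl

/-- Descent: if `φ_{r+1}` vanishes identically then so does `φ_r`. -/
theorem descent_step
    (hderiv : ∀ (P : ℂ[X]) (z : ℍ),
      HasDerivAt (fun w : ℂ => L P (ofComplex w)) (-(f z * P.eval (z : ℂ))) z)
    (r : ℕ) (h : ∀ z : ℍ, L ((X - C (z : ℂ)) ^ (r + 1)) z = 0) (z : ℍ) :
    L ((X - C (z : ℂ)) ^ r) z = 0 := by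
  have h1 := hasDerivAt_shift_succ L f hderiv r 0 z
  simp only [pow_zero, one_mul] at h1
  have h2 : HasDerivAt (fun w : ℂ => L ((X - C w) ^ (r + 1)) (ofComplex w)) 0 z := by
    refine (hasDerivAt_const (z : ℂ) (0 : ℂ)).congr_of_eventuallyEq ?_
    filter_upwards [isOpen_upperHalfPlaneSet.mem_nhds z.im_pos] with w hw
    have := h ⟨w, hw⟩
    rw [ofComplex_apply_of_im_pos hw]
    exact this
  have h3 := h1.unique h2
  have hr : -((r : ℂ) + 1) ≠ 0 := by
    rw [neg_ne_zero]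
    exact_mod_cast Nat.succ_ne_zero r
  exact (mul_eq_zero.mp h3).resolve_left hr

theorem eq_zero_of_descent
    (hderiv : ∀ (P : ℂ[X]) (z : ℍ),
      HasDerivAt (fun w : ℂ => L P (ofComplex w)) (-(f z * P.eval (z : ℂ))) z)
    (m : ℕ) (h : ∀ z : ℍ, L ((X - C (z : ℂ)) ^ m) z = 0) (z : ℍ) : f z = 0 := by
  induction m with
  | zero =>
    have h1 := hasDerivAt_shift_zero L f hderiv 0 z
    simp only [pow_zero, mul_one] at h1
    have h2 : HasDerivAt (fun w : ℂ => L (1 : ℂ[X]) (ofComplex w)) 0 z := by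
      refine (hasDerivAt_const (z : ℂ) (0 : ℂ)).congr_of_eventuallyEq ?_
      filter_upwards with w
      simpa using h (ofComplex w)
    have h3 := h1.unique h2
    simpa using h3
  | succ m ih =>
    exact ih (descent_step L f hderiv m h)

end descent

section eichler

variable (m : ℕ) (E : SL(2, ℤ) → ℂ[X] →ₗ[ℂ] (ℍ → ℂ))

/-- The covariance of the Eichler integral. -/
theorem eichler_cov
    (hcov : ∀ (g : SL(2, ℤ)) (P Q : ℂ[X]), P.natDegree ≤ m → Q.natDegree ≤ m →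
      (∀ u : ℍ, Q.eval (u : ℂ) = denom g u ^ m * P.eval ((g • u : ℍ) : ℂ)) →
      ∀ z : ℍ, E 1 P (g • z) = E g Q z)
    (g : SL(2, ℤ)) (z : ℍ) :
    E 1 ((X - C ((g • z : ℍ) : ℂ)) ^ m) (g • z) * denom g z ^ m = E g ((X - C (z : ℂ)) ^ m) z := by
  have hz : denom g z ≠ 0 := denom_ne_zero g z
  have hdeg : ∀ a : ℂ, ((X - C a) ^ m : ℂ[X]).natDegree ≤ m := fun a => by
    rw [natDegree_pow, natDegree_X_sub_C, mul_one]
  have key := hcov g ((X - C ((g • z : ℍ) : ℂ)) ^ m) ((denom g z ^ m)⁻¹ • (X - C (z : ℂ)) ^ m)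
    (hdeg _) ((natDegree_smul_le _ _).trans (hdeg _)) ?_ z
  · rw [key, map_smul, Pi.smul_apply, smul_eq_mul]
    field_simp
  · intro u
    have hu : denom g u ≠ 0 := denom_ne_zero g u
    simp only [eval_smul, eval_pow, eval_sub, eval_X, eval_C, smul_eq_mul]
    rw [smul_sub_smul, div_pow, mul_pow]
    field_simp

theorem eichler_slash_apply
    (hcov : ∀ (g : SL(2, ℤ)) (P Q : ℂ[X]), P.natDegree ≤ m → Q.natDegree ≤ m →
      (∀ u : ℍ, Q.eval (u : ℂ) = denom g u ^ m * P.eval ((g • u : ℍ) : ℂ)) →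
      ∀ z : ℍ, E 1 P (g • z) = E g Q z)
    (k' : ℤ) (hk' : k' = -(m : ℤ)) (g : SL(2, ℤ)) :
    (fun z : ℍ => E 1 ((X - C (z : ℂ)) ^ m) z) ∣[k'] g =
      fun z : ℍ => E g ((X - C (z : ℂ)) ^ m) z := by
  ext z
  rw [SL_slash_apply, hk', neg_neg, zpow_natCast]
  exact eichler_cov m E hcov g z

theorem eichler_mdiff (f : ℍ → ℂ)
    (hderiv : ∀ (P : ℂ[X]) (z : ℍ),
      HasDerivAt (fun w : ℂ => E 1 P (ofComplex w)) (-(f z * P.eval (z : ℂ))) z) :
    MDiff (fun z : ℍ => E 1 ((X - C (z : ℂ)) ^ m) z) := by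
  intro τ
  rw [mdifferentiableAt_iff]
  have h : DifferentiableAt ℂ (fun w : ℂ => E 1 ((X - C w) ^ m) (ofComplex w)) τ := by
    rcases m with _ | m
    · have := (hasDerivAt_shift_zero (E 1) f hderiv 0 τ).differentiableAt
      simpa using this
    · have := (hasDerivAt_shift_succ (E 1) f hderiv m 0 τ).differentiableAt
      simpa using this
  refine h.congr_of_eventuallyEq ?_
  filter_upwards [isOpen_upperHalfPlaneSet.mem_nhds τ.im_pos] with w hw
  simp only [Function.comp_apply]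
  rw [ofComplex_apply_of_im_pos hw]

theorem exists_eichler_modularForm (N : ℕ) [NeZero N] (f : ℍ → ℂ)
    (hderiv : ∀ (P : ℂ[X]) (z : ℍ),
      HasDerivAt (fun w : ℂ => E 1 P (ofComplex w)) (-(f z * P.eval (z : ℂ))) z)
    (hzero : ∀ g : SL(2, ℤ), IsZeroAtImInfty (fun z : ℍ => E g ((X - C (z : ℂ)) ^ m) z))
    (hcov : ∀ (g : SL(2, ℤ)) (P Q : ℂ[X]), P.natDegree ≤ m → Q.natDegree ≤ m →
      (∀ u : ℍ, Q.eval (u : ℂ) = denom g u ^ m * P.eval ((g • u : ℍ) : ℂ)) →
      ∀ z : ℍ, E 1 P (g • z) = E g Q z)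
    (hΓ : ∀ g ∈ Gamma0 N, E g = E 1) (k' : ℤ) (hk' : k' = -(m : ℤ)) :
    ∃ F : ModularForm (Gamma0 N) k', ∀ z : ℍ, F z = E 1 ((X - C (z : ℂ)) ^ m) z := by
  refine ⟨{ toFun := fun z : ℍ => E 1 ((X - C (z : ℂ)) ^ m) z
            slash_action_eq' := ?_
            holo' := eichler_mdiff m E f hderiv
            bdd_at_cusps' := ?_ }, fun z => rfl⟩
  · rintro γ ⟨g, hg, rfl⟩
    change (fun z : ℍ => E 1 ((X - C (z : ℂ)) ^ m) z) ∣[k'] g = _
    rw [eichler_slash_apply m E hcov k' hk' g, hΓ g hg]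
  · intro c hc
    rw [Subgroup.IsArithmetic.isCusp_iff_isCusp_SL2Z] at hc
    rw [OnePoint.isBoundedAt_iff_exists_SL2Z hc]
    obtain ⟨g, rfl⟩ := isCusp_SL2Z_iff'.mp hc
    refine ⟨g, rfl, ?_⟩
    rw [eichler_slash_apply m E hcov k' hk' g]
    exact (hzero g).isBoundedAtImInfty

theorem eichler_vanishes (N : ℕ) [NeZero N] (f : ℍ → ℂ)
    (hderiv : ∀ (P : ℂ[X]) (z : ℍ),
      HasDerivAt (fun w : ℂ => E 1 P (ofComplex w)) (-(f z * P.eval (z : ℂ))) z)
    (hzero : ∀ g : SL(2, ℤ), IsZeroAtImInfty (fun z : ℍ => E g ((X - C (z : ℂ)) ^ m) z))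
    (hcov : ∀ (g : SL(2, ℤ)) (P Q : ℂ[X]), P.natDegree ≤ m → Q.natDegree ≤ m →
      (∀ u : ℍ, Q.eval (u : ℂ) = denom g u ^ m * P.eval ((g • u : ℍ) : ℂ)) →
      ∀ z : ℍ, E 1 P (g • z) = E g Q z)
    (hΓ : ∀ g ∈ Gamma0 N, E g = E 1) (z : ℍ) :
    E 1 ((X - C (z : ℂ)) ^ m) z = 0 := by
  rcases Nat.eq_zero_or_pos m with rfl | hm
  · obtain ⟨F, hF⟩ := exists_eichler_modularForm 0 E N f hderiv hzero hcov hΓ 0 (by simp)
    obtain ⟨c, hc⟩ := ModularForm.eq_const_of_weight_zero F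
    have h1 : Filter.Tendsto (fun z : ℍ => E 1 ((X - C (z : ℂ)) ^ 0) z) atImInfty (nhds 0) :=
      hzero 1
    have h2 : (fun z : ℍ => E 1 ((X - C (z : ℂ)) ^ 0) z) = fun _ => c := by
      ext z
      rw [← hF z, hc]
      rfl
    rw [h2] at h1
    have hc0 : c = 0 := tendsto_nhds_unique tendsto_const_nhds h1
    rw [← hF z, hc, hc0]
    rfl
  · obtain ⟨F, hF⟩ := exists_eichler_modularForm m E N f hderiv hzero hcov hΓ (-(m : ℤ)) rfl
    have hneg : -(m : ℤ) < 0 := by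
      rw [neg_lt_zero]
      exact_mod_cast hm
    have := ModularForm.isZero_of_neg_weight hneg F
    rw [← hF z, this]
    rfl

/-- **Package (D), abstract form.** -/
theorem eq_zero_of_eichler_data (N : ℕ) [NeZero N] (f : ℍ → ℂ)
    (hderiv : ∀ (P : ℂ[X]) (z : ℍ),
      HasDerivAt (fun w : ℂ => E 1 P (ofComplex w)) (-(f z * P.eval (z : ℂ))) z)
    (hzero : ∀ g : SL(2, ℤ), IsZeroAtImInfty (fun z : ℍ => E g ((X - C (z : ℂ)) ^ m) z))
    (hcov : ∀ (g : SL(2, ℤ)) (P Q : ℂ[X]), P.natDegree ≤ m → Q.natDegree ≤ m →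
      (∀ u : ℍ, Q.eval (u : ℂ) = denom g u ^ m * P.eval ((g • u : ℍ) : ℂ)) →
      ∀ z : ℍ, E 1 P (g • z) = E g Q z)
    (hΓ : ∀ g ∈ Gamma0 N, E g = E 1) (z : ℍ) : f z = 0 :=
  eq_zero_of_descent (E 1) f hderiv m (eichler_vanishes m E N f hderiv hzero hcov hΓ) z

end eichler

end Fermat.Agent.S22
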