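import Mathlib
import Fermat.Agent.S22.VertInt
import Fermat.Agent.S22.Decay
import Fermat.Agent.S22.D_helper9_Eichler

/-!
# S22, package (D): the concrete Eichler integrals `eichE f g P z = ∫_z^{i∞} (f|g) P`

Glue between the vertical ray integrals (A), the decay lemma (B1) and the abstract theorem
`eq_zero_of_eichler_data`.
-/

set_option autoImplicit false
set_option linter.unusedSectionVars false

namespace Fermat.Agent.S22

open Complex UpperHalfPlane ModularForm CongruenceSubgroup Polynomial MeasureTheory Set Filter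
open scoped MatrixGroups Topology

variable {N : ℕ} [NeZero N] {k : ℤ}

/-- The integrand `P(w) (f|g)(w)`. -/
noncomputable def eichIntegrand (f : CuspForm (Gamma0 N) k) (g : SL(2, ℤ)) (P : ℂ[X]) : ℂ → ℂ :=
  fun w => P.eval w * ((⇑f ∣[k] (g : GL (Fin 2) ℝ)) ∘ ofComplex) w

theorem vertDecay_eichIntegrand (f : CuspForm (Gamma0 N) k) (g : SL(2, ℤ)) (P : ℂ[X]) :
    VertDecay (eichIntegrand f g P) :=
  vertDecay_polynomial_mul_slash_of_mem f (coe_SL_mem_ratSubgroup g) P

/-- `E g P z = ∫_z^{i∞} (f|g)(w) P(w) dw`, linear in `P`. -/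
noncomputable def eichE (f : CuspForm (Gamma0 N) k) (g : SL(2, ℤ)) : ℂ[X] →ₗ[ℂ] (ℍ → ℂ) where
  toFun P z := vertInt (eichIntegrand f g P) z
  map_add' P Q := by
    ext z
    have h : eichIntegrand f g (P + Q) = eichIntegrand f g P + eichIntegrand f g Q := by
      ext w
      simp [eichIntegrand, add_mul]
    rw [h, (vertDecay_eichIntegrand f g P).vertInt_add (vertDecay_eichIntegrand f g Q) z.im_pos]
    rfl
  map_smul' c P := by
    ext z
    have h : eichIntegrand f g (c • P) = c • eichIntegrand f g P := by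
      ext w
      simp [eichIntegrand, mul_assoc]
    rw [h, vertInt_smul]
    rfl

theorem eichE_apply (f : CuspForm (Gamma0 N) k) (g : SL(2, ℤ)) (P : ℂ[X]) (z : ℍ) :
    eichE f g P z = vertInt (eichIntegrand f g P) z := rfl

theorem eichE_hderiv (f : CuspForm (Gamma0 N) k) (P : ℂ[X]) (z : ℍ) :
    HasDerivAt (fun w : ℂ => eichE f 1 P (ofComplex w)) (-(f z * P.eval (z : ℂ))) z := by
  have h1 := (vertDecay_eichIntegrand f 1 P).hasDerivAt_vertInt z.im_pos
  have hval : eichIntegrand f 1 P (z : ℂ) = f z * P.eval (z : ℂ) := by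
    simp [eichIntegrand, mul_comm]
  rw [hval] at h1
  refine h1.congr_of_eventuallyEq ?_
  filter_upwards [isOpen_upperHalfPlaneSet.mem_nhds z.im_pos] with w hw
  rw [eichE_apply, ofComplex_apply_of_im_pos hw]

theorem eichE_of_mem_Gamma0 (f : CuspForm (Gamma0 N) k) (g : SL(2, ℤ)) (hg : g ∈ Gamma0 N) :
    eichE f g = eichE f 1 := by
  have hmem : (g : GL (Fin 2) ℝ) ∈ ((Gamma0 N : Subgroup SL(2, ℤ)) : Subgroup (GL (Fin 2) ℝ)) :=
    ⟨g, hg, rfl⟩
  have h : ⇑f ∣[k] (g : GL (Fin 2) ℝ) = ⇑f ∣[k] ((1 : SL(2, ℤ)) : GL (Fin 2) ℝ) := by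
    rw [SlashInvariantFormClass.slash_action_eq f _ hmem,
      show ((1 : SL(2, ℤ)) : GL (Fin 2) ℝ) = 1 from map_one (Matrix.SpecialLinearGroup.mapGL ℝ),
      SlashAction.slash_one]
  refine LinearMap.ext fun P => funext fun z => ?_
  rw [eichE_apply, eichE_apply]
  unfold eichIntegrand
  rw [h]

/-- `t^m e^{-ct}` is eventually at most `1`. -/
theorem exists_pow_mul_exp_le_one (m : ℕ) {c : ℝ} (hc : 0 < c) :
    ∃ A : ℝ, ∀ t : ℝ, A ≤ t → t ^ m * Real.exp (-c * t) ≤ 1 := by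
  have h := (Real.tendsto_pow_mul_exp_neg_atTop_nhds_zero m).const_mul ((1 / c) ^ m)
  have h2 : Tendsto (fun t : ℝ => c * t) atTop atTop := tendsto_id.const_mul_atTop hc
  have h3 := h.comp h2
  rw [mul_zero] at h3
  have h4 := h3.eventually (eventually_le_nhds (show (0 : ℝ) < 1 from one_pos))
  obtain ⟨A, hA⟩ := eventually_atTop.mp h4
  refine ⟨A, fun t ht => ?_⟩
  have := hA t ht
  simp only [Function.comp_apply] at this
  have hc' : c ≠ 0 := hc.ne'
  calc t ^ m * Real.exp (-c * t) = (1 / c) ^ m * ((c * t) ^ m * Real.exp (-(c * t))) := by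
        rw [mul_pow, neg_mul, one_div, inv_pow]
        have : c ^ m ≠ 0 := pow_ne_zero _ hc'
        field_simp
    _ ≤ 1 := this

/-- A vertical integral whose integrand is bounded by `(t - y)^m C e^{-ct}` tends to zero. -/
theorem norm_vertInt_shift_le (m : ℕ) {C c : ℝ} (hc : 0 < c) :
    ∃ A' K : ℝ, ∀ (G : ℂ → ℂ) (z : ℂ), A' ≤ z.im →
      (∀ t : ℝ, z.im < t → ‖G (z.re + t * Complex.I)‖ ≤ t ^ m * (C * Real.exp (-c * t))) →
      ‖vertInt G z‖ ≤ K * Real.exp (-(c / 2) * z.im) := by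
  obtain ⟨A₁, hA₁⟩ := exists_pow_mul_exp_le_one m (half_pos hc)
  refine ⟨max A₁ 0, |C| / (c / 2), fun G z hz hG => ?_⟩
  have hz1 : A₁ ≤ z.im := (le_max_left _ _).trans hz
  have hint : IntegrableOn (fun t : ℝ => |C| * Real.exp (-(c / 2) * t)) (Ioi z.im) :=
    (exp_neg_integrableOn_Ioi z.im (half_pos hc)).const_mul |C|
  refine (norm_vertInt_le_of_le G z hint (fun t ht => ?_)).trans (le_of_eq ?_)
  · refine (hG t ht).trans ?_
    have h1 := hA₁ t (hz1.trans ht.le)
    have ht0 : 0 ≤ t := (le_max_right A₁ 0).trans (hz.trans ht.le)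
    have hsplit : Real.exp (-c * t) = Real.exp (-(c / 2) * t) * Real.exp (-(c / 2) * t) := by
      rw [← Real.exp_add]
      congr 1
      ring
    calc t ^ m * (C * Real.exp (-c * t)) ≤ t ^ m * (|C| * Real.exp (-c * t)) := by
          gcongr
          exact le_abs_self C
      _ = |C| * Real.exp (-(c / 2) * t) * (t ^ m * Real.exp (-(c / 2) * t)) := by
          rw [hsplit]; ring
      _ ≤ |C| * Real.exp (-(c / 2) * t) * 1 := by
          gcongr
      _ = |C| * Real.exp (-(c / 2) * t) := mul_one _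
  · rw [integral_const_mul, integral_exp_mul_Ioi (neg_lt_zero.mpr (half_pos hc))]
    field_simp

theorem eichIntegrand_shift_bound (f : CuspForm (Gamma0 N) k) (m : ℕ) (g : SL(2, ℤ))
    {C₀ c A : ℝ} (h : ∀ τ : ℍ, A ≤ τ.im →
      ‖(⇑f ∣[k] (g : GL (Fin 2) ℝ)) τ‖ ≤ C₀ * Real.exp (-c * τ.im))
    (z : ℍ) (hzA : A ≤ z.im) (t : ℝ) (ht : z.im < t) :
    ‖eichIntegrand f g ((X - C (z : ℂ)) ^ m) (((z : ℂ).re : ℂ) + t * Complex.I)‖ ≤
      t ^ m * (C₀ * Real.exp (-c * t)) := by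
  have ht0 : 0 < t := z.im_pos.trans ht
  have him : ((((z : ℂ).re : ℂ) + t * Complex.I)).im = t := by simp
  have hpos : 0 < ((((z : ℂ).re : ℂ) + t * Complex.I)).im := by rw [him]; exact ht0
  unfold eichIntegrand
  rw [Function.comp_apply, ofComplex_apply_of_im_pos hpos, norm_mul]
  have h1 := h ⟨_, hpos⟩ (by
    change A ≤ ((((z : ℂ).re : ℂ) + t * Complex.I)).im
    rw [him]; exact hzA.trans ht.le)
  have h1' : ‖(⇑f ∣[k] (g : GL (Fin 2) ℝ)) ⟨_, hpos⟩‖ ≤ C₀ * Real.exp (-c * t) := by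
    have : (⟨_, hpos⟩ : ℍ).im = t := him
    rw [this] at h1
    exact h1
  have h2 : ‖eval (((z : ℂ).re : ℂ) + t * Complex.I) ((X - C (z : ℂ)) ^ m)‖ ≤ t ^ m := by
    simp only [eval_pow, eval_sub, eval_X, eval_C, norm_pow]
    have : ((z : ℂ).re : ℂ) + t * Complex.I - (z : ℂ) = ((t - z.im : ℝ) : ℂ) * Complex.I := by
      apply Complex.ext <;> simp
    rw [this, norm_mul, Complex.norm_I, mul_one, Complex.norm_real, Real.norm_eq_abs,
      abs_of_pos (sub_pos.mpr ht)]
    exact pow_le_pow_left₀ (sub_pos.mpr ht).le (by linarith [z.im_pos]) m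
  exact mul_le_mul h2 h1' (norm_nonneg _) (by positivity)

theorem eichE_hzero (f : CuspForm (Gamma0 N) k) (m : ℕ) (g : SL(2, ℤ)) :
    IsZeroAtImInfty (fun z : ℍ => eichE f g ((X - C (z : ℂ)) ^ m) z) := by
  obtain ⟨C₀, c, A, hc, hdec⟩ := exists_exp_decay_slash_of_mem f (coe_SL_mem_ratSubgroup g)
  obtain ⟨A', K, hK⟩ := norm_vertInt_shift_le m (C := C₀) hc
  have hbound : ∀ᶠ z : ℍ in atImInfty,
      ‖eichE f g ((X - C (z : ℂ)) ^ m) z‖ ≤ K * Real.exp (-(c / 2) * z.im) := by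
    rw [Filter.Eventually, atImInfty_mem]
    refine ⟨max A A', fun z hz => ?_⟩
    have hzA : A ≤ z.im := (le_max_left _ _).trans hz
    have hzA' : A' ≤ z.im := (le_max_right _ _).trans hz
    rw [Set.mem_ofPred_eq, eichE_apply]
    exact hK _ (z : ℂ) hzA' (fun t ht => eichIntegrand_shift_bound f m g hdec z hzA t ht)
  have hlim : Tendsto (fun z : ℍ => K * Real.exp (-(c / 2) * z.im)) atImInfty (𝓝 0) := by
    have h1 : Tendsto (fun y : ℝ => K * Real.exp (-(c / 2) * y)) atTop (𝓝 (K * 0)) := by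
      refine Tendsto.const_mul K ?_
      refine Real.tendsto_exp_atBot.comp ?_
      exact tendsto_id.const_mul_atTop_of_neg (neg_lt_zero.mpr (half_pos hc))
    rw [mul_zero] at h1
    exact h1.comp tendsto_comap
  exact squeeze_zero_norm' hbound hlim


/-- **Package (D), concrete form**: a cusp form all of whose Eichler integrals are covariant
(i.e. all of whose periods vanish) is zero. -/
theorem eq_zero_of_eichE_cov (m : ℕ) (f : CuspForm (Gamma0 N) k)
    (hcov : ∀ (g : SL(2, ℤ)) (P Q : ℂ[X]), P.natDegree ≤ m → Q.natDegree ≤ m →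
      (∀ u : ℍ, Q.eval (u : ℂ) = denom g u ^ m * P.eval ((g • u : ℍ) : ℂ)) →
      ∀ z : ℍ, eichE f 1 P (g • z) = eichE f g Q z) : f = 0 := by
  ext z
  exact eq_zero_of_eichler_data m (eichE f) N (⇑f) (eichE_hderiv f) (eichE_hzero f m) hcov
    (eichE_of_mem_Gamma0 f) z

end Fermat.Agent.S22
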