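import Mathlib
import Fermat.Agent.S22.Periods
import Fermat.Agent.S22.D_helper9_Glue

/-!
# Periods, part 2: `Γ₀(N)`-invariance, linearity, and separation (vanishing periods ⇒ `f = 0`)
-/

set_option autoImplicit false

namespace Fermat.Agent.S22

open Complex UpperHalfPlane ModularForm CongruenceSubgroup Polynomial
open scoped MatrixGroups

variable {N : ℕ} [NeZero N]

theorem period_eq_base_one (m : ℕ) {k : ℤ} (hk : k = (m : ℤ) + 2) (f : CuspForm (Gamma0 N) k)
    (P : ℂ[X]) (hP : P.natDegree ≤ m) (g h : SL(2, ℤ)) (z : ℍ) :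
    period (⇑f) P g h = cuspPrim (formPoly (⇑f) P) (g : GL (Fin 2) ℝ) z -
      cuspPrim (formPoly (⇑f) P) (h : GL (Fin 2) ℝ) z := by
  have := period_eq_base m hk f (one_mem ratSubgroup) P hP g h z
  rwa [SlashAction.slash_one] at this

theorem cmat_coe_SL (g : SL(2, ℤ)) :
    cmat (g : GL (Fin 2) ℝ) = (g : Matrix (Fin 2) (Fin 2) ℤ).map (Int.cast : ℤ → ℂ) := by
  ext i j
  simp [cmat]

/-- `Γ₀(N)`-invariance of the periods. -/
theorem period_Gamma0 (m : ℕ) {k : ℤ} (hk : k = (m : ℤ) + 2) (f : CuspForm (Gamma0 N) k)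
    (P : ℂ[X]) (hP : P.natDegree ≤ m) (γ : SL(2, ℤ)) (hγ : γ ∈ Gamma0 N) (g h : SL(2, ℤ)) :
    period (⇑f) P (γ * g) (γ * h) =
      period (⇑f) (polyAct m ((γ : Matrix (Fin 2) (Fin 2) ℤ).map (Int.cast : ℤ → ℂ)) P) g h := by
  have hmem : (γ : GL (Fin 2) ℝ) ∈ ((Gamma0 N : Subgroup SL(2, ℤ)) : Subgroup (GL (Fin 2) ℝ)) :=
    ⟨γ, hγ, rfl⟩
  have hslash : (formPoly (⇑f) P) ∣[(2 : ℤ)] (γ : GL (Fin 2) ℝ) =
      formPoly (⇑f) (polyAct m ((γ : Matrix (Fin 2) (Fin 2) ℤ).map (Int.cast : ℤ → ℂ)) P) := by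
    rw [formPoly_slash m hk _ P hP (det_pos_of_SL γ), SlashInvariantFormClass.slash_action_eq f _ hmem,
      cmat_coe_SL]
    have hdet : (γ : GL (Fin 2) ℝ).det = 1 := Matrix.SpecialLinearGroup.det_mapGL γ
    rw [hdet]
    simp
  have hg : ((γ * g : SL(2, ℤ)) : GL (Fin 2) ℝ) = (γ : GL (Fin 2) ℝ) * (g : GL (Fin 2) ℝ) :=
    map_mul (Matrix.SpecialLinearGroup.mapGL ℝ) γ g
  have hh : ((γ * h : SL(2, ℤ)) : GL (Fin 2) ℝ) = (γ : GL (Fin 2) ℝ) * (h : GL (Fin 2) ℝ) :=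
    map_mul (Matrix.SpecialLinearGroup.mapGL ℝ) γ h
  rw [period, hg, hh, cuspPrim_slash', cuspPrim_slash', hslash]
  exact (period_eq_base_one m hk f _ (natDegree_polyAct_le m _ P) g h _).symm

/-! ### Linearity -/

theorem period_smul_poly (F : ℍ → ℂ) (c : ℂ) (P : ℂ[X]) (g h : SL(2, ℤ)) :
    period F (c • P) g h = c * period F P g h := by
  unfold period
  rw [formPoly_smul_poly, cuspPrim_smul c _ (det_pos_of_SL g), cuspPrim_smul c _ (det_pos_of_SL h)]
  ring

theorem period_smul_form (c : ℂ) (F : ℍ → ℂ) (P : ℂ[X]) (g h : SL(2, ℤ)) :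
    period (c • F) P g h = c * period F P g h := by
  unfold period
  rw [formPoly_smul_form, cuspPrim_smul c _ (det_pos_of_SL g), cuspPrim_smul c _ (det_pos_of_SL h)]
  ring

theorem period_add_poly (m : ℕ) {k : ℤ} (hk : k = (m : ℤ) + 2) (f : CuspForm (Gamma0 N) k)
    {β : GL (Fin 2) ℝ} (hβ : β ∈ ratSubgroup) (P Q : ℂ[X]) (hP : P.natDegree ≤ m)
    (hQ : Q.natDegree ≤ m) (g h : SL(2, ℤ)) :
    period (⇑f ∣[k] β) (P + Q) g h = period (⇑f ∣[k] β) P g h + period (⇑f ∣[k] β) Q g h := by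
  unfold period
  rw [formPoly_add_poly,
    cuspPrim_add _ _ _
      (vertDecay_formPoly_slash m hk f hβ (coe_SL_mem_ratSubgroup g) (det_pos_of_SL g) P hP)
      (vertDecay_formPoly_slash m hk f hβ (coe_SL_mem_ratSubgroup g) (det_pos_of_SL g) Q hQ),
    cuspPrim_add _ _ _
      (vertDecay_formPoly_slash m hk f hβ (coe_SL_mem_ratSubgroup h) (det_pos_of_SL h) P hP)
      (vertDecay_formPoly_slash m hk f hβ (coe_SL_mem_ratSubgroup h) (det_pos_of_SL h) Q hQ)]
  ring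

theorem period_add_poly_one (m : ℕ) {k : ℤ} (hk : k = (m : ℤ) + 2) (f : CuspForm (Gamma0 N) k)
    (P Q : ℂ[X]) (hP : P.natDegree ≤ m) (hQ : Q.natDegree ≤ m) (g h : SL(2, ℤ)) :
    period (⇑f) (P + Q) g h = period (⇑f) P g h + period (⇑f) Q g h := by
  have := period_add_poly m hk f (one_mem ratSubgroup) P Q hP hQ g h
  rwa [SlashAction.slash_one] at this

theorem period_zero_poly (F : ℍ → ℂ) (g h : SL(2, ℤ)) : period F 0 g h = 0 := by
  have := period_smul_poly F 0 0 g h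
  simpa using this

theorem period_add_form (m : ℕ) {k : ℤ} (hk : k = (m : ℤ) + 2) (f₁ f₂ : CuspForm (Gamma0 N) k)
    (P : ℂ[X]) (hP : P.natDegree ≤ m) (g h : SL(2, ℤ)) :
    period (⇑(f₁ + f₂)) P g h = period (⇑f₁) P g h + period (⇑f₂) P g h := by
  unfold period
  rw [FunLike.coe_add, formPoly_add_form,
    cuspPrim_add _ _ _
      (vertDecay_formPoly_slash_one m hk f₁ (coe_SL_mem_ratSubgroup g) (det_pos_of_SL g) P hP)
      (vertDecay_formPoly_slash_one m hk f₂ (coe_SL_mem_ratSubgroup g) (det_pos_of_SL g) P hP),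
    cuspPrim_add _ _ _
      (vertDecay_formPoly_slash_one m hk f₁ (coe_SL_mem_ratSubgroup h) (det_pos_of_SL h) P hP)
      (vertDecay_formPoly_slash_one m hk f₂ (coe_SL_mem_ratSubgroup h) (det_pos_of_SL h) P hP)]
  ring

omit [NeZero N] in
theorem period_smul_cuspForm (c : ℂ) {k : ℤ} (f : CuspForm (Gamma0 N) k) (P : ℂ[X])
    (g h : SL(2, ℤ)) : period (⇑(c • f)) P g h = c * period (⇑f) P g h := by
  rw [FunLike.coe_smul, period_smul_form]

/-- Periods against a polynomial of degree `≤ m` are combinations of periods against monomials. -/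
theorem period_eq_sum_monomial (m : ℕ) {k : ℤ} (hk : k = (m : ℤ) + 2) (f : CuspForm (Gamma0 N) k)
    (P : ℂ[X]) (hP : P.natDegree ≤ m) (g h : SL(2, ℤ)) :
    period (⇑f) P g h = ∑ j ∈ Finset.range (m + 1), P.coeff j * period (⇑f) (X ^ j) g h := by
  have key : ∀ n : ℕ, n ≤ m + 1 →
      period (⇑f) (∑ j ∈ Finset.range n, P.coeff j • (X : ℂ[X]) ^ j) g h =
        ∑ j ∈ Finset.range n, P.coeff j * period (⇑f) (X ^ j) g h := by
    intro n
    induction n with
    | zero => intro _; simp [period_zero_poly]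
    | succ n ih =>
      intro hn
      have hdeg1 : (∑ j ∈ Finset.range n, P.coeff j • (X : ℂ[X]) ^ j).natDegree ≤ m := by
        refine natDegree_sum_le_of_forall_le _ _ (fun j hj => ?_)
        refine (natDegree_smul_le _ _).trans ?_
        rw [natDegree_X_pow]
        have := Finset.mem_range.mp hj
        omega
      have hdeg2 : (P.coeff n • (X : ℂ[X]) ^ n).natDegree ≤ m := by
        refine (natDegree_smul_le _ _).trans ?_
        rw [natDegree_X_pow]
        omega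
      rw [Finset.sum_range_succ, Finset.sum_range_succ,
        period_add_poly_one m hk f _ _ hdeg1 hdeg2, ih (by omega), period_smul_poly]
  have hPsum : P = ∑ j ∈ Finset.range (m + 1), P.coeff j • (X : ℂ[X]) ^ j := by
    conv_lhs => rw [P.as_sum_range' (m + 1) (Nat.lt_succ_of_le hP)]
    refine Finset.sum_congr rfl (fun j _ => ?_)
    rw [← C_mul_X_pow_eq_monomial, smul_eq_C_mul]
  conv_lhs => rw [hPsum]
  exact key (m + 1) le_rfl

/-! ### Separation -/

/-- `cuspPrim (f P) g (g • z)` is (minus) helper9's Eichler integral `eichE f g Q z`, where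
`Q = P ∣ g`. -/
theorem cuspPrim_formPoly_eq_eichE (m : ℕ) {k : ℤ} (hk : k = (m : ℤ) + 2)
    (f : CuspForm (Gamma0 N) k) (g : SL(2, ℤ)) (P Q : ℂ[X])
    (hPQ : ∀ u : ℍ, Q.eval (u : ℂ) = denom g u ^ m * P.eval ((g • u : ℍ) : ℂ)) (z : ℍ) :
    cuspPrim (formPoly (⇑f) P) (g : GL (Fin 2) ℝ) (g • z) = -eichE f g Q z := by
  subst hk
  unfold cuspPrim
  have hsmul : (g : GL (Fin 2) ℝ)⁻¹ • (g • z) = z := by
    have : g • z = (g : GL (Fin 2) ℝ) • z := rfl
    rw [this, inv_smul_smul]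
  rw [hsmul, eichE_apply, neg_inj]
  refine vertInt_congr z.im_pos (fun w hw => ?_)
  unfold eichIntegrand
  rw [Function.comp_apply, Function.comp_apply, ofComplex_apply_of_im_pos hw]
  set u : ℍ := ⟨w, hw⟩ with hu
  have hw' : w = (u : ℂ) := rfl
  rw [hw', hPQ u]
  have h1 : ((formPoly (⇑f) P) ∣[(2 : ℤ)] (g : GL (Fin 2) ℝ)) u =
      formPoly (⇑f) P (g • u) * denom g u ^ (-(2 : ℤ)) := ModularForm.SL_slash_apply _ g u
  have h2 : (⇑f ∣[(m : ℤ) + 2] (g : GL (Fin 2) ℝ)) u =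
      f (g • u) * denom g u ^ (-((m : ℤ) + 2)) := ModularForm.SL_slash_apply _ g u
  rw [h1, h2, formPoly_apply]
  have hden : denom g u ≠ 0 := denom_ne_zero g u
  rw [zpow_neg, zpow_neg, zpow_add₀ hden, zpow_natCast]
  field_simp

/-- **Separation**: a cusp form of weight `m + 2` all of whose periods `∫_{i∞}^{g∞} f(w) w^j dw`,
`j ≤ m`, vanish, is zero. -/
theorem eq_zero_of_period_eq_zero (m : ℕ) {k : ℤ} (hk : k = (m : ℤ) + 2)
    (f : CuspForm (Gamma0 N) k)
    (h : ∀ j : ℕ, j ≤ m → ∀ g : SL(2, ℤ), period (⇑f) (X ^ j) 1 g = 0) : f = 0 := by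
  have hall : ∀ (P : ℂ[X]), P.natDegree ≤ m → ∀ g : SL(2, ℤ), period (⇑f) P 1 g = 0 := by
    intro P hP g
    rw [period_eq_sum_monomial m hk f P hP]
    refine Finset.sum_eq_zero (fun j hj => ?_)
    rw [h j (Nat.lt_succ_iff.mp (Finset.mem_range.mp hj)) g, mul_zero]
  refine eq_zero_of_eichE_cov m f (fun g P Q hP _ hPQ z => ?_)
  have h0 := hall P hP g
  rw [period_eq_base_one m hk f P hP 1 g (g • z)] at h0
  have h1 := cuspPrim_formPoly_eq_eichE m hk f g P Q hPQ z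
  have h2 := cuspPrim_formPoly_eq_eichE m hk f 1 P P (fun u => by simp) (g • z)
  rw [one_smul] at h2
  rw [h1, h2] at h0
  linear_combination -h0

end Fermat.Agent.S22
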