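import Mathlib
import Fermat.Agent.S22.Periods2
import Fermat.Agent.S22.Hermite
import Fermat.Agent.S22.Hecke_helper9

set_option autoImplicit false

namespace Fermat.Agent.S22

open Complex UpperHalfPlane ModularForm CongruenceSubgroup Polynomial
open scoped MatrixGroups

variable {N : ℕ} [NeZero N]

theorem heckeMatrix_eq_upperTriangularGL {p : ℕ} (hp : p ≠ 0) (j : ℕ)
    (had : (1 : ℝ) * (p : ℝ) ≠ 0) :
    heckeMatrix p j = upperTriangularGL 1 j p had := by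
  unfold heckeMatrix
  rw [dif_neg hp]

theorem heckeDiagMatrix_eq_upperTriangularGL {p : ℕ} (hp : p ≠ 0)
    (had : (p : ℝ) * (1 : ℝ) ≠ 0) :
    heckeDiagMatrix p = upperTriangularGL p 0 1 had := by
  unfold heckeDiagMatrix
  rw [dif_neg hp]

/-- Hecke step for `(1 j; 0 p)`. -/
theorem exists_period_heckeMatrix (m : ℕ) {k : ℤ} (hk : k = (m : ℤ) + 2) {p : ℕ} (hp : p ≠ 0)
    (j : ℕ) (g h : SL(2, ℤ)) :
    ∃ g' h' : SL(2, ℤ), ∀ (f : CuspForm (Gamma0 N) k) (P : ℂ[X]), P.natDegree ≤ m →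
      period (⇑f ∣[k] heckeMatrix p j) P g h =
        period (⇑f) (polyAct m (adjUT 1 j p) P) g' h' := by
  obtain ⟨g', a₁, b₁, d₁, had₁, ha₁, hd₁, -, hg⟩ := exists_hermite_heckeMatrix hp j g
  obtain ⟨h', a₂, b₂, d₂, had₂, ha₂, hd₂, -, hh⟩ := exists_hermite_heckeMatrix hp j h
  refine ⟨g', h', fun f P hP => ?_⟩
  have hp' : (0 : ℝ) < p := by exact_mod_cast Nat.pos_of_ne_zero hp
  have had : (1 : ℝ) * (p : ℝ) ≠ 0 := by rw [one_mul]; exact hp'.ne'
  have hδ := heckeMatrix_mem_ratSubgroup p j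
  rw [heckeMatrix_eq_upperTriangularGL hp j had] at hg hh hδ ⊢
  exact period_slash_upperTriangularGL m hk f one_pos hp' had hδ P hP g h g' h'
    (Int.cast_pos.mpr ha₁) (Int.cast_pos.mpr hd₁) had₁ hg
    (Int.cast_pos.mpr ha₂) (Int.cast_pos.mpr hd₂) had₂ hh

/-- Hecke step for `(p 0; 0 1)`. -/
theorem exists_period_heckeDiagMatrix (m : ℕ) {k : ℤ} (hk : k = (m : ℤ) + 2) {p : ℕ}
    (hp : p ≠ 0) (g h : SL(2, ℤ)) :
    ∃ g' h' : SL(2, ℤ), ∀ (f : CuspForm (Gamma0 N) k) (P : ℂ[X]), P.natDegree ≤ m →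
      period (⇑f ∣[k] heckeDiagMatrix p) P g h =
        period (⇑f) (polyAct m (adjUT p 0 1) P) g' h' := by
  obtain ⟨g', a₁, b₁, d₁, had₁, ha₁, hd₁, -, hg⟩ := exists_hermite_heckeDiagMatrix hp g
  obtain ⟨h', a₂, b₂, d₂, had₂, ha₂, hd₂, -, hh⟩ := exists_hermite_heckeDiagMatrix hp h
  refine ⟨g', h', fun f P hP => ?_⟩
  have hp' : (0 : ℝ) < p := by exact_mod_cast Nat.pos_of_ne_zero hp
  have had : (p : ℝ) * (1 : ℝ) ≠ 0 := by rw [mul_one]; exact hp'.ne'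
  have hδ := heckeDiagMatrix_mem_ratSubgroup p
  rw [heckeDiagMatrix_eq_upperTriangularGL hp had] at hg hh hδ ⊢
  exact period_slash_upperTriangularGL m hk f hp' one_pos had hδ P hP g h g' h'
    (Int.cast_pos.mpr ha₁) (Int.cast_pos.mpr hd₁) had₁ hg
    (Int.cast_pos.mpr ha₂) (Int.cast_pos.mpr hd₂) had₂ hh

/-- Additivity of the period over a finite sum of rational translates of a cusp form. -/
theorem period_sum_slash (m : ℕ) {k : ℤ} (hk : k = (m : ℤ) + 2) (f : CuspForm (Gamma0 N) k)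
    {ι : Type*} (s : Finset ι) (β : ι → GL (Fin 2) ℝ) (hβ : ∀ i ∈ s, β i ∈ ratSubgroup)
    (P : ℂ[X]) (hP : P.natDegree ≤ m) (g h : SL(2, ℤ)) :
    period (∑ i ∈ s, ⇑f ∣[k] β i) P g h = ∑ i ∈ s, period (⇑f ∣[k] β i) P g h := by
  unfold period
  rw [formPoly_sum_form,
    cuspPrim_sum s _ _ (fun i hi =>
      vertDecay_formPoly_slash m hk f (hβ i hi) (coe_SL_mem_ratSubgroup g) (det_pos_of_SL g) P hP),
    cuspPrim_sum s _ _ (fun i hi =>
      vertDecay_formPoly_slash m hk f (hβ i hi) (coe_SL_mem_ratSubgroup h) (det_pos_of_SL h) P hP),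
    Finset.sum_sub_distrib]

end Fermat.Agent.S22
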