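import Mathlib
import Fermat.Prelude.Def_CuspForm_HeckeAlgebra
import Fermat.Agent.S22.Periods2
import Fermat.Agent.S22.Hermite
import Fermat.Agent.S22.Hecke_helper9
import Fermat.Agent.S22.Hecke2_helper9
import Fermat.Agent.S22.C_helper9_Assembly

set_option autoImplicit false

namespace Fermat.Agent.S22

open Complex UpperHalfPlane ModularForm CongruenceSubgroup Polynomial
open scoped MatrixGroups

variable {N : ℕ} [NeZero N]

/-- The coefficient module: integer polynomials of degree `≤ m`. -/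
abbrev CoeffMod (m : ℕ) : Type := degreeLT ℤ (m + 1)

instance (m : ℕ) : Module.Finite ℤ (CoeffMod m) :=
  Module.Finite.equiv (degreeLTEquiv ℤ (m + 1)).symm

/-- complexification of an integer polynomial -/
noncomputable def toC (P : ℤ[X]) : ℂ[X] := P.map (Int.castRingHom ℂ)

theorem natDegree_toC_le {m : ℕ} (P : CoeffMod m) : (toC (P : ℤ[X])).natDegree ≤ m := by
  refine (natDegree_map_le).trans ?_
  have h := P.2
  rw [mem_degreeLT] at h
  by_cases h0 : (P : ℤ[X]) = 0
  · rw [h0]; simp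
  · rw [degree_eq_natDegree h0] at h
    have : (P : ℤ[X]).natDegree < m + 1 := by exact_mod_cast h
    omega

/-- The integral action on the coefficient module. -/
noncomputable def coeffAct (m : ℕ) (A : Matrix (Fin 2) (Fin 2) ℤ) (P : CoeffMod m) : CoeffMod m :=
  ⟨polyAct m A (P : ℤ[X]), polyAct_mem_degreeLT m A _⟩

theorem toC_coeffAct (m : ℕ) (A : Matrix (Fin 2) (Fin 2) ℤ) (P : CoeffMod m) :
    toC ((coeffAct m A P : CoeffMod m) : ℤ[X]) =
      polyAct m (A.map (Int.castRingHom ℂ)) (toC (P : ℤ[X])) :=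
  polyAct_map (Int.castRingHom ℂ) m A _

/-- The period functional. -/
noncomputable def evPeriod (m : ℕ) {k : ℤ} (hk : k = (m : ℤ) + 2) (g h : SL(2, ℤ)) :
    CoeffMod m →+ Module.Dual ℂ (CuspForm (Gamma0 N) k) where
  toFun P :=
    { toFun := fun f => period (⇑f) (toC (P : ℤ[X])) g h
      map_add' := fun f₁ f₂ => period_add_form m hk f₁ f₂ _ (natDegree_toC_le P) g h
      map_smul' := fun c f => period_smul_cuspForm c f _ g h }
  map_zero' := by
    ext f
    simp [toC, period_zero_poly]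
  map_add' P Q := by
    ext f
    simp only [LinearMap.coe_mk, AddHom.coe_mk, LinearMap.add_apply, Submodule.coe_add, toC,
      Polynomial.map_add]
    exact period_add_poly_one m hk f _ _ (natDegree_toC_le P) (natDegree_toC_le Q) g h

theorem evPeriod_apply (m : ℕ) {k : ℤ} (hk : k = (m : ℤ) + 2) (g h : SL(2, ℤ)) (P : CoeffMod m)
    (f : CuspForm (Gamma0 N) k) :
    evPeriod m hk g h P f = period (⇑f) (toC (P : ℤ[X])) g h := rfl

theorem adjUT_heckeMatrix_eq (p j : ℕ) :
    (!![(p : ℤ), -(j : ℤ); 0, 1] : Matrix (Fin 2) (Fin 2) ℤ).map (Int.castRingHom ℂ) =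
      adjUT 1 j p := by
  ext a b
  fin_cases a <;> fin_cases b <;> simp [adjUT]

theorem adjUT_heckeDiagMatrix_eq (p : ℕ) :
    (!![(1 : ℤ), 0; 0, (p : ℤ)] : Matrix (Fin 2) (Fin 2) ℤ).map (Int.castRingHom ℂ) =
      adjUT p 0 1 := by
  ext a b
  fin_cases a <;> fin_cases b <;> simp [adjUT]

/-- The span of all period functionals. -/
noncomputable def periodLattice (m : ℕ) {k : ℤ} (hk : k = (m : ℤ) + 2) :
    Submodule ℤ (Module.Dual ℂ (CuspForm (Gamma0 N) k)) :=
  Submodule.span ℤ {x | ∃ (g h : SL(2, ℤ)) (P : CoeffMod m), evPeriod m hk g h P = x}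

theorem evPeriod_mem (m : ℕ) {k : ℤ} (hk : k = (m : ℤ) + 2) (g h : SL(2, ℤ)) (P : CoeffMod m) :
    evPeriod (N := N) m hk g h P ∈ periodLattice m hk :=
  Submodule.subset_span ⟨g, h, P, rfl⟩

/-- Stability under the `U`-type sum `∑_{j<p} f ∣[k] (1 j; 0 p)`. -/
theorem evPeriod_comp_heckeU_mem (m : ℕ) {k : ℤ} (hk : k = (m : ℤ) + 2) {p : ℕ} (hp : p ≠ 0)
    (g h : SL(2, ℤ)) (P : CoeffMod m) (t : Module.End ℂ (CuspForm (Gamma0 N) k))
    (ht : ∀ f, ⇑(t f) = heckeU k p ⇑f) :
    (evPeriod m hk g h P) ∘ₗ t ∈ periodLattice m hk := by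
  choose g' h' hgh using fun j : ℕ => exists_period_heckeMatrix (N := N) m hk hp j g h
  have key : (evPeriod m hk g h P) ∘ₗ t = ∑ j ∈ Finset.range p,
      evPeriod m hk (g' j) (h' j) (coeffAct m !![(p : ℤ), -(j : ℤ); 0, 1] P) := by
    ext f
    rw [LinearMap.comp_apply, evPeriod_apply, ht f, heckeU_def,
      period_sum_slash m hk f _ _ (fun j _ => heckeMatrix_mem_ratSubgroup p j) _
        (natDegree_toC_le P), LinearMap.sum_apply]
    refine Finset.sum_congr rfl fun j _ => ?_
    rw [hgh j f _ (natDegree_toC_le P), evPeriod_apply, toC_coeffAct, adjUT_heckeMatrix_eq]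
  rw [key]
  exact Submodule.sum_mem _ fun j _ => evPeriod_mem m hk _ _ _

/-- Stability under `T_p`. -/
theorem evPeriod_comp_heckeT_mem (m : ℕ) {k : ℤ} (hk : k = (m : ℤ) + 2) {p : ℕ} (hp : p ≠ 0)
    (g h : SL(2, ℤ)) (P : CoeffMod m) (t : Module.End ℂ (CuspForm (Gamma0 N) k))
    (ht : ∀ f, ⇑(t f) = heckeT k p ⇑f) :
    (evPeriod m hk g h P) ∘ₗ t ∈ periodLattice m hk := by
  choose g' h' hgh using fun j : ℕ => exists_period_heckeMatrix (N := N) m hk hp j g h
  obtain ⟨g'', h'', hgh''⟩ := exists_period_heckeDiagMatrix (N := N) m hk hp g h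
  -- encode the `p + 1` matrices as a single family
  set β : ℕ → GL (Fin 2) ℝ := fun j => if j < p then heckeMatrix p j else heckeDiagMatrix p with hβ
  have hβmem : ∀ j, β j ∈ ratSubgroup := by
    intro j
    simp only [hβ]
    split_ifs
    · exact heckeMatrix_mem_ratSubgroup p j
    · exact heckeDiagMatrix_mem_ratSubgroup p
  have hT : ∀ F : ℍ → ℂ, heckeT k p F = ∑ j ∈ Finset.range (p + 1), F ∣[k] β j := by
    intro F
    rw [Finset.sum_range_succ, heckeT_def]
    congr 1
    · refine Finset.sum_congr rfl fun j hj => ?_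
      simp only [hβ, if_pos (Finset.mem_range.mp hj)]
    · simp only [hβ, if_neg (lt_irrefl p)]
  have key : (evPeriod m hk g h P) ∘ₗ t = (∑ j ∈ Finset.range p,
      evPeriod m hk (g' j) (h' j) (coeffAct m !![(p : ℤ), -(j : ℤ); 0, 1] P)) +
      evPeriod m hk g'' h'' (coeffAct m !![(1 : ℤ), 0; 0, (p : ℤ)] P) := by
    ext f
    rw [LinearMap.comp_apply, evPeriod_apply, ht f, hT,
      period_sum_slash m hk f _ _ (fun j _ => hβmem j) _ (natDegree_toC_le P),
      Finset.sum_range_succ, LinearMap.add_apply, LinearMap.sum_apply]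
    congr 1
    · refine Finset.sum_congr rfl fun j hj => ?_
      simp only [hβ, if_pos (Finset.mem_range.mp hj)]
      rw [hgh j f _ (natDegree_toC_le P), evPeriod_apply, toC_coeffAct, adjUT_heckeMatrix_eq]
    · simp only [hβ, if_neg (lt_irrefl p)]
      rw [hgh'' f _ (natDegree_toC_le P), evPeriod_apply, toC_coeffAct,
        adjUT_heckeDiagMatrix_eq]
  rw [key]
  exact Submodule.add_mem _ (Submodule.sum_mem _ fun j _ => evPeriod_mem m hk _ _ _)
    (evPeriod_mem m hk _ _ _)

end Fermat.Agent.S22
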