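import Mathlib
import Fermat.Agent.S22.Hecke3_helper9

set_option autoImplicit false

namespace Fermat.Agent.S22

open Complex UpperHalfPlane ModularForm CongruenceSubgroup Polynomial
open scoped MatrixGroups

variable {N : ℕ} [NeZero N]

theorem map_intCast_eq_map_castRingHom (γ : SL(2, ℤ)) :
    (γ : Matrix (Fin 2) (Fin 2) ℤ).map (Int.cast : ℤ → ℂ) =
      (γ : Matrix (Fin 2) (Fin 2) ℤ).map (Int.castRingHom ℂ) := rfl

/-- The period data for even weight `k = m + 2`. -/
noncomputable def periodData (m : ℕ) {k : ℤ} (hk : k = (m : ℤ) + 2) :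
    PeriodData N k (CoeffMod m) where
  ev := evPeriod m hk
  act := fun γ P => coeffAct m ((γ : SL(2, ℤ)) : Matrix (Fin 2) (Fin 2) ℤ) P
  chasles := fun g h l P => by
    ext f
    simp only [LinearMap.add_apply, evPeriod_apply]
    exact period_chasles _ _ g h l
  hinv := fun γ g h P => by
    ext f
    simp only [evPeriod_apply]
    rw [period_Gamma0 m hk f _ (natDegree_toC_le P) γ γ.2 g h, toC_coeffAct]
    rfl
  htriv := fun g P => by
    ext f
    simp only [evPeriod_apply, LinearMap.zero_apply]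
    exact period_mul_T_self _ _ g
  hecke := by
    rintro t (⟨ℓ, hℓ, hℓN, -, rfl⟩ | ⟨q, hqN, hq, -, rfl⟩) g h P
    · exact evPeriod_comp_heckeT_mem m hk hℓ.ne_zero g h P _ (fun f => rfl)
    · exact evPeriod_comp_heckeU_mem m hk hq.ne_zero g h P _ (fun f => rfl)
  sep := fun f hf => by
    refine eq_zero_of_period_eq_zero m hk f (fun j hj g => ?_)
    have hmem : (X : ℤ[X]) ^ j ∈ degreeLT ℤ (m + 1) := by
      rw [mem_degreeLT]
      refine lt_of_le_of_lt (degree_X_pow_le j) ?_
      exact_mod_cast Nat.lt_succ_of_le hj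
    have := hf 1 g ⟨X ^ j, hmem⟩
    rw [evPeriod_apply] at this
    simpa [toC] using this

end Fermat.Agent.S22

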