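/-
S22 package (B): periods of cusp forms via abstract primitives, and their covariance.
-/
import Mathlib
import Fermat.Agent.S22.Prim

set_option autoImplicit false

open Complex Filter Topology Set Polynomial ModularForm
open UpperHalfPlane hiding I
open scoped MatrixGroups

namespace Fermat.Agent.S22

/-- The integrand `F(τ) P(τ)`. -/
def integrand (F : ℍ → ℂ) (P : ℂ[X]) : ℍ → ℂ := fun τ => F τ * P.eval (τ : ℂ)

theorem integrand_add_left (F₁ F₂ : ℍ → ℂ) (P : ℂ[X]) :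
    integrand (F₁ + F₂) P = integrand F₁ P + integrand F₂ P := by
  ext τ; simp [integrand, add_mul]

theorem integrand_smul_left (a : ℂ) (F : ℍ → ℂ) (P : ℂ[X]) :
    integrand (a • F) P = a • integrand F P := by
  ext τ; simp [integrand, mul_assoc]

theorem integrand_add_right (F : ℍ → ℂ) (P Q : ℂ[X]) :
    integrand F (P + Q) = integrand F P + integrand F Q := by
  ext τ; simp [integrand, mul_add]

theorem integrand_smul_right (a : ℂ) (F : ℍ → ℂ) (P : ℂ[X]) :
    integrand F (a • P) = a • integrand F P := by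
  ext τ; simp [integrand]; ring

theorem integrand_sum_left {ι : Type*} (s : Finset ι) (F : ι → ℍ → ℂ) (P : ℂ[X]) :
    integrand (∑ i ∈ s, F i) P = fun τ => ∑ i ∈ s, integrand (F i) P τ := by
  ext τ; simp [integrand, Finset.sum_mul]

/-- Transfer of primitives under the slash action. -/
theorem IsPrim.comp_slash {G F : ℍ → ℂ} {P Q : ℂ[X]} (m : ℕ) {α : GL (Fin 2) ℝ}
    (hα : 0 < α.val.det) (hG : IsPrim G (integrand F P))
    (hQ : ∀ τ : ℍ, ((α.val.det : ℝ) : ℂ) ^ m * Q.eval (τ : ℂ) =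
      denom α τ ^ m * P.eval ((α • τ : ℍ) : ℂ)) :
    IsPrim (fun τ => G (α • τ)) (integrand (F ∣[(m : ℤ) + 2] α) Q) := by
  refine (hG.comp_smul hα).congr fun τ => ?_
  have hden : denom α τ ≠ 0 := denom_ne_zero α τ
  have hdet : ((α.val.det : ℝ) : ℂ) ≠ 0 := by exact_mod_cast hα.ne'
  have hσ : σ α = ContinuousAlgEquiv.refl ℝ ℂ := by
    have hα' : 0 < (α.det : ℝˣ).val := by simpa using hα
    rw [σ, if_pos hα']
  have habs : |(α.det : ℝˣ).val| = α.val.det := by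
    have : (α.det : ℝˣ).val = α.val.det := by simp
    rw [this, abs_of_pos hα]
  simp only [integrand, ModularForm.slash_apply, hσ, ContinuousAlgEquiv.refl_apply, habs]
  have e1 : ((m : ℤ) + 2 - 1) = ((m + 1 : ℕ) : ℤ) := by push_cast; ring
  have e2 : -((m : ℤ) + 2) = -((m + 2 : ℕ) : ℤ) := by push_cast; ring
  rw [e1, e2, zpow_natCast, zpow_neg, zpow_natCast]
  have hQ' := hQ τ
  have : Q.eval (τ : ℂ) = denom α τ ^ m * P.eval ((α • τ : ℍ) : ℂ) / ((α.val.det : ℝ) : ℂ) ^ m := by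
    rw [eq_div_iff (pow_ne_zero m hdet), mul_comm]
    exact hQ'
  rw [this]
  field_simp
  ring


/-! ### Cusp values along `α • (vertical line)` -/

/-- the action of an upper triangular matrix with positive diagonal on `x + t i`. -/
theorem upper_smul_vpt {u : GL (Fin 2) ℝ} {a b d : ℝ} (ha : 0 < a) (hd : 0 < d)
    (hu : u.val = !![a, b; 0, d]) (x : ℝ) {t : ℝ} (ht : 0 < t) :
    u • vpt x t = vpt ((a * x + b) / d) (a / d * t) := by
  have hdet : 0 < u.det.val := by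
    have : u.det.val = u.val.det := by simp
    rw [this, hu, Matrix.det_fin_two_of]
    simp only [mul_zero, sub_zero]
    positivity
  have ht' : 0 < a / d * t := by positivity
  apply UpperHalfPlane.ext
  rw [coe_smul_of_det_pos hdet, vpt_coe _ ht']
  simp only [num, denom, hu, vpt_coe x ht]
  simp only [Matrix.of_apply, Matrix.cons_val', Matrix.cons_val_zero, Matrix.cons_val_one,
    Matrix.cons_val_fin_one]
  have hd' : (d : ℂ) ≠ 0 := by exact_mod_cast hd.ne'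
  push_cast
  rw [zero_mul, zero_add]
  field_simp
  ring

theorem HasVLim.comp_upper {H : ℍ → ℂ} {c : ℂ} (hH : HasVLim H c) {u : GL (Fin 2) ℝ}
    {a b d : ℝ} (ha : 0 < a) (hd : 0 < d) (hu : u.val = !![a, b; 0, d]) :
    HasVLim (fun τ => H (u • τ)) c := by
  intro x
  have h1 : Tendsto (fun t : ℝ => a / d * t) atTop atTop :=
    tendsto_id.const_mul_atTop (by positivity)
  have h2 := (hH ((a * x + b) / d)).comp h1
  refine h2.congr' ?_
  filter_upwards [eventually_gt_atTop 0] with t ht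
  simp only [Function.comp_apply]
  rw [upper_smul_vpt ha hd hu x ht]

/-- the converse, using the inverse matrix -/
theorem HasVLim.of_comp_upper {H : ℍ → ℂ} {c : ℂ} {u : GL (Fin 2) ℝ}
    {a b d : ℝ} (ha : 0 < a) (hd : 0 < d) (hu : u.val = !![a, b; 0, d])
    (hH : HasVLim (fun τ => H (u • τ)) c) : HasVLim H c := by
  have hinv : (u⁻¹).val = !![a⁻¹, -b / (a * d); 0, d⁻¹] := by
    have hdet : u.val.det = a * d := by rw [hu, Matrix.det_fin_two_of]; ring
    rw [Matrix.coe_units_inv, Matrix.inv_def, hdet, hu, Matrix.adjugate_fin_two_of]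
    ext i j
    fin_cases i <;> fin_cases j <;> simp <;> field_simp
  have := hH.comp_upper (u := u⁻¹) (inv_pos.mpr ha) (inv_pos.mpr hd) hinv
  simpa [smul_smul] using this

/-! ### Periods (relational form) -/

/-- `v` is the period `∫_{α∞}^{β∞} F(w) P(w) dw`: there is a primitive of `F P` whose limits at the
cusps `α∞`, `β∞` (along `α • (vertical lines)`) differ by `v`. -/
def IsPeriod (F : ℍ → ℂ) (P : ℂ[X]) (α β : GL (Fin 2) ℝ) (v : ℂ) : Prop :=
  ∃ (G : ℍ → ℂ) (c c' : ℂ), IsPrim G (integrand F P) ∧ HasVLim (fun τ => G (α • τ)) c ∧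
    HasVLim (fun τ => G (β • τ)) c' ∧ v = c' - c

theorem IsPeriod.unique {F : ℍ → ℂ} {P : ℂ[X]} {α β : GL (Fin 2) ℝ} {v v' : ℂ}
    (h : IsPeriod F P α β v) (h' : IsPeriod F P α β v') : v = v' := by
  obtain ⟨G, c, c', hG, hc, hc', rfl⟩ := h
  obtain ⟨G', e, e', hG', he, he', rfl⟩ := h'
  obtain ⟨k, hk⟩ := hG.exists_eq_add_const hG'
  have h1 : HasVLim (fun τ => G (α • τ)) (e + k) := fun x => by
    have := (he x).add_const k
    exact this.congr fun t => (hk _).symm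
  have h2 : HasVLim (fun τ => G (β • τ)) (e' + k) := fun x => by
    have := (he' x).add_const k
    exact this.congr fun t => (hk _).symm
  rw [hc.unique h1, hc'.unique h2]
  ring

theorem IsPeriod.add_left {F₁ F₂ : ℍ → ℂ} {P : ℂ[X]} {α β : GL (Fin 2) ℝ} {v₁ v₂ : ℂ}
    (h₁ : IsPeriod F₁ P α β v₁) (h₂ : IsPeriod F₂ P α β v₂) :
    IsPeriod (F₁ + F₂) P α β (v₁ + v₂) := by
  obtain ⟨G₁, c₁, c₁', hG₁, hc₁, hc₁', rfl⟩ := h₁
  obtain ⟨G₂, c₂, c₂', hG₂, hc₂, hc₂', rfl⟩ := h₂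
  refine ⟨G₁ + G₂, c₁ + c₂, c₁' + c₂', ?_, fun x => (hc₁ x).add (hc₂ x),
    fun x => (hc₁' x).add (hc₂' x), by ring⟩
  rw [integrand_add_left]
  exact hG₁.add hG₂

theorem IsPeriod.smul_left {F : ℍ → ℂ} {P : ℂ[X]} {α β : GL (Fin 2) ℝ} {v : ℂ} (a : ℂ)
    (h : IsPeriod F P α β v) : IsPeriod (a • F) P α β (a * v) := by
  obtain ⟨G, c, c', hG, hc, hc', rfl⟩ := h
  refine ⟨a • G, a * c, a * c', ?_, fun x => (hc x).const_mul a, fun x => (hc' x).const_mul a,
    by ring⟩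
  rw [integrand_smul_left]
  exact hG.const_smul a

theorem isPeriod_zero_left (P : ℂ[X]) (α β : GL (Fin 2) ℝ) : IsPeriod 0 P α β 0 := by
  refine ⟨0, 0, 0, ?_, fun x => tendsto_const_nhds, fun x => tendsto_const_nhds, by ring⟩
  have : integrand 0 P = 0 := by ext τ; simp [integrand]
  rw [this]
  exact isPrim_zero

theorem IsPeriod.sum_left {ι : Type*} (s : Finset ι) {F : ι → ℍ → ℂ} {P : ℂ[X]}
    {α β : GL (Fin 2) ℝ} {v : ι → ℂ} (h : ∀ i ∈ s, IsPeriod (F i) P α β (v i)) :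
    IsPeriod (∑ i ∈ s, F i) P α β (∑ i ∈ s, v i) := by
  classical
  induction s using Finset.induction_on with
  | empty => simpa using isPeriod_zero_left P α β
  | insert i t hi ih =>
    rw [Finset.sum_insert hi, Finset.sum_insert hi]
    exact (h i (Finset.mem_insert_self i t)).add_left
      (ih fun j hj => h j (Finset.mem_insert_of_mem hj))

theorem IsPeriod.add_right {F : ℍ → ℂ} {P₁ P₂ : ℂ[X]} {α β : GL (Fin 2) ℝ} {v₁ v₂ : ℂ}
    (h₁ : IsPeriod F P₁ α β v₁) (h₂ : IsPeriod F P₂ α β v₂) :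
    IsPeriod F (P₁ + P₂) α β (v₁ + v₂) := by
  obtain ⟨G₁, c₁, c₁', hG₁, hc₁, hc₁', rfl⟩ := h₁
  obtain ⟨G₂, c₂, c₂', hG₂, hc₂, hc₂', rfl⟩ := h₂
  refine ⟨G₁ + G₂, c₁ + c₂, c₁' + c₂', ?_, fun x => (hc₁ x).add (hc₂ x),
    fun x => (hc₁' x).add (hc₂' x), by ring⟩
  rw [integrand_add_right]
  exact hG₁.add hG₂

theorem IsPeriod.smul_right {F : ℍ → ℂ} {P : ℂ[X]} {α β : GL (Fin 2) ℝ} {v : ℂ} (a : ℂ)
    (h : IsPeriod F P α β v) : IsPeriod F (a • P) α β (a * v) := by
  obtain ⟨G, c, c', hG, hc, hc', rfl⟩ := h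
  refine ⟨a • G, a * c, a * c', ?_, fun x => (hc x).const_mul a, fun x => (hc' x).const_mul a,
    by ring⟩
  rw [integrand_smul_right]
  exact hG.const_smul a

theorem IsPeriod.sum_right {ι : Type*} (s : Finset ι) {F : ℍ → ℂ} {P : ι → ℂ[X]}
    {α β : GL (Fin 2) ℝ} {v : ι → ℂ} (h : ∀ i ∈ s, IsPeriod F (P i) α β (v i)) :
    IsPeriod F (∑ i ∈ s, P i) α β (∑ i ∈ s, v i) := by
  classical
  induction s using Finset.induction_on with
  | empty =>
    refine ⟨0, 0, 0, ?_, fun x => tendsto_const_nhds, fun x => tendsto_const_nhds, by simp⟩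
    have : integrand F (∑ i ∈ (∅ : Finset ι), P i) = 0 := by ext τ; simp [integrand]
    rw [this]
    exact isPrim_zero
  | insert i t hi ih =>
    rw [Finset.sum_insert hi, Finset.sum_insert hi]
    exact (h i (Finset.mem_insert_self i t)).add_right
      (ih fun j hj => h j (Finset.mem_insert_of_mem hj))

/-- Chasles relation. -/
theorem IsPeriod.chasles {F : ℍ → ℂ} {P : ℂ[X]} {α β γ : GL (Fin 2) ℝ} {v v' : ℂ}
    (h : IsPeriod F P α β v) (h' : IsPeriod F P β γ v') : IsPeriod F P α γ (v + v') := by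
  obtain ⟨G, c, c', hG, hc, hc', rfl⟩ := h
  obtain ⟨G', e, e', hG', he, he', rfl⟩ := h'
  obtain ⟨k, hk⟩ := hG.exists_eq_add_const hG'
  have h2 : HasVLim (fun τ => G (γ • τ)) (e' + k) := fun x => by
    have := (he' x).add_const k
    exact this.congr fun t => (hk _).symm
  have h1 : HasVLim (fun τ => G (β • τ)) (e + k) := fun x => by
    have := (he x).add_const k
    exact this.congr fun t => (hk _).symm
  refine ⟨G, c, e' + k, hG, hc, h2, ?_⟩
  rw [hc'.unique h1]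
  ring

theorem IsPeriod.symm {F : ℍ → ℂ} {P : ℂ[X]} {α β : GL (Fin 2) ℝ} {v : ℂ}
    (h : IsPeriod F P α β v) : IsPeriod F P β α (-v) := by
  obtain ⟨G, c, c', hG, hc, hc', rfl⟩ := h
  exact ⟨G, c', c, hG, hc', hc, by ring⟩

theorem IsPeriod.self_left {F : ℍ → ℂ} {P : ℂ[X]} {α β : GL (Fin 2) ℝ} {v : ℂ}
    (h : IsPeriod F P α β v) : IsPeriod F P α α 0 := by
  obtain ⟨G, c, c', hG, hc, hc', rfl⟩ := h
  exact ⟨G, c, c, hG, hc, hc, by ring⟩

/-- Multiplying the cusps on the right by upper triangular matrices does not change the period. -/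
theorem IsPeriod.mul_upper {F : ℍ → ℂ} {P : ℂ[X]} {α β : GL (Fin 2) ℝ} {v : ℂ}
    (h : IsPeriod F P α β v) {u u' : GL (Fin 2) ℝ} {a b d a' b' d' : ℝ}
    (ha : 0 < a) (hd : 0 < d) (hu : u.val = !![a, b; 0, d])
    (ha' : 0 < a') (hd' : 0 < d') (hu' : u'.val = !![a', b'; 0, d']) :
    IsPeriod F P (α * u) (β * u') v := by
  obtain ⟨G, c, c', hG, hc, hc', rfl⟩ := h
  refine ⟨G, c, c', hG, ?_, ?_, rfl⟩
  · have := hc.comp_upper ha hd hu
    simpa [mul_smul] using this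
  · have := hc'.comp_upper ha' hd' hu'
    simpa [mul_smul] using this

/-- Converse of `IsPeriod.mul_upper`. -/
theorem IsPeriod.of_mul_upper {F : ℍ → ℂ} {P : ℂ[X]} {α β : GL (Fin 2) ℝ} {v : ℂ}
    {u u' : GL (Fin 2) ℝ} {a b d a' b' d' : ℝ}
    (ha : 0 < a) (hd : 0 < d) (hu : u.val = !![a, b; 0, d])
    (ha' : 0 < a') (hd' : 0 < d') (hu' : u'.val = !![a', b'; 0, d'])
    (h : IsPeriod F P (α * u) (β * u') v) : IsPeriod F P α β v := by
  obtain ⟨G, c, c', hG, hc, hc', rfl⟩ := h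
  refine ⟨G, c, c', hG, ?_, ?_, rfl⟩
  · refine HasVLim.of_comp_upper ha hd hu ?_
    simpa [mul_smul] using hc
  · refine HasVLim.of_comp_upper ha' hd' hu' ?_
    simpa [mul_smul] using hc'

/-- Periods of a slashed function. -/
theorem IsPeriod.slash {F : ℍ → ℂ} {P Q : ℂ[X]} (m : ℕ) {δ α β : GL (Fin 2) ℝ} {v : ℂ}
    (hδ : 0 < δ.val.det) (h : IsPeriod F P (δ * α) (δ * β) v)
    (hQ : ∀ τ : ℍ, ((δ.val.det : ℝ) : ℂ) ^ m * Q.eval (τ : ℂ) =
      denom δ τ ^ m * P.eval ((δ • τ : ℍ) : ℂ)) :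
    IsPeriod (F ∣[(m : ℤ) + 2] δ) Q α β v := by
  obtain ⟨G, c, c', hG, hc, hc', rfl⟩ := h
  refine ⟨fun τ => G (δ • τ), c, c', hG.comp_slash m hδ hQ, ?_, ?_, rfl⟩
  · simpa [mul_smul] using hc
  · simpa [mul_smul] using hc'

end Fermat.Agent.S22
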