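/-
S22 package (B): periods of cusp forms of level `Γ₀(N)` between cusps `g∞`, `h∞`
(`g h ∈ SL(2,ℤ)`), their covariance and the action of the Hecke operators.
-/
import Mathlib
import Fermat.Prelude.Def_CuspForm_HeckeAlgebra
import Fermat.Agent.S22.Period
import Fermat.Agent.S22.B2_helper9_PolyAct
import Fermat.Agent.S22.Hermite
import Fermat.Agent.S22.Decay
import Fermat.Agent.S22.D_helper9_Glue

set_option autoImplicit false

open Complex Filter Topology Set Polynomial ModularForm CongruenceSubgroup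
open UpperHalfPlane hiding I
open scoped MatrixGroups

namespace Fermat.Agent.S22.H5

variable {N : ℕ} [NeZero N] {k : ℤ}

/-- The integrands attached to translates of cusp forms decay exponentially on strips. -/
theorem stripDecay_integrand (f : CuspForm (Gamma0 N) k) {α : GL (Fin 2) ℝ}
    (hα : α ∈ ratSubgroup) (Q : ℂ[X]) : StripDecay (integrand (⇑f ∣[k] α) Q) := by
  intro A
  obtain ⟨C, c, Y, hc, h⟩ := (vertDecay_polynomial_mul_slash_of_mem f hα Q).decay A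
  refine ⟨C, c, Y, hc, fun τ h1 h2 => ?_⟩
  have := h (τ : ℂ) h1 h2
  simpa [integrand, mul_comm] using this

theorem differentiableOn_integrand (f : CuspForm (Gamma0 N) k) (Q : ℂ[X]) :
    DifferentiableOn ℂ (integrand (⇑f) Q ∘ ofComplex) {z : ℂ | 0 < z.im} := by
  have h1 := (vertDecay_eichIntegrand f 1 Q).diff
  refine h1.congr fun z hz => ?_
  have hz' : 0 < z.im := hz
  simp [integrand, eichIntegrand, ofComplex_apply_of_im_pos hz', mul_comm]

theorem exists_isPrim_integrand (f : CuspForm (Gamma0 N) k) (Q : ℂ[X]) :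
    ∃ G : ℍ → ℂ, IsPrim G (integrand (⇑f) Q) :=
  exists_isPrim (differentiableOn_integrand f Q)


section weight

variable {m : ℕ}

/-- the complex matrix of an element of `SL(2,ℤ)` -/
noncomputable abbrev cmat (g : SL(2, ℤ)) : Matrix (Fin 2) (Fin 2) ℂ :=
  (g : Matrix (Fin 2) (Fin 2) ℤ).map (Int.cast : ℤ → ℂ)

theorem det_coe_SL (g : SL(2, ℤ)) : ((g : GL (Fin 2) ℝ) : Matrix (Fin 2) (Fin 2) ℝ).det = 1 := by
  have h := Matrix.SpecialLinearGroup.det_mapGL (S := ℝ) g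
  have h2 := congrArg Units.val h
  rwa [Matrix.GeneralLinearGroup.val_det_apply] at h2

theorem det_coe_SL_pos (g : SL(2, ℤ)) : 0 < ((g : GL (Fin 2) ℝ) : Matrix (Fin 2) (Fin 2) ℝ).det := by
  rw [det_coe_SL]; exact one_pos

/-- transfer of a primitive to the cusp `g∞`, `g ∈ SL(2,ℤ)`. -/
theorem isPrim_comp_SL {G F : ℍ → ℂ} {P : ℂ[X]} (hP : P.natDegree ≤ m)
    (hG : IsPrim G (integrand F P)) (g : SL(2, ℤ)) :
    IsPrim (fun τ => G ((g : GL (Fin 2) ℝ) • τ))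
      (integrand (F ∣[(m : ℤ) + 2] (g : GL (Fin 2) ℝ)) (polyAct m (cmat g) P)) := by
  refine hG.comp_slash m (det_coe_SL_pos g) fun τ => ?_
  have := eval_polyAct_SL m g P hP τ
  rw [det_coe_SL, ofReal_one, one_pow, one_mul]
  exact this

/-- A primitive of `f P` has a limit at every cusp `g∞`. -/
theorem exists_hasVLim_SL (f : CuspForm (Gamma0 N) ((m : ℤ) + 2)) {P : ℂ[X]}
    (hP : P.natDegree ≤ m) {G : ℍ → ℂ} (hG : IsPrim G (integrand (⇑f) P)) (g : SL(2, ℤ)) :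
    ∃ c, HasVLim (fun τ => G ((g : GL (Fin 2) ℝ) • τ)) c :=
  (isPrim_comp_SL hP hG g).exists_hasVLim
    (stripDecay_integrand f (coe_SL_mem_ratSubgroup g) (polyAct m (cmat g) P))

/-- Existence of periods. -/
theorem exists_isPeriod (f : CuspForm (Gamma0 N) ((m : ℤ) + 2)) {P : ℂ[X]}
    (hP : P.natDegree ≤ m) (g h : SL(2, ℤ)) :
    ∃ v, IsPeriod (⇑f) P (g : GL (Fin 2) ℝ) (h : GL (Fin 2) ℝ) v := by
  obtain ⟨G, hG⟩ := exists_isPrim_integrand f P
  obtain ⟨c, hc⟩ := exists_hasVLim_SL f hP hG g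
  obtain ⟨c', hc'⟩ := exists_hasVLim_SL f hP hG h
  exact ⟨c' - c, G, c, c', hG, hc, hc', rfl⟩

open Classical in
/-- The period `∫_{g∞}^{h∞} f(w) P(w) dw` (junk if `deg P > m`). -/
noncomputable def period (f : CuspForm (Gamma0 N) ((m : ℤ) + 2)) (P : ℂ[X]) (g h : SL(2, ℤ)) : ℂ :=
  if hv : ∃ v, IsPeriod (⇑f) P (g : GL (Fin 2) ℝ) (h : GL (Fin 2) ℝ) v then hv.choose else 0

theorem isPeriod_period (f : CuspForm (Gamma0 N) ((m : ℤ) + 2)) {P : ℂ[X]}
    (hP : P.natDegree ≤ m) (g h : SL(2, ℤ)) :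
    IsPeriod (⇑f) P (g : GL (Fin 2) ℝ) (h : GL (Fin 2) ℝ) (period f P g h) := by
  have hv := exists_isPeriod f hP g h
  rw [period, dif_pos hv]
  exact hv.choose_spec

theorem period_eq (f : CuspForm (Gamma0 N) ((m : ℤ) + 2)) {P : ℂ[X]}
    (hP : P.natDegree ≤ m) {g h : SL(2, ℤ)} {v : ℂ}
    (hv : IsPeriod (⇑f) P (g : GL (Fin 2) ℝ) (h : GL (Fin 2) ℝ) v) : period f P g h = v :=
  (isPeriod_period f hP g h).unique hv

/-! ### Linearity -/

theorem period_add_left (f₁ f₂ : CuspForm (Gamma0 N) ((m : ℤ) + 2)) {P : ℂ[X]}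
    (hP : P.natDegree ≤ m) (g h : SL(2, ℤ)) :
    period (f₁ + f₂) P g h = period f₁ P g h + period f₂ P g h :=
  period_eq _ hP (by
    have := (isPeriod_period f₁ hP g h).add_left (isPeriod_period f₂ hP g h)
    simpa using this)

theorem period_smul_left (a : ℂ) (f : CuspForm (Gamma0 N) ((m : ℤ) + 2)) {P : ℂ[X]}
    (hP : P.natDegree ≤ m) (g h : SL(2, ℤ)) :
    period (a • f) P g h = a * period f P g h :=
  period_eq _ hP (by
    have := (isPeriod_period f hP g h).smul_left a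
    simpa using this)

theorem period_add_right (f : CuspForm (Gamma0 N) ((m : ℤ) + 2)) {P Q : ℂ[X]}
    (hP : P.natDegree ≤ m) (hQ : Q.natDegree ≤ m) (g h : SL(2, ℤ)) :
    period f (P + Q) g h = period f P g h + period f Q g h :=
  period_eq _ ((natDegree_add_le _ _).trans (max_le hP hQ))
    ((isPeriod_period f hP g h).add_right (isPeriod_period f hQ g h))

theorem period_smul_right (a : ℂ) (f : CuspForm (Gamma0 N) ((m : ℤ) + 2)) {P : ℂ[X]}
    (hP : P.natDegree ≤ m) (g h : SL(2, ℤ)) :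
    period f (a • P) g h = a * period f P g h :=
  period_eq _ ((natDegree_smul_le a P).trans hP) ((isPeriod_period f hP g h).smul_right a)

theorem period_sum_right {ι : Type*} (s : Finset ι) (f : CuspForm (Gamma0 N) ((m : ℤ) + 2))
    {P : ι → ℂ[X]} (hP : ∀ i ∈ s, (P i).natDegree ≤ m) (g h : SL(2, ℤ)) :
    period f (∑ i ∈ s, P i) g h = ∑ i ∈ s, period f (P i) g h :=
  period_eq _ (natDegree_sum_le_of_forall_le _ _ hP)
    (IsPeriod.sum_right s fun i hi => isPeriod_period f (hP i hi) g h)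

/-! ### Chasles, `T`-invariance -/

theorem period_chasles (f : CuspForm (Gamma0 N) ((m : ℤ) + 2)) {P : ℂ[X]}
    (hP : P.natDegree ≤ m) (g h l : SL(2, ℤ)) :
    period f P g h + period f P h l = period f P g l :=
  (period_eq _ hP ((isPeriod_period f hP g h).chasles (isPeriod_period f hP h l))).symm

theorem coe_T_val : ((ModularGroup.T : SL(2, ℤ)) : GL (Fin 2) ℝ).val = !![(1 : ℝ), 1; 0, 1] := by
  ext i j
  fin_cases i <;> fin_cases j <;> simp [ModularGroup.coe_T]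

theorem one_GL_val : (1 : GL (Fin 2) ℝ).val = !![(1 : ℝ), 0; 0, 1] := by
  ext i j
  fin_cases i <;> fin_cases j <;> simp

theorem period_mul_T (f : CuspForm (Gamma0 N) ((m : ℤ) + 2)) {P : ℂ[X]}
    (hP : P.natDegree ≤ m) (g : SL(2, ℤ)) :
    period f P g (g * ModularGroup.T) = 0 := by
  refine period_eq _ hP ?_
  have h0 := (isPeriod_period f hP g g).self_left
  have := h0.mul_upper one_pos one_pos one_GL_val one_pos one_pos coe_T_val
  simpa using this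

/-! ### Invariance under `Γ₀(N)` -/

theorem coe_mul_SL (g h : SL(2, ℤ)) :
    ((g * h : SL(2, ℤ)) : GL (Fin 2) ℝ) = (g : GL (Fin 2) ℝ) * (h : GL (Fin 2) ℝ) :=
  map_mul (Matrix.SpecialLinearGroup.mapGL ℝ) g h

theorem period_inv (f : CuspForm (Gamma0 N) ((m : ℤ) + 2)) {P : ℂ[X]}
    (hP : P.natDegree ≤ m) {γ : SL(2, ℤ)} (hγ : γ ∈ Gamma0 N) (g h : SL(2, ℤ)) :
    period f P (γ * g) (γ * h) = period f (polyAct m (cmat γ) P) g h := by
  symm
  refine period_eq _ (natDegree_polyAct_le m _ P) ?_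
  have hv := isPeriod_period f hP (γ * g) (γ * h)
  rw [coe_mul_SL, coe_mul_SL] at hv
  have hQ : ∀ τ : ℍ, ((((γ : GL (Fin 2) ℝ) : Matrix (Fin 2) (Fin 2) ℝ).det : ℝ) : ℂ) ^ m *
      (polyAct m (cmat γ) P).eval (τ : ℂ) =
      denom (γ : GL (Fin 2) ℝ) τ ^ m * P.eval (((γ : GL (Fin 2) ℝ) • τ : ℍ) : ℂ) := fun τ => by
    rw [det_coe_SL, ofReal_one, one_pow, one_mul]
    exact eval_polyAct_SL m γ P hP τ
  have := hv.slash m (det_coe_SL_pos γ) hQ
  have hmem : (γ : GL (Fin 2) ℝ) ∈ ((Gamma0 N : Subgroup SL(2, ℤ)) : Subgroup (GL (Fin 2) ℝ)) :=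
    ⟨γ, hγ, rfl⟩
  rwa [SlashInvariantFormClass.slash_action_eq f _ hmem] at this

/-! ### The Hecke step -/

/-- the adjugate of the Hecke matrix `(1 j; 0 p)` -/
noncomputable abbrev adjU (p j : ℕ) : Matrix (Fin 2) (Fin 2) ℂ := !![(p : ℂ), -(j : ℂ); 0, 1]

/-- the adjugate of the Hecke matrix `(p 0; 0 1)` -/
noncomputable abbrev adjD (p : ℕ) : Matrix (Fin 2) (Fin 2) ℂ := !![(1 : ℂ), 0; 0, (p : ℂ)]

theorem val_det_heckeMatrix {p : ℕ} (hp : p ≠ 0) (j : ℕ) :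
    ((heckeMatrix p j : GL (Fin 2) ℝ) : Matrix (Fin 2) (Fin 2) ℝ).det = p := by
  rw [val_heckeMatrix hp, Matrix.det_fin_two_of]; ring

theorem val_det_heckeDiagMatrix {p : ℕ} (hp : p ≠ 0) :
    ((heckeDiagMatrix p : GL (Fin 2) ℝ) : Matrix (Fin 2) (Fin 2) ℝ).det = p := by
  rw [val_heckeDiagMatrix hp, Matrix.det_fin_two_of]; ring

theorem hQ_heckeMatrix {p : ℕ} (hp : p ≠ 0) (j : ℕ) {Q₀ : ℂ[X]} (hQ₀ : Q₀.natDegree ≤ m) (τ : ℍ) :
    ((((heckeMatrix p j : GL (Fin 2) ℝ) : Matrix (Fin 2) (Fin 2) ℝ).det : ℝ) : ℂ) ^ m *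
      Q₀.eval (τ : ℂ) = denom (heckeMatrix p j) τ ^ m *
      (polyAct m (adjU p j) Q₀).eval ((heckeMatrix p j • τ : ℍ) : ℂ) := by
  have hp' : (p : ℂ) ≠ 0 := by exact_mod_cast hp
  rw [val_det_heckeMatrix hp, denom_heckeMatrix hp, coe_heckeMatrix_smul hp,
    eval_polyAct m (adjU p j) Q₀ hQ₀ _ (by simp)]
  simp only [Matrix.of_apply, Matrix.cons_val', Matrix.cons_val_zero, Matrix.cons_val_one,
    Matrix.cons_val_fin_one, zero_mul, zero_add, one_pow, one_mul, div_one, ofReal_natCast]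
  congr 2
  field_simp
  ring

theorem hQ_heckeDiagMatrix {p : ℕ} (hp : p ≠ 0) {Q₀ : ℂ[X]} (hQ₀ : Q₀.natDegree ≤ m) (τ : ℍ) :
    ((((heckeDiagMatrix p : GL (Fin 2) ℝ) : Matrix (Fin 2) (Fin 2) ℝ).det : ℝ) : ℂ) ^ m *
      Q₀.eval (τ : ℂ) = denom (heckeDiagMatrix p) τ ^ m *
      (polyAct m (adjD p) Q₀).eval ((heckeDiagMatrix p • τ : ℍ) : ℂ) := by
  have hp' : (p : ℂ) ≠ 0 := by exact_mod_cast hp
  rw [val_det_heckeDiagMatrix hp, denom_heckeDiagMatrix hp, coe_heckeDiagMatrix_smul hp,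
    eval_polyAct m (adjD p) Q₀ hQ₀ _ (by simpa using hp')]
  simp only [Matrix.of_apply, Matrix.cons_val', Matrix.cons_val_zero, Matrix.cons_val_one,
    Matrix.cons_val_fin_one, zero_mul, zero_add, one_pow, one_mul, add_zero, ofReal_natCast]
  congr 2
  field_simp

/-- Generic Hecke step: the period of `f ∣ δ` in terms of a period of `f`. -/
theorem isPeriod_slash_of_hermite (f : CuspForm (Gamma0 N) ((m : ℤ) + 2)) {P Q₀ : ℂ[X]}
    (hP : P.natDegree ≤ m) {δ : GL (Fin 2) ℝ} (hδ : 0 < δ.val.det)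
    (hQ : ∀ τ : ℍ, ((δ.val.det : ℝ) : ℂ) ^ m * Q₀.eval (τ : ℂ) =
      denom δ τ ^ m * P.eval ((δ • τ : ℍ) : ℂ))
    {g h g' h' : SL(2, ℤ)} {a b d a' b' d' : ℤ} {had : (a : ℝ) * (d : ℝ) ≠ 0}
    {had' : (a' : ℝ) * (d' : ℝ) ≠ 0} (ha : 0 < a) (hd : 0 < d) (ha' : 0 < a') (hd' : 0 < d')
    (hg : δ * (g : GL (Fin 2) ℝ) = (g' : GL (Fin 2) ℝ) * upperTriangularGL a b d had)
    (hh : δ * (h : GL (Fin 2) ℝ) = (h' : GL (Fin 2) ℝ) * upperTriangularGL a' b' d' had') :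
    IsPeriod (⇑f ∣[(m : ℤ) + 2] δ) Q₀ (g : GL (Fin 2) ℝ) (h : GL (Fin 2) ℝ) (period f P g' h') := by
  have hv := isPeriod_period f hP g' h'
  have hv2 := hv.mul_upper (u := upperTriangularGL a b d had) (u' := upperTriangularGL a' b' d' had')
    (by exact_mod_cast ha : (0 : ℝ) < a) (by exact_mod_cast hd : (0 : ℝ) < d)
    (val_upperTriangularGL _ _ _ _)
    (by exact_mod_cast ha' : (0 : ℝ) < a') (by exact_mod_cast hd' : (0 : ℝ) < d')
    (val_upperTriangularGL _ _ _ _)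
  rw [← hg, ← hh] at hv2
  exact hv2.slash m hδ hQ

open Classical in
/-- The cusp `g'` with `(1 j; 0 p) g = g' (a b; 0 d)`. -/
noncomputable def hermU (p j : ℕ) (g : SL(2, ℤ)) : SL(2, ℤ) :=
  if hp : p ≠ 0 then (exists_hermite_heckeMatrix hp j g).choose else 1

open Classical in
/-- The cusp `g'` with `(p 0; 0 1) g = g' (a b; 0 d)`. -/
noncomputable def hermD (p : ℕ) (g : SL(2, ℤ)) : SL(2, ℤ) :=
  if hp : p ≠ 0 then (exists_hermite_heckeDiagMatrix hp g).choose else 1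

theorem hermU_spec {p : ℕ} (hp : p ≠ 0) (j : ℕ) (g : SL(2, ℤ)) :
    ∃ (a b d : ℤ) (had : (a : ℝ) * (d : ℝ) ≠ 0), 0 < a ∧ 0 < d ∧ a * d = p ∧
      heckeMatrix p j * (g : GL (Fin 2) ℝ) =
        (hermU p j g : GL (Fin 2) ℝ) * upperTriangularGL a b d had := by
  rw [hermU, dif_pos hp]
  exact (exists_hermite_heckeMatrix hp j g).choose_spec

theorem hermD_spec {p : ℕ} (hp : p ≠ 0) (g : SL(2, ℤ)) :
    ∃ (a b d : ℤ) (had : (a : ℝ) * (d : ℝ) ≠ 0), 0 < a ∧ 0 < d ∧ a * d = p ∧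
      heckeDiagMatrix p * (g : GL (Fin 2) ℝ) =
        (hermD p g : GL (Fin 2) ℝ) * upperTriangularGL a b d had := by
  rw [hermD, dif_pos hp]
  exact (exists_hermite_heckeDiagMatrix hp g).choose_spec

theorem isPeriod_slash_heckeMatrix (f : CuspForm (Gamma0 N) ((m : ℤ) + 2)) {p : ℕ} (hp : p ≠ 0)
    (j : ℕ) {Q₀ : ℂ[X]} (hQ₀ : Q₀.natDegree ≤ m) (g h : SL(2, ℤ)) :
    IsPeriod (⇑f ∣[(m : ℤ) + 2] heckeMatrix p j) Q₀ (g : GL (Fin 2) ℝ) (h : GL (Fin 2) ℝ)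
      (period f (polyAct m (adjU p j) Q₀) (hermU p j g) (hermU p j h)) := by
  obtain ⟨a, b, d, had, ha, hd, -, hg⟩ := hermU_spec hp j g
  obtain ⟨a', b', d', had', ha', hd', -, hh⟩ := hermU_spec hp j h
  have hδ : 0 < ((heckeMatrix p j : GL (Fin 2) ℝ) : Matrix (Fin 2) (Fin 2) ℝ).det := by
    rw [val_det_heckeMatrix hp]; exact_mod_cast Nat.pos_of_ne_zero hp
  exact isPeriod_slash_of_hermite f (natDegree_polyAct_le m _ Q₀) hδ
    (hQ_heckeMatrix hp j hQ₀) ha hd ha' hd' hg hh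

theorem isPeriod_slash_heckeDiagMatrix (f : CuspForm (Gamma0 N) ((m : ℤ) + 2)) {p : ℕ}
    (hp : p ≠ 0) {Q₀ : ℂ[X]} (hQ₀ : Q₀.natDegree ≤ m) (g h : SL(2, ℤ)) :
    IsPeriod (⇑f ∣[(m : ℤ) + 2] heckeDiagMatrix p) Q₀ (g : GL (Fin 2) ℝ) (h : GL (Fin 2) ℝ)
      (period f (polyAct m (adjD p) Q₀) (hermD p g) (hermD p h)) := by
  obtain ⟨a, b, d, had, ha, hd, -, hg⟩ := hermD_spec hp g
  obtain ⟨a', b', d', had', ha', hd', -, hh⟩ := hermD_spec hp h
  have hδ : 0 < ((heckeDiagMatrix p : GL (Fin 2) ℝ) : Matrix (Fin 2) (Fin 2) ℝ).det := by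
    rw [val_det_heckeDiagMatrix hp]; exact_mod_cast Nat.pos_of_ne_zero hp
  exact isPeriod_slash_of_hermite f (natDegree_polyAct_le m _ Q₀) hδ
    (hQ_heckeDiagMatrix hp hQ₀) ha hd ha' hd' hg hh

/-- Periods of `U_q f`. -/
theorem period_heckeU {q : ℕ} (hq : q ≠ 0) (hqN : q ∣ N) (f : CuspForm (Gamma0 N) ((m : ℤ) + 2))
    {Q₀ : ℂ[X]} (hQ₀ : Q₀.natDegree ≤ m) (g h : SL(2, ℤ)) :
    period (CuspForm.heckeULin ((m : ℤ) + 2) hqN f) Q₀ g h =
      ∑ j ∈ Finset.range q, period f (polyAct m (adjU q j) Q₀) (hermU q j g) (hermU q j h) := by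
  refine period_eq _ hQ₀ ?_
  rw [CuspForm.coe_heckeULin_apply, heckeU_def]
  exact IsPeriod.sum_left _ fun j _ => isPeriod_slash_heckeMatrix f hq j hQ₀ g h

/-- Periods of `T_p f`. -/
theorem period_heckeT {p : ℕ} (hp : p.Prime) (hpN : ¬ p ∣ N)
    (f : CuspForm (Gamma0 N) ((m : ℤ) + 2)) {Q₀ : ℂ[X]} (hQ₀ : Q₀.natDegree ≤ m)
    (g h : SL(2, ℤ)) :
    period (CuspForm.heckeTLin ((m : ℤ) + 2) hp hpN f) Q₀ g h =
      ∑ j ∈ Finset.range p, period f (polyAct m (adjU p j) Q₀) (hermU p j g) (hermU p j h) +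
        period f (polyAct m (adjD p) Q₀) (hermD p g) (hermD p h) := by
  refine period_eq _ hQ₀ ?_
  rw [CuspForm.coe_heckeTLin_apply, heckeT_def]
  exact (IsPeriod.sum_left _ fun j _ => isPeriod_slash_heckeMatrix f hp.ne_zero j hQ₀ g h).add_left
    (isPeriod_slash_heckeDiagMatrix f hp.ne_zero hQ₀ g h)

end weight

/-! ### Glue with the vertical integrals (for package (D)) -/

theorem isPrim_neg_vertInt {W : ℂ → ℂ} (hW : VertDecay W) :
    IsPrim (fun τ : ℍ => -vertInt W (τ : ℂ)) (fun τ : ℍ => W (τ : ℂ)) := by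
  intro τ
  have h := (hW.hasDerivAt_vertInt τ.im_pos).neg
  rw [neg_neg] at h
  refine h.congr_of_eventuallyEq ?_
  filter_upwards [isOpen_upperHalfPlaneSet.mem_nhds τ.im_pos] with w hw
  simp [Function.comp_apply, ofComplex_apply_of_im_pos hw]

theorem hasVLim_neg_vertInt {W : ℂ → ℂ} (hW : VertDecay W) :
    HasVLim (fun τ : ℍ => -vertInt W (τ : ℂ)) 0 := by
  intro x
  obtain ⟨C, c, A, hc, hb⟩ := hW.norm_vertInt_le |x|
  have hbd : Tendsto (fun t : ℝ => C * Real.exp (-c * t)) atTop (𝓝 0) := by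
    have h1 : Tendsto (fun t : ℝ => Real.exp (-c * t)) atTop (𝓝 0) :=
      Real.tendsto_exp_atBot.comp (tendsto_id.const_mul_atTop_of_neg (by linarith : -c < 0))
    simpa using h1.const_mul C
  refine squeeze_zero_norm' ?_ hbd
  filter_upwards [eventually_ge_atTop (max A 1)] with t ht
  have ht0 : 0 < t := lt_of_lt_of_le one_pos ((le_max_right _ _).trans ht)
  have hAt : A ≤ t := (le_max_left _ _).trans ht
  rw [norm_neg]
  have := hb ((vpt x t : ℍ) : ℂ) (by rw [vpt_coe x ht0]; simp) (by rw [vpt_coe x ht0]; simpa using hAt)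
  rw [vpt_coe x ht0] at this ⊢
  simpa using this

section weight

variable {m : ℕ}

theorem isPrim_neg_eichE (f : CuspForm (Gamma0 N) ((m : ℤ) + 2)) (g : SL(2, ℤ)) (Q : ℂ[X]) :
    IsPrim (fun τ : ℍ => -eichE f g Q τ)
      (integrand (⇑f ∣[(m : ℤ) + 2] (g : GL (Fin 2) ℝ)) Q) := by
  refine (isPrim_neg_vertInt (vertDecay_eichIntegrand f g Q)).congr fun τ => ?_
  simp [eichIntegrand, integrand, mul_comm]

theorem hasVLim_neg_eichE (f : CuspForm (Gamma0 N) ((m : ℤ) + 2)) (g : SL(2, ℤ)) (Q : ℂ[X]) :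
    HasVLim (fun τ : ℍ => -eichE f g Q τ) 0 :=
  hasVLim_neg_vertInt (vertDecay_eichIntegrand f g Q)

theorem coe_one_SL : ((1 : SL(2, ℤ)) : GL (Fin 2) ℝ) = 1 :=
  map_one (Matrix.SpecialLinearGroup.mapGL ℝ)

/-- **Glue for (D)**: vanishing of the period `∫_{∞}^{g∞} f P` gives the covariance of the
Eichler integrals. -/
theorem eichE_cov_of_period_eq_zero (f : CuspForm (Gamma0 N) ((m : ℤ) + 2)) {P Q : ℂ[X]}
    (hP : P.natDegree ≤ m) (g : SL(2, ℤ))
    (hQ : ∀ u : ℍ, Q.eval (u : ℂ) = denom g u ^ m * P.eval ((g • u : ℍ) : ℂ))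
    (h0 : period f P 1 g = 0) (z : ℍ) : eichE f 1 P (g • z) = eichE f g Q z := by
  -- the primitive `G₀ = -E 1 P` of `f P`, normalised at `∞`
  have hG₀ : IsPrim (fun τ : ℍ => -eichE f 1 P τ) (integrand (⇑f) P) := by
    have := isPrim_neg_eichE f 1 P
    rwa [coe_one_SL, SlashAction.slash_one] at this
  have hV₀ : HasVLim (fun τ : ℍ => (fun τ : ℍ => -eichE f 1 P τ)
      (((1 : SL(2, ℤ)) : GL (Fin 2) ℝ) • τ)) 0 := by
    have := hasVLim_neg_eichE f 1 P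
    simpa [coe_one_SL] using this
  -- its transfer to the cusp `g∞`
  have hG₁ : IsPrim (fun τ : ℍ => -eichE f 1 P ((g : GL (Fin 2) ℝ) • τ))
      (integrand (⇑f ∣[(m : ℤ) + 2] (g : GL (Fin 2) ℝ)) Q) := by
    refine hG₀.comp_slash m (det_coe_SL_pos g) fun τ => ?_
    rw [det_coe_SL, ofReal_one, one_pow, one_mul]
    exact hQ τ
  obtain ⟨c, hc⟩ := hG₁.exists_hasVLim (stripDecay_integrand f (coe_SL_mem_ratSubgroup g) Q)
  have hper : IsPeriod (⇑f) P ((1 : SL(2, ℤ)) : GL (Fin 2) ℝ) (g : GL (Fin 2) ℝ) (c - 0) :=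
    ⟨_, 0, c, hG₀, hV₀, hc, rfl⟩
  have hc0 : c = 0 := by
    have := period_eq f hP hper
    rw [h0] at this
    simpa using this.symm
  rw [hc0] at hc
  -- compare with `-E g Q`
  obtain ⟨k', hk'⟩ := hG₁.exists_eq_add_const (isPrim_neg_eichE f g Q)
  have h1 : HasVLim (fun τ : ℍ => -eichE f 1 P ((g : GL (Fin 2) ℝ) • τ)) (0 + k') := fun x => by
    have := (hasVLim_neg_eichE f g Q x).add_const k'
    exact this.congr fun t => (hk' _).symm
  have hk0 : k' = 0 := by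
    have := hc.unique h1
    simpa using this.symm
  have := hk' z
  rw [hk0, add_zero, neg_inj] at this
  exact this

end weight

end Fermat.Agent.S22.H5
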