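/-
S22: final assembly of the period data from `H5.period`.
-/
import Mathlib
import Fermat.Agent.S22.PeriodCusp
import Fermat.Agent.S22.C_helper9_Assembly

set_option autoImplicit false

open Complex Polynomial ModularForm CongruenceSubgroup CuspForm
open UpperHalfPlane hiding I
open scoped MatrixGroups

namespace Fermat.Agent.S22.H5

variable {N : ℕ} [NeZero N] {m : ℕ}

/-- complexification of an integral polynomial -/
noncomputable def toC (P : ℤ[X]) : ℂ[X] := P.map (Int.castRingHom ℂ)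

theorem natDegree_le_of_mem_degreeLT {P : ℤ[X]} (hP : P ∈ degreeLT ℤ (m + 1)) :
    P.natDegree ≤ m := by
  rw [mem_degreeLT] at hP
  by_cases h0 : P = 0
  · simp [h0]
  · have := (natDegree_lt_iff_degree_lt h0).mpr hP
    omega

theorem natDegree_toC_le {P : ℤ[X]} (hP : P ∈ degreeLT ℤ (m + 1)) : (toC P).natDegree ≤ m :=
  (natDegree_map_le).trans (natDegree_le_of_mem_degreeLT hP)

theorem toC_add (P Q : ℤ[X]) : toC (P + Q) = toC P + toC Q := Polynomial.map_add _

theorem toC_polyAct (A : Matrix (Fin 2) (Fin 2) ℤ) (P : ℤ[X]) :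
    toC (polyAct m A P) = polyAct m (A.map (Int.cast : ℤ → ℂ)) (toC P) := by
  rw [toC, polyAct_map]
  rfl

/-- the linear functional `f ↦ ∫_{g∞}^{h∞} f P` -/
noncomputable def evDual (g h : SL(2, ℤ)) (P : ℂ[X]) (hP : P.natDegree ≤ m) :
    Module.Dual ℂ (CuspForm (Gamma0 N) ((m : ℤ) + 2)) where
  toFun f := period f P g h
  map_add' f₁ f₂ := period_add_left f₁ f₂ hP g h
  map_smul' a f := by
    simpa using period_smul_left a f hP g h

/-- the coefficient module -/
noncomputable abbrev PolyM (m : ℕ) := degreeLT ℤ (m + 1)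

/-- the period pairing -/
noncomputable def ev (g h : SL(2, ℤ)) :
    PolyM m →+ Module.Dual ℂ (CuspForm (Gamma0 N) ((m : ℤ) + 2)) :=
  AddMonoidHom.mk' (fun P => evDual g h (toC P.1) (natDegree_toC_le P.2)) (fun P Q => by
    ext f
    change period f (toC ((P + Q : PolyM m) : ℤ[X])) g h = period f (toC P.1) g h + period f (toC Q.1) g h
    rw [Submodule.coe_add, toC_add]
    exact period_add_right f (natDegree_toC_le P.2) (natDegree_toC_le Q.2) g h)

theorem ev_apply (g h : SL(2, ℤ)) (P : PolyM m) (f : CuspForm (Gamma0 N) ((m : ℤ) + 2)) :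
    ev g h P f = period f (toC P.1) g h := rfl

/-- the action of integral matrices on the coefficient module -/
noncomputable def actM (A : Matrix (Fin 2) (Fin 2) ℤ) (P : PolyM m) : PolyM m :=
  ⟨polyAct m A P.1, polyAct_mem_degreeLT m A P.1⟩


/-- integral adjugate of `(1 j; 0 p)` -/
def MU (p j : ℕ) : Matrix (Fin 2) (Fin 2) ℤ := !![(p : ℤ), -(j : ℤ); 0, 1]

/-- integral adjugate of `(p 0; 0 1)` -/
def MD (p : ℕ) : Matrix (Fin 2) (Fin 2) ℤ := !![(1 : ℤ), 0; 0, (p : ℤ)]

theorem MU_map (p j : ℕ) : (MU p j).map (Int.cast : ℤ → ℂ) = adjU p j := by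
  ext i k
  fin_cases i <;> fin_cases k <;> simp [MU, adjU]

theorem MD_map (p : ℕ) : (MD p).map (Int.cast : ℤ → ℂ) = adjD p := by
  ext i k
  fin_cases i <;> fin_cases k <;> simp [MD, adjD]

theorem ev_chasles (g h l : SL(2, ℤ)) (P : PolyM m) :
    (ev g h P + ev h l P : Module.Dual ℂ (CuspForm (Gamma0 N) ((m : ℤ) + 2))) = ev g l P := by
  ext f
  rw [LinearMap.add_apply, ev_apply, ev_apply, ev_apply]
  exact period_chasles f (natDegree_toC_le P.2) g h l

theorem ev_inv (γ : Gamma0 N) (g h : SL(2, ℤ)) (P : PolyM m) :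
    (ev ((γ : SL(2, ℤ)) * g) ((γ : SL(2, ℤ)) * h) P :
      Module.Dual ℂ (CuspForm (Gamma0 N) ((m : ℤ) + 2))) =
      ev g h (actM ((γ : SL(2, ℤ)) : Matrix (Fin 2) (Fin 2) ℤ) P) := by
  ext f
  rw [ev_apply, ev_apply, period_inv f (natDegree_toC_le P.2) γ.2 g h]
  change _ = period f (toC (polyAct m _ P.1)) g h
  rw [toC_polyAct]

theorem ev_T (g : SL(2, ℤ)) (P : PolyM m) :
    (ev g (g * ModularGroup.T) P : Module.Dual ℂ (CuspForm (Gamma0 N) ((m : ℤ) + 2))) = 0 := by
  ext f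
  rw [ev_apply, LinearMap.zero_apply]
  exact period_mul_T f (natDegree_toC_le P.2) g

theorem ev_comp_heckeT {p : ℕ} (hp : p.Prime) (hpN : ¬ p ∣ N) (g h : SL(2, ℤ)) (P : PolyM m) :
    (ev g h P : Module.Dual ℂ (CuspForm (Gamma0 N) ((m : ℤ) + 2))) ∘ₗ
        CuspForm.heckeTLin ((m : ℤ) + 2) hp hpN =
      ∑ j ∈ Finset.range p, ev (hermU p j g) (hermU p j h) (actM (MU p j) P) +
        ev (hermD p g) (hermD p h) (actM (MD p) P) := by
  ext f
  rw [LinearMap.comp_apply, ev_apply, LinearMap.add_apply, LinearMap.sum_apply,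
    period_heckeT hp hpN f (natDegree_toC_le P.2) g h]
  congr 1
  · refine Finset.sum_congr rfl fun j _ => ?_
    rw [ev_apply]
    change _ = period f (toC (polyAct m _ P.1)) _ _
    rw [toC_polyAct, MU_map]
  · rw [ev_apply]
    change _ = period f (toC (polyAct m _ P.1)) _ _
    rw [toC_polyAct, MD_map]

theorem ev_comp_heckeU {q : ℕ} (hq : q ≠ 0) (hqN : q ∣ N) (g h : SL(2, ℤ)) (P : PolyM m) :
    (ev g h P : Module.Dual ℂ (CuspForm (Gamma0 N) ((m : ℤ) + 2))) ∘ₗ
        CuspForm.heckeULin ((m : ℤ) + 2) hqN =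
      ∑ j ∈ Finset.range q, ev (hermU q j g) (hermU q j h) (actM (MU q j) P) := by
  ext f
  rw [LinearMap.comp_apply, ev_apply, LinearMap.sum_apply,
    period_heckeU hq hqN f (natDegree_toC_le P.2) g h]
  refine Finset.sum_congr rfl fun j _ => ?_
  rw [ev_apply]
  change _ = period f (toC (polyAct m _ P.1)) _ _
  rw [toC_polyAct, MU_map]

/-- monomials as elements of the coefficient module -/
noncomputable def monoM (j : ℕ) (hj : j ≤ m) : PolyM m :=
  ⟨X ^ j, by
    rw [mem_degreeLT]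
    refine lt_of_le_of_lt (degree_X_pow_le j) ?_
    exact_mod_cast Nat.lt_succ_of_le hj⟩

theorem toC_monoM (j : ℕ) (hj : j ≤ m) : toC (monoM j hj : PolyM m).1 = X ^ j := by
  simp [toC, monoM]

/-- vanishing on the integral lattice implies vanishing of all complex periods -/
theorem period_eq_zero_of_ev (f : CuspForm (Gamma0 N) ((m : ℤ) + 2))
    (hf : ∀ (g h : SL(2, ℤ)) (P : PolyM m), ev g h P f = 0) {P : ℂ[X]} (hP : P.natDegree ≤ m)
    (g h : SL(2, ℤ)) : period f P g h = 0 := by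
  have hsum : P = ∑ j ∈ Finset.range (m + 1), P.coeff j • (X : ℂ[X]) ^ j := by
    conv_lhs => rw [P.as_sum_range' (m + 1) (Nat.lt_succ_of_le hP)]
    refine Finset.sum_congr rfl fun j _ => ?_
    rw [← C_mul_X_pow_eq_monomial, smul_eq_C_mul]
  have hdeg : ∀ j ∈ Finset.range (m + 1), (P.coeff j • (X : ℂ[X]) ^ j).natDegree ≤ m := by
    intro j hj
    refine (natDegree_smul_le _ _).trans ?_
    rw [natDegree_X_pow]
    exact Nat.lt_succ_iff.mp (Finset.mem_range.mp hj)
  rw [hsum, period_sum_right _ f hdeg g h]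
  refine Finset.sum_eq_zero fun j hj => ?_
  have hj' : j ≤ m := Nat.lt_succ_iff.mp (Finset.mem_range.mp hj)
  have hX : ((X : ℂ[X]) ^ j).natDegree ≤ m := by rw [natDegree_X_pow]; exact hj'
  rw [period_smul_right _ f hX g h]
  have := hf g h (monoM j hj')
  rw [ev_apply, toC_monoM] at this
  rw [this, mul_zero]

/-- The period data for weight `m + 2`. -/
noncomputable def periodData (N : ℕ) [NeZero N] (m : ℕ) :
    PeriodData N ((m : ℤ) + 2) (PolyM m) where
  ev := ev
  act γ P := actM ((γ : SL(2, ℤ)) : Matrix (Fin 2) (Fin 2) ℤ) P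
  chasles := ev_chasles
  hinv := ev_inv
  htriv := ev_T
  hecke := by
    rintro t (⟨ℓ, hℓ, hℓN, -, rfl⟩ | ⟨q, hqN, hq, -, rfl⟩) g h P
    · rw [ev_comp_heckeT hℓ hℓN g h P]
      refine Submodule.add_mem _ (Submodule.sum_mem _ fun j _ => ?_) ?_
      · exact Submodule.subset_span ⟨_, _, _, rfl⟩
      · exact Submodule.subset_span ⟨_, _, _, rfl⟩
    · rw [ev_comp_heckeU hq.ne_zero hqN g h P]
      exact Submodule.sum_mem _ fun j _ => Submodule.subset_span ⟨_, _, _, rfl⟩
  sep := by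
    intro f hf
    refine eq_zero_of_eichE_cov m f fun g P Q hP _ hQ z => ?_
    exact eichE_cov_of_period_eq_zero f hP g hQ (period_eq_zero_of_ev f hf hP 1 g) z

instance (m : ℕ) : Module.Finite ℤ (PolyM m) :=
  Module.Finite.equiv (degreeLTEquiv ℤ (m + 1)).symm

/-- **S22 for weights `≥ 2`.** -/
theorem finite_heckeAlgebra_weight_ge_two (N : ℕ) [NeZero N] (m : ℕ) (S : Set ℕ) :
    Module.Finite ℤ (heckeAlgebra N ((m : ℤ) + 2) S) :=
  finite_heckeAlgebra_of_periodData (periodData N m) S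

/-- **S22.** -/
theorem finite_heckeAlgebra (N : ℕ) [NeZero N] (k : ℤ) (S : Set ℕ) :
    Module.Finite ℤ (heckeAlgebra N k S) := by
  rcases le_or_gt k 0 with hk | hk
  · exact finite_heckeAlgebra_of_nonpos S hk
  · rcases eq_or_lt_of_le (show (1 : ℤ) ≤ k by omega) with h1 | h1
    · exact finite_heckeAlgebra_of_odd S (by rw [← h1]; exact odd_one)
    · obtain ⟨m, rfl⟩ : ∃ m : ℕ, k = (m : ℤ) + 2 := ⟨(k - 2).toNat, by omega⟩
      exact finite_heckeAlgebra_weight_ge_two N m S

end Fermat.Agent.S22.H5
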